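import Mathlib.RingTheory.Nullstellensatz
import Mathlib.RingTheory.MvPolynomial.Homogeneous
import Mathlib.RingTheory.MvPolynomial.Basic
import Mathlib.Algebra.MvPolynomial.Monad
import Mathlib.LinearAlgebra.Determinant
import Mathlib.LinearAlgebra.Dimension.Finrank
import Mathlib.LinearAlgebra.Matrix.NonsingularInverse
import Mathlib.FieldTheory.IsAlgClosed.Basic

/-!
# Algebraic sets, cones and elimination

Elementary projective elimination theory over an algebraically closed field: the projection
`{a | ∃ b ≠ 0, (a, b) ∈ S}` of an algebraic set `S` which is invariant under scaling of `b` is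
algebraic, and forms without a common non-trivial zero on an algebraic cone contain all
monomials of large degree modulo the equations of the cone.
-/

set_option autoImplicit false

noncomputable section

open MvPolynomial

namespace FermatAgent.MW

variable {k : Type*} [Field k] {σ τ : Type*}

/-- An algebraic subset of affine space. -/
def IsAlg (S : Set (σ → k)) : Prop :=
  ∃ P : Set (MvPolynomial σ k), S = {x | ∀ p ∈ P, eval x p = 0}

/-- A subset invariant under nonzero scalars. -/
def IsCone (S : Set (σ → k)) : Prop := ∀ x ∈ S, ∀ c : k, c ≠ 0 → c • x ∈ S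

theorem isAlg_setOf_eval_eq_zero (p : MvPolynomial σ k) : IsAlg {x : σ → k | eval x p = 0} :=
  ⟨{p}, by simp⟩

theorem isAlg_univ : IsAlg (Set.univ : Set (σ → k)) := ⟨∅, by simp⟩

theorem IsAlg.inter {S T : Set (σ → k)} (hS : IsAlg S) (hT : IsAlg T) : IsAlg (S ∩ T) := by
  obtain ⟨P, rfl⟩ := hS
  obtain ⟨Q, rfl⟩ := hT
  refine ⟨P ∪ Q, ?_⟩
  ext x
  simp only [Set.mem_inter_iff, Set.mem_ofPred_eq, Set.mem_union, or_imp, forall_and]

theorem isAlg_iInter {ι : Sort*} {S : ι → Set (σ → k)} (h : ∀ i, IsAlg (S i)) :
    IsAlg (⋂ i, S i) := by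
  choose P hP using h
  refine ⟨⋃ i, P i, ?_⟩
  ext x
  simp only [hP, Set.mem_iInter, Set.mem_ofPred_eq, Set.mem_iUnion, forall_exists_index]
  exact ⟨fun h p i hp => h i p hp, fun h i p hp => h p i hp⟩

theorem isAlg_forall {ι : Sort*} {p : ι → (σ → k) → Prop} (h : ∀ i, IsAlg {x | p i x}) :
    IsAlg {x : σ → k | ∀ i, p i x} := by
  rw [Set.ofPred_forall]
  exact isAlg_iInter h

theorem IsAlg.and {p q : (σ → k) → Prop} (hp : IsAlg {x | p x}) (hq : IsAlg {x | q x}) :
    IsAlg {x : σ → k | p x ∧ q x} := hp.inter hq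

/-- Preimage under a polynomial map. -/
theorem IsAlg.preimage {S : Set (τ → k)} (hS : IsAlg S) (f : τ → MvPolynomial σ k) :
    IsAlg {x : σ → k | (fun j => eval x (f j)) ∈ S} := by
  obtain ⟨P, rfl⟩ := hS
  refine ⟨(bind₁ f) '' P, ?_⟩
  ext x
  simp only [Set.mem_ofPred_eq, Set.forall_mem_image]
  exact forall_congr' fun p => imp_congr Iff.rfl (by
    simp only [← aeval_eq_eval, aeval_bind₁])

/-- Preimage under a reindexing of coordinates. -/
theorem IsAlg.comp {S : Set (τ → k)} (hS : IsAlg S) (g : τ → σ) :
    IsAlg {x : σ → k | x ∘ g ∈ S} := by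
  simpa [Function.comp_def] using hS.preimage fun j => X (g j)

/-! ### Homogeneous components -/

theorem eval_smul_of_isHomogeneous {p : MvPolynomial σ k} {n : ℕ} (hp : p.IsHomogeneous n)
    (c : k) (x : σ → k) : eval (c • x) p = c ^ n * eval x p := by
  rw [eval_eq, eval_eq, Finset.mul_sum]
  refine Finset.sum_congr rfl fun d hd => ?_
  rw [hp.degree_eq_sum_deg_support hd, ← Finset.prod_pow_eq_pow_sum]
  simp only [Pi.smul_apply, smul_eq_mul, mul_pow, Finset.prod_mul_distrib]
  ring

theorem eval_homogeneousComponent_eq_zero [Infinite k] {p : MvPolynomial σ k} {x : σ → k}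
    (h : ∀ c : k, c ≠ 0 → eval (c • x) p = 0) (n : ℕ) :
    eval x (homogeneousComponent n p) = 0 := by
  set N := p.totalDegree + 1 with hN
  let q : Polynomial k := ∑ i ∈ Finset.range N,
    Polynomial.C (eval x (homogeneousComponent i p)) * Polynomial.X ^ i
  have hq : q = 0 := by
    refine Polynomial.eq_zero_of_infinite_isRoot q ?_
    refine Set.Infinite.mono (s := {0}ᶜ) (fun c hc => ?_) (Set.finite_singleton 0).infinite_compl
    have hc' := h c hc
    conv_lhs at hc' => rw [← sum_homogeneousComponent p]
    simp only [map_sum] at hc'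
    simp only [Set.mem_ofPred_eq, Polynomial.IsRoot, q, Polynomial.eval_finsetSum,
      Polynomial.eval_mul, Polynomial.eval_C, Polynomial.eval_pow, Polynomial.eval_X]
    rw [← hc']
    refine Finset.sum_congr rfl fun i _ => ?_
    rw [eval_smul_of_isHomogeneous (homogeneousComponent_isHomogeneous i p), mul_comm]
  by_cases hn : n < N
  · have := congrArg (fun r : Polynomial k => r.coeff n) hq
    simpa [q, Polynomial.coeff_C_mul, Polynomial.coeff_X_pow, hn] using this
  · rw [homogeneousComponent_eq_zero n p (by omega), map_zero]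

theorem eval_eq_zero_of_components {p : MvPolynomial σ k} {x : σ → k}
    (h : ∀ n, eval x (homogeneousComponent n p) = 0) : eval x p = 0 := by
  conv_lhs => rw [← sum_homogeneousComponent p]
  simp [map_sum, h]

/-- The forms vanishing on a set. -/
def formsOf (Z : Set (σ → k)) : Set (ℕ × MvPolynomial σ k) :=
  {np | np.2.IsHomogeneous np.1 ∧ ∀ x ∈ Z, eval x np.2 = 0}

theorem mem_of_forms_vanish [Infinite k] {Z : Set (σ → k)} (hZ : IsAlg Z) (hc : IsCone Z)
    {x : σ → k} (h : ∀ np ∈ formsOf Z, eval x np.2 = 0) : x ∈ Z := by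
  obtain ⟨P, rfl⟩ := hZ
  intro p hp
  refine eval_eq_zero_of_components fun n =>
    h (n, homogeneousComponent n p) ⟨homogeneousComponent_isHomogeneous n p, fun y hy => ?_⟩
  exact eval_homogeneousComponent_eq_zero (fun c hc' => hc y hy c hc' p hp) n

/-! ### Projective Nullstellensatz -/

variable [IsAlgClosed k] [Finite σ]

omit [IsAlgClosed k] [Finite σ] in
theorem homogeneousComponent_mul_of_isHomogeneous {p g : MvPolynomial σ k} {d : ℕ}
    (hg : g.IsHomogeneous d) (M : ℕ) :
    homogeneousComponent M (p * g) =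
      if d ≤ M then homogeneousComponent (M - d) p * g else 0 := by
  classical
  conv_lhs => rw [← sum_homogeneousComponent p, Finset.sum_mul, map_sum]
  have hterm : ∀ i, homogeneousComponent M (homogeneousComponent i p * g) =
      if M = i + d then homogeneousComponent i p * g else 0 := fun i =>
    homogeneousComponent_of_mem ((homogeneousComponent_isHomogeneous i p).mul hg)
  simp only [hterm]
  by_cases hd : d ≤ M
  · rw [if_pos hd]
    have : ∀ i, (M = i + d) ↔ (i = M - d) := fun i => by omega
    simp only [this, Finset.sum_ite_eq', Finset.mem_range]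
    split
    · rfl
    · rw [homogeneousComponent_eq_zero (M - d) p (by omega), zero_mul]
  · rw [if_neg hd]
    refine Finset.sum_eq_zero fun i _ => if_neg (by omega)

/-- Forms without common non-trivial zero generate all forms of large degree. -/
theorem exists_degree_span_eq {ι : Type*} (g : ι → MvPolynomial σ k) (d : ι → ℕ)
    (hg : ∀ j, (g j).IsHomogeneous (d j))
    (h : ∀ x : σ → k, (∀ j, eval x (g j) = 0) → x = 0) :
    ∃ M₀ : ℕ, ∀ M, M₀ ≤ M → ∀ p : MvPolynomial σ k, p.IsHomogeneous M →
      ∃ (s : Finset ι) (c : ι → MvPolynomial σ k),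
        (∀ j ∈ s, d j ≤ M ∧ (c j).IsHomogeneous (M - d j)) ∧ p = ∑ j ∈ s, c j * g j := by
  classical
  cases nonempty_fintype σ
  set I := Ideal.span (Set.range g)
  have hX : ∀ i : σ, ∃ N : ℕ, (X i : MvPolynomial σ k) ^ N ∈ I := by
    intro i
    have : (X i : MvPolynomial σ k) ∈ vanishingIdeal k (zeroLocus k I) := by
      intro x hx
      have hx0 := h x fun j => by
        have := hx (g j) (Ideal.subset_span ⟨j, rfl⟩)
        rwa [aeval_eq_eval] at this
      simp [hx0]
    rw [vanishingIdeal_zeroLocus_eq_radical] at this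
    exact this
  choose N hN using hX
  refine ⟨(∑ i, N i) + 1, fun M hM p hp => ?_⟩
  have hpI : p ∈ I := by
    rw [p.as_sum]
    refine Ideal.sum_mem _ fun e he => ?_
    have hdeg : M = ∑ i, e i := by
      rw [← Finset.sum_subset (Finset.subset_univ e.support)
        (fun i _ hi => Finsupp.notMem_support_iff.mp hi)]
      exact hp.degree_eq_sum_deg_support he
    obtain ⟨i, hi⟩ : ∃ i, N i ≤ e i := by
      by_contra hall
      push Not at hall
      have := Finset.sum_le_sum fun i (_ : i ∈ Finset.univ) => (hall i).le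
      omega
    rw [monomial_eq, Finsupp.prod_fintype _ _ (fun _ => pow_zero _)]
    refine I.mul_mem_left _ ?_
    rw [← Finset.mul_prod_erase Finset.univ _ (Finset.mem_univ i),
      show e i = N i + (e i - N i) by omega, pow_add, mul_assoc]
    exact I.mul_mem_right _ (hN i)
  obtain ⟨c, hc⟩ := Finsupp.mem_span_range_iff_exists_finsupp.mp hpI
  rw [Finsupp.sum] at hc
  refine ⟨c.support.filter fun j => d j ≤ M,
    fun j => homogeneousComponent (M - d j) (c j), fun j hj =>
      ⟨(Finset.mem_filter.mp hj).2, homogeneousComponent_isHomogeneous _ _⟩, ?_⟩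
  conv_lhs => rw [← homogeneousComponent_eq_self hp, ← hc, map_sum]
  simp only [smul_eq_mul, homogeneousComponent_mul_of_isHomogeneous (hg _), Finset.sum_filter]

end FermatAgent.MW
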