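import Fermat.Agent.MW.Closed

/-!
# Evaluating determinants with some fixed points
-/

set_option autoImplicit false

noncomputable section

open AlgebraicCurve FermatAgent.Curve

namespace FermatAgent.MW

variable {K F : Type*} [Field K] [Field F] [Algebra K F] [IsAlgClosed K] [IsFunctionField1 K F]

omit [IsAlgClosed K] [IsFunctionField1 K F] in
theorem append_update {X : Type*} {r k : ℕ} (Q : Fin r → X) (T : Fin k → X) (j : Fin r) (x : X) :
    Fin.append (Function.update Q j x) T =
      Function.update (Fin.append Q T) (Fin.castAdd k j) x := by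
  funext i
  induction i using Fin.addCases with
  | left i =>
    rw [Fin.append_left]
    rcases eq_or_ne i j with rfl | h
    · simp
    · rw [Function.update_of_ne h,
        Function.update_of_ne (fun he => h (Fin.castAdd_injective _ _ he)), Fin.append_left]
  | right i =>
    rw [Fin.append_right, Function.update_of_ne, Fin.append_right]
    intro he
    have := congrArg Fin.val he
    simp only [Fin.val_natAdd, Fin.val_castAdd] at this
    omega

omit [IsAlgClosed K] [IsFunctionField1 K F] in
theorem append_update_right {X : Type*} {r k : ℕ} (Q : Fin r → X) (T : Fin k → X) (j : Fin k)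
    (x : X) :
    Fin.append Q (Function.update T j x) =
      Function.update (Fin.append Q T) (Fin.natAdd r j) x := by
  funext i
  induction i using Fin.addCases with
  | left i =>
    rw [Fin.append_left, Function.update_of_ne, Fin.append_left]
    intro he
    have := congrArg Fin.val he
    simp only [Fin.val_natAdd, Fin.val_castAdd] at this
    omega
  | right i =>
    rw [Fin.append_right]
    rcases eq_or_ne i j with rfl | h
    · simp
    · rw [Function.update_of_ne h,
        Function.update_of_ne (fun he => h (Fin.natAdd_injective _ _ he)), Fin.append_right]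

omit [IsAlgClosed K] in
theorem isAlt_append {X : Type*} {r k : ℕ} {f : (Fin (r + k) → X) → K} (hf : IsAlt f)
    (T : Fin k → X) : IsAlt fun Q : Fin r → X => f (Fin.append Q T) := by
  refine ⟨fun Q π => ?_, fun Q i j hij h => hf.2 _ (Fin.castAdd k i) (Fin.castAdd k j)
    (fun he => hij (Fin.castAdd_injective _ _ he)) (by simpa using h)⟩
  let π' : Equiv.Perm (Fin (r + k)) := finSumFinEquiv.permCongr (Equiv.Perm.sumCongr π 1)
  have e : Fin.append (Q ∘ π) T = Fin.append Q T ∘ π' := by
    funext i
    induction i using Fin.addCases with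
    | left i => simp [π']
    | right i => simp [π']
  show f (Fin.append (Q ∘ π) T) = _
  rw [e, hf.1]
  simp [π']

/-- Fixing some distinct points turns `det L(G)` into `det L(G - T)`. -/
theorem exists_detL_append {r k : ℕ} (hr : 0 < r) {G : Divisor K F} {T : Fin k → Place K F}
    (_hT : Function.Injective T) {t : Finset (Place K F)} (ht : ∀ P, P ∈ t ↔ ∃ j, T j = P)
    (hG : RR.ell G = r + k) (hGt : RR.ell (G - setDiv t) = r) :
    ∃ c : K, c ≠ 0 ∧ ∀ Q : Fin r → Place K F,
      detL (r + k) G (Fin.append Q T) =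
        c * ((∏ j, chi (setDiv t) (Q j)) * detL r (G - setDiv t) Q) := by
  classical
  obtain ⟨m, rfl⟩ : ∃ m, r = m + 1 := ⟨r - 1, by omega⟩
  have hsl := isSlice_detL hG
  have halt := isAlt_detL (m + 1 + k) G
  set W : (Fin (m + 1) → Place K F) → K := fun Q => detL (m + 1 + k) G (Fin.append Q T)
  have hW : IsSlice (LinearMap.range (subEvLin G (setDiv t) (setDiv_nonneg t))) W := by
    intro j Q
    have hmem := hsl (Fin.castAdd k j) (Fin.append Q T)
    simp only [← append_update] at hmem
    obtain ⟨f, hf⟩ := hmem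
    have hfT : ∀ P ∈ t, evLin G f P = 0 := fun P hP => by
      obtain ⟨l, rfl⟩ := (ht P).mp hP
      rw [hf]
      refine halt.2 _ (Fin.castAdd k j) (Fin.natAdd (m + 1) l) (fun he => ?_) (by simp)
      have := congrArg Fin.val he
      simp only [Fin.val_natAdd, Fin.val_castAdd] at this
      omega
    exact ⟨⟨_, (forall_evLin_eq_zero_iff f t).mp hfT⟩, hf⟩
  obtain ⟨c, hc⟩ := exists_eq_smul_chi_detL (setDiv_nonneg t) hW (isAlt_append halt T) hGt
  refine ⟨c, fun h0 => ?_, fun Q => congrFun hc Q⟩
  obtain ⟨u, hu, hut, hue⟩ := exists_setDiv_ell_eq_zero (G - setDiv t) t.finite_toSet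
  let e : Fin (m + 1) ≃ u := (Finset.equivFinOfCardEq (hu.trans hGt)).symm
  have hdisj : Disjoint t u := Finset.disjoint_right.mpr fun P hP h => hut P hP (Finset.mem_coe.mpr h)
  have hset : setDiv (t ∪ u) = setDiv t + setDiv u := Finset.sum_union hdisj
  have hmem : ∀ P, P ∈ t ∪ u ↔ ∃ i, Fin.append (fun j => (e j : Place K F)) T i = P := fun P => by
    rw [Finset.mem_union]
    constructor
    · rintro (h | h)
      · obtain ⟨l, rfl⟩ := (ht P).mp h
        exact ⟨Fin.natAdd _ l, by simp⟩
      · exact ⟨Fin.castAdd _ (e.symm ⟨P, h⟩), by simp⟩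
    · rintro ⟨i, rfl⟩
      induction i using Fin.addCases with
      | left i => exact Or.inr (by simp)
      | right i => exact Or.inl ((ht _).mpr ⟨i, by simp⟩)
  have hz : W (fun j => (e j : Place K F)) = 0 := by rw [hc, h0, zero_smul]; rfl
  have := (detL_eq_zero_iff hG hmem).mp hz
  rw [hset, ← sub_sub] at this
  exact this hue

/-- The slices of a non-zero alternating function span, when `l(D) = r`. -/
theorem span_slices {r : ℕ} {D : Divisor K F} (hD : RR.ell D = r)
    {I : Fin r → Place K F} (hI : detL r D I ≠ 0) :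
    Submodule.span K (Set.range fun j x => detL r D (Function.update I j x)) = evSpace D := by
  have : Module.Finite K (evSpace D) := Module.Finite.range _
  refine Submodule.eq_of_le_of_finrank_le ?_ ?_
  · rw [Submodule.span_le]
    rintro _ ⟨j, rfl⟩
    exact isSlice_detL hD j I
  · rw [finrank_span_eq_card (linearIndependent_slices (isAlt_detL r D) hI), Fintype.card_fin,
      evSpace, LinearMap.finrank_range_of_inj (evLin_injective D)]
    exact le_of_eq hD

/-- Multiplying into `L(A + B)` characterises `L(A)` on a large sample. -/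
theorem mem_resSpace_of_forall_mul {A B : Divisor K F} {s : Finset (Place K F)}
    (hB : 2 * (genusFF K F : ℤ) + 1 ≤ Divisor.degree B)
    (hs : (Divisor.degree (A + B + B)).toNat < s.card) {v : s → K}
    (hv : ∀ u ∈ evSpace B, (fun z : s => v z * u z) ∈ resSpace (evSpace (A + B)) s) :
    v ∈ resSpace (evSpace A) s := by
  classical
  have hex : ∀ f : riemannRochSpace B, ∃ g : riemannRochSpace (A + B),
      ∀ z : s, evLin (A + B) g z = v z * evLin B f z := fun f => by
    obtain ⟨_, ⟨g, rfl⟩, hg⟩ := hv _ (evLin_mem B f)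
    exact ⟨g, fun z => congrFun hg z⟩
  choose g hg using hex
  have hcross : ∀ f f' : riemannRochSpace B, (g f : F) * f' = (g f' : F) * f := fun f f' => by
    set e₁ : riemannRochSpace (A + B + B) := ⟨(g f : F) * f', mul_mem_L (g f).2 f'.2⟩
    set e₂ : riemannRochSpace (A + B + B) := ⟨(g f' : F) * f, mul_mem_L (g f').2 f.2⟩
    suffices e₁ = e₂ from congrArg Subtype.val this
    refine evLin_injective _ ?_
    by_contra hne
    have := fewZeros_evSpace (A + B + B) (evLin _ e₁ - evLin _ e₂)
      (Submodule.sub_mem _ (evLin_mem _ _) (evLin_mem _ _)) (sub_ne_zero.mpr hne) s fun x hx => by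
        rw [Pi.sub_apply, evLin_mul, evLin_mul, hg f ⟨x, hx⟩, hg f' ⟨x, hx⟩]
        ring
    omega
  obtain ⟨f₀, hf₀, hf₀0, -⟩ := RR.exists_mem_forall_ord_eq (D := B) (by omega) (∅ : Finset (Place K F))
  set φ := (g ⟨f₀, hf₀⟩ : F) / f₀
  have hφ : ∀ f : riemannRochSpace B, φ * (f : F) = g f := fun f => by
    rw [div_mul_eq_mul_div, div_eq_iff hf₀0]
    exact hcross ⟨f₀, hf₀⟩ f
  have hbpf : ∀ P : Place K F, ∃ f : riemannRochSpace B, (f : F) ≠ 0 ∧ P.ord (f : F) = -B P := fun P => by
    obtain ⟨f, hf, hf0, hfP⟩ := RR.exists_mem_forall_ord_eq (D := B) (by omega) {P}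
    exact ⟨⟨f, hf⟩, hf0, hfP P (Finset.mem_singleton_self P)⟩
  have hA : φ ∈ riemannRochSpace A := mem_riemannRochSpace_iff.mpr fun P => by
    rcases eq_or_ne φ 0 with h | h
    · exact Or.inl h
    · refine Or.inr ?_
      obtain ⟨f, hf0, hfP⟩ := hbpf P
      have hg0 : (g f : F) ≠ 0 := hφ f ▸ mul_ne_zero h hf0
      have h1 := (mem_riemannRochSpace_iff.mp (g f).2 P).resolve_left hg0
      rw [← hφ f, P.ord_mul h hf0, hfP, Finsupp.add_apply] at h1
      omega
  refine ⟨_, evLin_mem A ⟨φ, hA⟩, funext fun z => ?_⟩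
  obtain ⟨f, hf0, hfP⟩ := hbpf z
  have hne : evLin B f z ≠ 0 := fun h => by
    have := (mem_riemannRochSpace_iff.mp ((evLin_eq_zero_iff f z).mp h) z).resolve_left hf0
    rw [Finsupp.sub_apply, Finsupp.single_eq_same] at this
    omega
  have h1 := hg f z
  have h2 : evLin (A + B) (g f) z = evLin A ⟨φ, hA⟩ z * evLin B f z := by
    rw [← evLin_mul]
    exact congrArg (fun e => evLin (A + B) e z) (Subtype.ext (hφ f).symm)
  exact mul_right_cancel₀ hne (h2.symm.trans h1)

end FermatAgent.MW
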