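import Fermat.Agent.MW.Embedding

/-!
# The base divisor of an alternating slice function

A non-zero alternating function of `m + 1` places with slices in `L(G)` is a multiple of
`det L(G - E)` (twisted by the vanishing function of `E`) as soon as `deg E` is right.
-/

set_option autoImplicit false

noncomputable section

open AlgebraicCurve FermatAgent.Curve

namespace FermatAgent.MW

variable {K F : Type*} [Field K] [Field F] [Algebra K F] [IsAlgClosed K] [IsFunctionField1 K F]

/-- The function with which `L(G - E)` sits inside `L(G)` after trivialisation. -/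
def chi (E : Divisor K F) (P : Place K F) : K := valueAt P (triv P (E P))

theorem chi_eq_one {E : Divisor K F} {P : Place K F} (h : E P = 0) : chi E P = 1 := by
  rw [chi, h, triv_zero, ← map_one (algebraMap K F), valueAt_algebraMap]

omit [IsAlgClosed K] [IsFunctionField1 K F] in
theorem mem_L_of_sub {G E : Divisor K F} (hE : 0 ≤ E) {f : F}
    (hf : f ∈ riemannRochSpace (G - E)) : f ∈ riemannRochSpace G :=
  RR.riemannRochSpace_mono (sub_le_self G hE) hf

theorem evLin_of_sub {G E : Divisor K F} (hE : 0 ≤ E) (f : riemannRochSpace (G - E))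
    (P : Place K F) :
    evLin G ⟨f, mem_L_of_sub hE f.2⟩ P = chi E P * evLin (G - E) f P := by
  have hmem : triv P (E P) ∈ P.toValuationSubring :=
    (mem_iff_ord_nonneg' P).mpr (by rw [ord_triv]; simpa using Finsupp.le_def.mp hE P)
  have e : (G P) = E P + (G - E) P := by rw [Finsupp.sub_apply]; ring
  rw [evLin_apply, evLin_apply, chi, ← valueAt_mul P hmem (mul_triv_mem f.2 P), e, triv_add]
  congr 1
  ring

/-- `L(G - E)` inside the evaluations of `L(G)`. -/
def subEvLin (G E : Divisor K F) (hE : 0 ≤ E) :
    riemannRochSpace (G - E) →ₗ[K] (Place K F → K) where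
  toFun f := evLin G ⟨f, mem_L_of_sub hE f.2⟩
  map_add' f g := by rw [← map_add]; rfl
  map_smul' c f := by rw [RingHom.id_apply, ← map_smul]; rfl

theorem subEvLin_injective (G E : Divisor K F) (hE : 0 ≤ E) :
    Function.Injective (subEvLin G E hE) := fun _ _ h =>
  Subtype.ext (congrArg (fun x : riemannRochSpace G => (x : F)) (evLin_injective G h))

variable {m : ℕ} {G : Divisor K F} {W : (Fin (m + 1) → Place K F) → K}

/-- The element of `L(G)` giving the slice `x ↦ W (x, J)`. -/
def sliceElem (hW : IsSlice (evSpace G) W) (J : Fin m → Place K F) : riemannRochSpace G :=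
  (show (fun x => W (Fin.cons x J)) ∈ evSpace G by
    have : Nonempty (Place K F) := inferInstance
    simpa [Fin.update_cons_zero] using
      hW 0 (Fin.cons (Classical.arbitrary (Place K F)) J)).choose

theorem evLin_sliceElem (hW : IsSlice (evSpace G) W) (J : Fin m → Place K F) (x : Place K F) :
    evLin G (sliceElem hW J) x = W (Fin.cons x J) := by
  unfold sliceElem
  exact congrFun (Exists.choose_spec (p := fun f => evLin G f = fun x => W (Fin.cons x J)) _) x

theorem sliceElem_eq_zero_iff (hW : IsSlice (evSpace G) W) (J : Fin m → Place K F) :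
    sliceElem hW J = 0 ↔ ∀ x, W (Fin.cons x J) = 0 := by
  simp only [← evLin_sliceElem hW J]
  constructor
  · intro h x; rw [h, map_zero]; rfl
  · intro h; exact evLin_injective G (by rw [map_zero]; exact funext h)

/-- The base divisor of `W`: its values, the common vanishing of all slices, leading functions. -/
theorem exists_baseDivisor (hW : IsSlice (evSpace G) W) (hA : IsAlt W) (hW0 : W ≠ 0) :
    ∃ E : Divisor K F, ∃ hE : 0 ≤ E,
      IsSlice (LinearMap.range (subEvLin G E hE)) W ∧
      ∀ (P : Place K F), ∃ φ : (Fin m → Place K F) → K, IsSlice (evSpace G) φ ∧ φ ≠ 0 ∧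
        ∀ J, φ J ≠ 0 → (sliceElem hW J : F) ≠ 0 ∧ P.ord (sliceElem hW J : F) = -G P + E P := by
  classical
  obtain ⟨Q₀, hQ₀⟩ := Function.ne_iff.mp hW0
  have hJ₀ : (sliceElem hW (Fin.tail Q₀) : F) ≠ 0 := fun h => hQ₀ <| by
    have h' : sliceElem hW (Fin.tail Q₀) = 0 := Subtype.ext h
    simpa [Fin.cons_self_tail] using (sliceElem_eq_zero_iff hW _).mp h' (Q₀ 0)
  set f₀ := (sliceElem hW (Fin.tail Q₀) : F)
  let T : Place K F → Set ℤ := fun P => {n | ∀ J, (sliceElem hW J : F) = 0 ∨
    -G P + n ≤ P.ord (sliceElem hW J : F)}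
  have hT0 : ∀ P, (0 : ℤ) ∈ T P := fun P J => by
    rcases eq_or_ne (sliceElem hW J : F) 0 with h | h
    · exact Or.inl h
    · exact Or.inr (by
        simpa using (mem_riemannRochSpace_iff.mp (sliceElem hW J).2 P).resolve_left h)
  have hTb : ∀ P, ∀ n ∈ T P, n ≤ G P + P.ord f₀ := fun P n hn => by
    have := (hn (Fin.tail Q₀)).resolve_left hJ₀
    change -G P + n ≤ P.ord f₀ at this
    omega
  choose e he hemax using fun P => Int.exists_greatest_of_bdd (P := (· ∈ T P))
    ⟨G P + P.ord f₀, hTb P⟩ ⟨0, hT0 P⟩
  have hsupp : {P | e P ≠ 0}.Finite :=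
    ((G + RR.divFn f₀).support.finite_toSet).subset fun P hP => by
      rw [Finset.mem_coe, Finsupp.mem_support_iff, Finsupp.add_apply, RR.divFn_apply]
      have h1 := hTb P _ (he P)
      have h2 := hemax P 0 (hT0 P)
      have h3 : e P ≠ 0 := hP
      omega
  let E : Divisor K F := Finsupp.ofSupportFinite e hsupp
  have hE : 0 ≤ E := Finsupp.le_def.mpr fun P => hemax P 0 (hT0 P)
  have hmemE : ∀ J, (sliceElem hW J : F) ∈ riemannRochSpace (G - E) := fun J => by
    refine mem_riemannRochSpace_iff.mpr fun P => ?_
    rcases he P J with h | h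
    · exact Or.inl h
    · refine Or.inr ?_
      rw [Finsupp.sub_apply]
      show -(G P - e P) ≤ _
      omega
  have hslot0 : ∀ J, (fun x => W (Fin.cons x J)) ∈ LinearMap.range (subEvLin G E hE) := fun J =>
    ⟨⟨_, hmemE J⟩, funext fun x => evLin_sliceElem hW J x⟩
  refine ⟨E, hE, fun j Q => ?_, fun P => ?_⟩
  · rcases eq_or_ne j 0 with rfl | hj
    · have := hslot0 (Fin.tail Q)
      rwa [show (fun x => W (Function.update Q 0 x)) = fun x => W (Fin.cons x (Fin.tail Q)) by
        funext x; congr 1; rw [← Fin.update_cons_zero (x := Q 0), Fin.cons_self_tail]]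
    · set π := Equiv.swap 0 j
      have hx : (fun x => W (Function.update Q j x)) =
          (-1 : K) • fun x => W (Fin.cons x (Fin.tail (Q ∘ π))) := by
        funext x
        have e1 : (Fin.cons x (Fin.tail (Q ∘ π)) : Fin (m + 1) → Place K F) =
            Function.update Q j x ∘ π := by
          rw [Function.update_comp_equiv, show π.symm j = 0 by simp [π],
            ← Fin.update_cons_zero (x := (Q ∘ π) 0), Fin.cons_self_tail]
        rw [Pi.smul_apply, e1, hA.1, Equiv.Perm.sign_swap hj.symm]
        simp
      rw [hx]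
      exact Submodule.smul_mem _ _ (hslot0 _)
  · obtain ⟨t, ht⟩ := (RR.infinite_place (K := K) (F := F)).exists_subset_card_eq _
      ((Divisor.degree G).toNat + 1)
    let res : riemannRochSpace (G - E) →ₗ[K] (t → K) := LinearMap.pi fun x =>
      (LinearMap.proj (x : Place K F)).comp (subEvLin G E hE)
    have hres : Function.Injective res := by
      refine (injective_iff_map_eq_zero _).mpr fun f hf => ?_
      refine subEvLin_injective G E hE ?_
      rw [map_zero]
      by_contra hne
      have := fewZeros_evSpace G (subEvLin G E hE f) (evLin_mem _ _) hne t fun x hx =>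
        congrFun hf ⟨x, hx⟩
      omega
    obtain ⟨l, hl⟩ := LinearMap.exists_leftInverse_of_injective res (LinearMap.ker_eq_bot.mpr hres)
    let lam : (t → K) →ₗ[K] K := ((LinearMap.proj P).comp (evLin (G - E))).comp l
    let φ : (Fin m → Place K F) → K := fun J => lam fun x => W (Fin.cons (x : Place K F) J)
    have hφ : ∀ J, φ J = evLin (G - E) ⟨_, hmemE J⟩ P := fun J => by
      have h1 : res ⟨_, hmemE J⟩ = fun x : t => W (Fin.cons (x : Place K F) J) :=
        funext fun x => evLin_sliceElem hW J x
      show evLin (G - E) (l _) P = _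
      rw [← h1]
      exact congrArg (fun f => evLin (G - E) f P) (LinearMap.congr_fun hl _)
    refine ⟨φ, fun i J => ?_, ?_, fun J hJ => ?_⟩
    · have : (fun y => φ (Function.update J i y)) = ∑ x : t, lam (Pi.single x 1) •
          fun y => W (Function.update (Fin.cons (x : Place K F) J) i.succ y) := by
        funext y
        rw [Finset.sum_apply]
        show lam _ = _
        conv_lhs => rw [pi_eq_sum_univ' fun x : t => W (Fin.cons (x : Place K F) _)]
        rw [map_sum]
        refine Finset.sum_congr rfl fun x _ => ?_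
        rw [map_smul, smul_eq_mul, Pi.smul_apply, smul_eq_mul, mul_comm,
          Fin.cons_update]
      rw [this]
      exact Submodule.sum_mem _ fun x _ => Submodule.smul_mem _ _ (hW _ _)
    · intro h0
      have : ∀ J, (sliceElem hW J : F) = 0 ∨ -G P + (e P + 1) ≤ P.ord (sliceElem hW J : F) := by
        intro J
        have := (evLin_eq_zero_iff ⟨_, hmemE J⟩ P).mp ((hφ J).symm.trans (congrFun h0 J))
        refine (mem_riemannRochSpace_iff.mp this P).imp id fun h => ?_
        rw [Finsupp.sub_apply, Finsupp.sub_apply, Finsupp.single_eq_same] at h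
        change -(G P - e P - 1) ≤ _ at h
        simp only at h
        omega
      have := hemax P _ this
      omega
    · rw [hφ] at hJ
      have h0 : (sliceElem hW J : F) ≠ 0 := fun h => hJ <| by
        rw [show (⟨_, hmemE J⟩ : riemannRochSpace (G - E)) = 0 from Subtype.ext h, map_zero]
        rfl
      refine ⟨h0, ?_⟩
      have h1 := (mem_riemannRochSpace_iff.mp (hmemE J) P).resolve_left h0
      rw [Finsupp.sub_apply] at h1
      change -(G P - e P) ≤ _ at h1
      show _ = -G P + e P
      by_contra hne
      refine hJ ((evLin_eq_zero_iff _ P).mpr (mem_riemannRochSpace_iff.mpr fun v => Or.inr ?_))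
      have hv := (mem_riemannRochSpace_iff.mp (hmemE J) v).resolve_left h0
      rcases eq_or_ne v P with rfl | hvP
      · rw [Finsupp.sub_apply, Finsupp.sub_apply, Finsupp.single_eq_same]
        change -(G v - e v - 1) ≤ _
        simp only
        omega
      · rw [Finsupp.sub_apply, Finsupp.single_eq_of_ne hvP]
        simpa using hv

theorem le_ell_of_isSlice_sub {E : Divisor K F} (hE : 0 ≤ E)
    (hW : IsSlice (LinearMap.range (subEvLin G E hE)) W) (hA : IsAlt W) (hW0 : W ≠ 0) :
    m + 1 ≤ RR.ell (G - E) := by
  have : Module.Finite K (LinearMap.range (subEvLin G E hE)) := inferInstance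
  have := le_finrank_of_isAlt hW hA hW0
  rwa [LinearMap.finrank_range_of_inj (subEvLin_injective G E hE)] at this

theorem exists_eq_smul_chi_detL {E : Divisor K F} (hE : 0 ≤ E)
    (hW : IsSlice (LinearMap.range (subEvLin G E hE)) W) (hA : IsAlt W)
    (hell : RR.ell (G - E) = m + 1) :
    ∃ c : K, W = c • fun Q => (∏ j, chi E (Q j)) * detL (m + 1) (G - E) Q := by
  classical
  let b := Module.finBasisOfFinrankEq K (riemannRochSpace (G - E)) hell
  set u := fun i => subEvLin G E hE (b i)
  have hu : Submodule.span K (Set.range u) = LinearMap.range (subEvLin G E hE) := by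
    rw [← Submodule.map_top, ← b.span_eq, Submodule.map_span, ← Set.range_comp]
    rfl
  obtain ⟨d, hd, hdL⟩ := sameLine_detL b
  have hdet : detFun u = d⁻¹ • fun Q => (∏ j, chi E (Q j)) * detL (m + 1) (G - E) Q := by
    funext Q
    rw [detFun_smul_rows u (fun i => evLin (G - E) (b i)) (chi E)
      (fun i P => evLin_of_sub hE (b i) P) Q]
    show _ * evDet b Q = d⁻¹ * ((∏ j, chi E (Q j)) * detL (m + 1) (G - E) Q)
    rw [hdL, Pi.smul_apply, smul_eq_mul]
    field_simp
  by_cases h0 : detFun u = 0
  · -- impossible: `det` of a basis of evaluations is non-zero away from the support of `E`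
    exfalso
    have := RR.infinite_place (K := K) (F := F)
    obtain ⟨t, htc, htS, hte⟩ := exists_setDiv_ell_eq_zero (G - E) (S := (E.support : Set _))
      E.support.finite_toSet
    let eq : Fin (m + 1) ≃ t := (Finset.equivFinOfCardEq (htc.trans hell)).symm
    have := congrFun h0 fun j => (eq j : Place K F)
    rw [hdet, Pi.smul_apply, smul_eq_mul, Pi.zero_apply] at this
    rcases mul_eq_zero.mp this with h | h
    · exact inv_ne_zero hd h
    rcases mul_eq_zero.mp h with h | h
    · obtain ⟨j, -, hj⟩ := Finset.prod_eq_zero_iff.mp h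
      rw [chi_eq_one (Finsupp.notMem_support_iff.mp fun hmem =>
        htS _ (eq j).2 (Finset.mem_coe.mpr hmem))] at hj
      exact one_ne_zero hj
    · exact (detL_eq_zero_iff hell (t := t) fun P => ⟨fun hP => ⟨eq.symm ⟨P, hP⟩, by simp⟩,
        fun ⟨j, hj⟩ => hj ▸ (eq j).2⟩).mp h hte
  · obtain ⟨I, hI⟩ := Function.ne_iff.mp h0
    refine ⟨W I / detFun u I * d⁻¹, (exists_eq_smul_detFun hu hW hA hI).trans ?_⟩
    rw [← smul_smul, ← hdet]

end FermatAgent.MW
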