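import Fermat.Agent.MW.AlgSet
import Mathlib.RingTheory.Finiteness.Basic
import Mathlib.RingTheory.IntegralClosure.IsIntegralClosure.Basic
import Mathlib.RingTheory.Ideal.GoingUp

/-!
# Forms without common zero on an algebraic cone

Certificates `∑ q_{ij} F_j = X_i ^ (M + d)` on the cone and finiteness of the coordinate ring over
the subalgebra generated by the forms.
-/

set_option autoImplicit false

noncomputable section

open MvPolynomial

namespace FermatAgent.MW

variable {k : Type*} [Field k] [IsAlgClosed k] {σ : Type*} [Finite σ]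

/-- Forms without a common non-trivial zero on a cone generate all forms of large degree there. -/
theorem exists_forms_cert {ι : Type*} [Fintype ι] {Z : Set (σ → k)} (hZ : IsAlg Z) (hc : IsCone Z)
    (F : ι → MvPolynomial σ k) {d : ℕ} (hF : ∀ j, (F j).IsHomogeneous d)
    (h0 : ∀ x ∈ Z, (∀ j, eval x (F j) = 0) → x = 0) :
    ∃ M₀ : ℕ, ∀ M, M₀ ≤ M → ∀ p : MvPolynomial σ k, p.IsHomogeneous (M + d) →
      ∃ q : ι → MvPolynomial σ k, (∀ j, (q j).IsHomogeneous M) ∧
        ∀ x ∈ Z, eval x p = ∑ j, eval x (q j) * eval x (F j) := by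
  classical
  let g : ι ⊕ formsOf Z → MvPolynomial σ k := Sum.elim F fun np => np.1.2
  let deg : ι ⊕ formsOf Z → ℕ := Sum.elim (fun _ => d) fun np => np.1.1
  obtain ⟨M₀, hM₀⟩ := exists_degree_span_eq g deg
    (fun j => by cases j with
      | inl j => exact hF j
      | inr np => exact np.2.1)
    (fun x hx => h0 x (mem_of_forms_vanish hZ hc fun np hnp => hx (Sum.inr ⟨np, hnp⟩))
      fun j => hx (Sum.inl j))
  refine ⟨M₀, fun M hM p hp => ?_⟩
  obtain ⟨s, c, hcs, hsum⟩ := hM₀ (M + d) (by omega) p hp
  refine ⟨fun j => if (Sum.inl j) ∈ s then c (Sum.inl j) else 0, fun j => ?_, fun x hx => ?_⟩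
  · simp only
    split
    · next h =>
      have := (hcs _ h).2
      simpa [deg] using this
    · exact isHomogeneous_zero _ _ _
  · rw [hsum, map_sum, ← Finset.sum_filter_add_sum_filter_not s (fun j => j.isLeft)]
    have hright : ∑ j ∈ s.filter (fun j => ¬ j.isLeft), eval x (c j * g j) = 0 := by
      refine Finset.sum_eq_zero fun j hj => ?_
      cases j with
      | inl j => simp at hj
      | inr np => rw [map_mul]; simp only [g, Sum.elim_inr, np.2.2 x hx, mul_zero]
    rw [hright, add_zero]
    symm
    calc ∑ j, eval x (if Sum.inl j ∈ s then c (Sum.inl j) else 0) * eval x (F j)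
        = ∑ j ∈ Finset.univ.filter (fun j => Sum.inl j ∈ s), eval x (c (Sum.inl j) * F j) := by
          rw [Finset.sum_filter]
          exact Finset.sum_congr rfl fun j _ => by split <;> simp
      _ = ∑ j ∈ s.filter (fun j => j.isLeft), eval x (c j * g j) := by
          refine Finset.sum_bij (fun j _ => Sum.inl j) (fun j hj => ?_)
            (fun _ _ _ _ h => Sum.inl_injective h) (fun j hj => ?_) (fun j _ => rfl)
          · simpa using hj
          · cases j with
            | inl j => exact ⟨j, by simpa using hj, rfl⟩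
            | inr np => simp at hj

/-- The coordinate ring of a set. -/
abbrev CoordRing (Z : Set (σ → k)) : Type _ := MvPolynomial σ k ⧸ vanishingIdeal k Z

/-- Evaluation of a regular function at a point. -/
def evalAt {Z : Set (σ → k)} {x : σ → k} (hx : x ∈ Z) : CoordRing Z →ₐ[k] k :=
  Ideal.Quotient.liftₐ _ (aeval x) fun _ hp => hp x hx

omit [IsAlgClosed k] [Finite σ] in
theorem evalAt_mk {Z : Set (σ → k)} {x : σ → k} (hx : x ∈ Z) (p : MvPolynomial σ k) :
    evalAt hx (Ideal.Quotient.mk _ p) = eval x p := by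
  simp [evalAt]

omit [IsAlgClosed k] [Finite σ] in
theorem coordRing_ext {Z : Set (σ → k)} {a b : CoordRing Z}
    (h : ∀ x (hx : x ∈ Z), evalAt hx a = evalAt hx b) : a = b := by
  obtain ⟨p, rfl⟩ := Ideal.Quotient.mk_surjective a
  obtain ⟨q, rfl⟩ := Ideal.Quotient.mk_surjective b
  refine (Ideal.Quotient.eq).mpr fun x hx => ?_
  rw [map_sub]
  simpa [evalAt_mk, sub_eq_zero, aeval_eq_eval] using h x hx

omit [IsAlgClosed k] [Finite σ] in
/-- Algebra homs out of a coordinate ring are points of the zero locus of the equations. -/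
theorem exists_point_of_algHom {Z : Set (σ → k)} (hZ : IsAlg Z) (φ : CoordRing Z →ₐ[k] k) :
    ∃ x ∈ Z, ∀ p, φ (Ideal.Quotient.mk _ p) = eval x p := by
  let ψ : MvPolynomial σ k →ₐ[k] k := φ.comp (Ideal.Quotient.mkₐ k _)
  have hψ : ∀ p, ψ p = eval (fun i => ψ (X i)) p := fun p => by
    conv_lhs => rw [MvPolynomial.aeval_unique ψ]
    rfl
  refine ⟨fun i => ψ (X i), ?_, fun p => hψ p⟩
  obtain ⟨P, rfl⟩ := hZ
  intro p hp
  rw [← hψ]
  show φ (Ideal.Quotient.mk _ p) = 0
  have hmem : p ∈ vanishingIdeal k {x | ∀ p ∈ P, eval x p = 0} := fun y hy => by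
    simpa [aeval_eq_eval] using hy p hp
  rw [Ideal.Quotient.eq_zero_iff_mem.mpr hmem, map_zero]

/-- The coordinate ring is finite over the algebra generated by the forms. -/
theorem finite_adjoin_forms {ι : Type*} [Fintype ι] {Z : Set (σ → k)} (hZ : IsAlg Z)
    (hc : IsCone Z) (F : ι → MvPolynomial σ k) {d : ℕ} (hd : 0 < d)
    (hF : ∀ j, (F j).IsHomogeneous d)
    (h0 : ∀ x ∈ Z, (∀ j, eval x (F j) = 0) → x = 0) :
    Module.Finite
      (Algebra.adjoin k (Set.range fun j => Ideal.Quotient.mk (vanishingIdeal k Z) (F j)))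
      (CoordRing Z) := by
  classical
  cases nonempty_fintype σ
  obtain ⟨M₀, hM₀⟩ := exists_forms_cert hZ hc F hF h0
  set S := Algebra.adjoin k (Set.range fun j => Ideal.Quotient.mk (vanishingIdeal k Z) (F j))
  let low : Set (CoordRing Z) := (fun e : σ →₀ ℕ => Ideal.Quotient.mk _ (monomial e 1)) ''
    {e | Finsupp.degree e < M₀ + d}
  have hlow : low.Finite := (Finsupp.finite_of_degree_lt _).image _
  have key : ∀ n (p : MvPolynomial σ k), p.IsHomogeneous n →
      Ideal.Quotient.mk (vanishingIdeal k Z) p ∈ Submodule.span S low := by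
    intro n
    induction n using Nat.strong_induction_on with
    | _ n ih =>
      intro p hp
      by_cases hn : n < M₀ + d
      · rw [p.as_sum, map_sum]
        refine Submodule.sum_mem _ fun e he => ?_
        have hdeg : Finsupp.degree e = n := by
          by_contra hne
          exact mem_support_iff.mp he (hp.coeff_eq_zero hne)
        rw [← mul_one (coeff e p), ← C_mul_monomial, map_mul]
        have : Ideal.Quotient.mk (vanishingIdeal k Z) (C (coeff e p)) *
            Ideal.Quotient.mk (vanishingIdeal k Z) (monomial e 1) =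
            algebraMap k S (coeff e p) • Ideal.Quotient.mk (vanishingIdeal k Z) (monomial e 1) := rfl
        rw [this]
        exact Submodule.smul_mem _ _
          (Submodule.subset_span ⟨e, show Finsupp.degree e < _ by omega, rfl⟩)
      · obtain ⟨q, hq, heq⟩ := hM₀ (n - d) (by omega) p (by rwa [Nat.sub_add_cancel (by omega)])
        have : Ideal.Quotient.mk (vanishingIdeal k Z) p = ∑ j,
            (⟨_, Algebra.subset_adjoin ⟨j, rfl⟩⟩ : S) • Ideal.Quotient.mk (vanishingIdeal k Z) (q j)
            := by
          refine coordRing_ext fun x hx => ?_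
          simp only [map_sum, Subalgebra.smul_def, smul_eq_mul, map_mul, evalAt_mk, heq x hx]
          exact Finset.sum_congr rfl fun j _ => mul_comm _ _
        rw [this]
        exact Submodule.sum_mem _ fun j _ => Submodule.smul_mem _ _ (ih (n - d) (by omega) _ (hq j))
  refine ⟨⟨hlow.toFinset, ?_⟩⟩
  rw [Set.Finite.coe_toFinset, eq_top_iff]
  intro a _
  obtain ⟨p, rfl⟩ := Ideal.Quotient.mk_surjective a
  rw [← sum_homogeneousComponent p, map_sum]
  exact Submodule.sum_mem _ fun n _ => key n _ (homogeneousComponent_isHomogeneous n p)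

end FermatAgent.MW
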