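import Fermat.Agent.MW.AlgSet
import Mathlib.RingTheory.MvPolynomial.Homogeneous
import Mathlib.Data.Finsupp.Weight
import Mathlib.LinearAlgebra.Matrix.ToLinearEquiv
import Mathlib.LinearAlgebra.Dimension.StrongRankCondition

/-!
# Projective elimination and lower-bound certificates
-/

set_option autoImplicit false

noncomputable section

open MvPolynomial

namespace FermatAgent.MW

variable {k : Type*} [Field k] {σ τ : Type*}

/-- View a polynomial in `(a, b)` as a polynomial in `b` with coefficients in `k[a]`. -/
def curryPoly : MvPolynomial (σ ⊕ τ) k →ₐ[k] MvPolynomial τ (MvPolynomial σ k) :=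
  aeval (Sum.elim (fun i => C (X i)) X)

/-- Specialise the coefficients of a polynomial in `b`. -/
def specialise (a : σ → k) : MvPolynomial τ (MvPolynomial σ k) →+* MvPolynomial τ k :=
  MvPolynomial.map (eval a)

theorem eval_specialise_curryPoly (a : σ → k) (b : τ → k) (p : MvPolynomial (σ ⊕ τ) k) :
    eval b (specialise a (curryPoly p)) = eval (Sum.elim a b) p := by
  induction p using MvPolynomial.induction_on with
  | C c => simp [curryPoly, specialise]
  | add p q hp hq => simp only [map_add, hp, hq]
  | mul_X p n hp => cases n <;> simp_all [curryPoly, specialise]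

theorem homogeneousComponent_map {R S : Type*} [CommSemiring R] [CommSemiring S] (f : R →+* S)
    (n : ℕ) (p : MvPolynomial τ R) :
    homogeneousComponent n (MvPolynomial.map f p) =
      MvPolynomial.map f (homogeneousComponent n p) := by
  ext d
  simp only [coeff_homogeneousComponent, coeff_map]
  split <;> simp

/-- Monomials of degree `M`. -/
abbrev Mon (τ : Type*) (M : ℕ) := {e : τ →₀ ℕ // Finsupp.degree e = M}

instance finite_mon [Finite τ] (M : ℕ) : Finite (Mon τ M) :=
  (Finsupp.finite_of_degree_eq M).to_subtype

theorem eval_eq_sum_mon [Fintype τ] {M : ℕ} [Fintype (Mon τ M)] {p : MvPolynomial τ k}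
    (hp : p.IsHomogeneous M) (b : τ → k) :
    eval b p = ∑ e : Mon τ M, coeff e.1 p * ∏ i, b i ^ e.1 i := by
  classical
  have hm := Finset.sum_map Finset.univ ⟨fun e : Mon τ M => e.1, Subtype.val_injective⟩
    (fun d => coeff d p * ∏ i, b i ^ d i)
  simp only [Function.Embedding.coeFn_mk] at hm
  rw [eval_eq', ← hm]
  refine Finset.sum_subset (fun d hd => ?_) (fun d _ hd => by
    rw [notMem_support_iff.mp hd, zero_mul])
  refine Finset.mem_map.mpr ⟨⟨d, ?_⟩, Finset.mem_univ _, rfl⟩
  by_contra hne
  exact mem_support_iff.mp hd (hp.coeff_eq_zero hne)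

variable [IsAlgClosed k]

/-- Projection from a projective factor is closed. -/
theorem IsAlg.exists_ne_zero [Finite τ] {S : Set (σ ⊕ τ → k)} (hS : IsAlg S)
    (hsc : ∀ a : σ → k, ∀ b : τ → k, ∀ c : k, c ≠ 0 → Sum.elim a b ∈ S → Sum.elim a (c • b) ∈ S) :
    IsAlg {a : σ → k | ∃ b : τ → k, b ≠ 0 ∧ Sum.elim a b ∈ S} := by
  classical
  obtain ⟨P, rfl⟩ := hS
  have : ∀ M, Fintype (Mon τ M) := fun M => Fintype.ofFinite _
  let G : Type _ := P × ℕ
  let g : G → MvPolynomial τ (MvPolynomial σ k) :=
    fun jn => homogeneousComponent jn.2 (curryPoly jn.1.1)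
  have hgS : ∀ a b, (∀ j : G, eval b (specialise a (g j)) = 0) ↔
      Sum.elim a b ∈ {x | ∀ p ∈ P, eval x p = 0} := by
    intro a b
    constructor
    · intro h p hp
      rw [← eval_specialise_curryPoly]
      refine eval_eq_zero_of_components fun n => ?_
      simpa only [specialise, homogeneousComponent_map] using h (⟨p, hp⟩, n)
    · intro h jn
      have hv : ∀ c : k, c ≠ 0 → eval (c • b) (specialise a (curryPoly jn.1.1)) = 0 := fun c hc => by
        rw [eval_specialise_curryPoly]
        exact hsc a b c hc h _ jn.1.2
      have := eval_homogeneousComponent_eq_zero hv jn.2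
      rwa [specialise, homogeneousComponent_map] at this
  -- the columns whose span is the degree `M` part of the ideal
  let vec : ∀ M : ℕ, {x : G × (τ →₀ ℕ) // x.1.2 + Finsupp.degree x.2 = M} → Mon τ M →
      MvPolynomial σ k := fun M x e => coeff e.1 (monomial x.1.2 1 * g x.1.1)
  have hvec : ∀ (a : σ → k) M x (e : Mon τ M), eval a (vec M x e) =
      coeff e.1 (monomial x.1.2 1 * specialise a (g x.1.1)) := fun a M x e => by
    simp only [vec, specialise]
    rw [← coeff_map (f := eval a), map_mul, map_monomial, map_one]
  have hset : {a : σ → k | ∃ b : τ → k, b ≠ 0 ∧ Sum.elim a b ∈ {x | ∀ p ∈ P, eval x p = 0}} =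
      {a | ∀ (M : ℕ) (c : Mon τ M → {x : G × (τ →₀ ℕ) // x.1.2 + Finsupp.degree x.2 = M}),
        eval a (Matrix.det (Matrix.of fun i e => vec M (c i) e)) = 0} := by
    ext a
    cases nonempty_fintype τ
    constructor
    · rintro ⟨b, hb, hab⟩ M c
      rw [RingHom.map_det]
      by_contra hdet
      obtain ⟨i₀, hi₀⟩ := Function.ne_iff.mp hb
      have hker : Matrix.mulVec ((eval a).mapMatrix (Matrix.of fun i e => vec M (c i) e))
          (fun e => ∏ i, b i ^ e.1 i) = 0 := by
        funext i
        simp only [Matrix.mulVec, dotProduct, RingHom.mapMatrix_apply, Matrix.map_apply,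
          Matrix.of_apply, hvec, Pi.zero_apply]
        have hqd : (monomial (c i).1.2 (1 : k) * specialise a (g (c i).1.1)).IsHomogeneous M := by
          have := (isHomogeneous_monomial (1 : k) (d := (c i).1.2) rfl).mul
            ((homogeneousComponent_isHomogeneous (c i).1.1.2 (curryPoly (c i).1.1.1.1)).map (eval a))
          rwa [add_comm, (c i).2] at this
        rw [← eval_eq_sum_mon hqd, map_mul, (hgS a b).mpr hab, mul_zero]
      have h1 := congrFun (Matrix.eq_zero_of_mulVec_eq_zero hdet hker)
        ⟨Finsupp.single i₀ M, Finsupp.degree_single _ _⟩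
      simp only [Pi.zero_apply] at h1
      refine (Finset.prod_ne_zero_iff.mpr fun i _ => ?_) h1
      rcases eq_or_ne i i₀ with rfl | hi
      · rw [Finsupp.single_eq_same]; exact pow_ne_zero _ hi₀
      · rw [Finsupp.single_eq_of_ne hi, pow_zero]; exact one_ne_zero
    · intro h
      by_contra hno
      obtain ⟨M, hM⟩ := exists_degree_span_eq (fun j : G => specialise a (g j)) (fun j => j.2)
        (fun j => (homogeneousComponent_isHomogeneous _ _).map _)
        (fun b hb => by
          by_contra hb0
          exact hno ⟨b, hb0, (hgS a b).mp hb⟩)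
      let X := {x : G × (τ →₀ ℕ) // x.1.2 + Finsupp.degree x.2 = M}
      let v : X → Mon τ M → k := fun x e => eval a (vec M x e)
      have htop : Submodule.span k (Set.range v) = ⊤ := by
        rw [eq_top_iff]
        intro f _
        obtain ⟨s, c, hc, hp⟩ := hM M le_rfl (∑ e : Mon τ M, monomial e.1 (f e))
          (IsHomogeneous.sum _ _ _ fun e _ => isHomogeneous_monomial _ e.2)
        have hf : f = ∑ j ∈ s, ∑ d ∈ (c j).support, fun e : Mon τ M =>
            coeff d (c j) * coeff e.1 (monomial d 1 * specialise a (g j)) := by
          funext e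
          have h1 := congrArg (coeff e.1) hp
          rw [coeff_sum, Finset.sum_eq_single e (fun e' _ hne => by
            rw [coeff_monomial, if_neg fun h => hne (Subtype.ext h)]) (by simp), coeff_monomial,
            if_pos rfl, coeff_sum] at h1
          rw [h1]
          simp only [Finset.sum_apply]
          refine Finset.sum_congr rfl fun j _ => ?_
          conv_lhs => rw [(c j).as_sum, Finset.sum_mul, coeff_sum]
          refine Finset.sum_congr rfl fun d _ => ?_
          rw [← mul_one (coeff d (c j)), ← C_mul_monomial, mul_assoc, coeff_C_mul, mul_one]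
        rw [hf]
        refine Submodule.sum_mem _ fun j hj => Submodule.sum_mem _ fun d hd => ?_
        have hdeg : j.2 + Finsupp.degree d = M := by
          have h1 := (hc j hj).1
          have h2 : Finsupp.degree d = M - j.2 := by
            by_contra hne
            exact mem_support_iff.mp hd ((hc j hj).2.coeff_eq_zero hne)
          omega
        have : (fun e : Mon τ M => coeff d (c j) * coeff e.1 (monomial d 1 * specialise a (g j))) =
            coeff d (c j) • v ⟨(j, d), hdeg⟩ := by
          funext e
          simp only [v, hvec, Pi.smul_apply, smul_eq_mul]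
        rw [this]
        exact Submodule.smul_mem _ _ (Submodule.subset_span ⟨_, rfl⟩)
      obtain ⟨t, ht, hsp, hli⟩ := exists_linearIndependent k (Set.range v)
      rw [htop] at hsp
      let B := Module.Basis.mk hli (by rw [Subtype.range_coe, hsp])
      have : Fintype t := FiniteDimensional.fintypeBasisIndex B
      have hcard : Fintype.card (Mon τ M) = Fintype.card t := by
        rw [← Module.finrank_eq_card_basis B, Module.finrank_pi]
      let E : Mon τ M ≃ t := Fintype.equivOfCardEq hcard
      choose pre hpre using fun x : t => ht x.2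
      have hdet := h M fun e => pre (E e)
      rw [RingHom.map_det] at hdet
      have hrow : LinearIndependent k
          ((eval a).mapMatrix (Matrix.of fun i e => vec M (pre (E i)) e)).row := by
        have h2 := hli.comp E E.injective
        have heq : ((eval a).mapMatrix (Matrix.of fun i e => vec M (pre (E i)) e)).row =
            (fun x : t => (x : Mon τ M → k)) ∘ E := by
          funext i e
          simp only [Matrix.row, RingHom.mapMatrix_apply, Matrix.map_apply, Matrix.of_apply,
            Function.comp_apply]
          exact congrFun (hpre (E i)) e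
        rw [heq]
        exact h2
      rw [Matrix.linearIndependent_rows_iff_isUnit, Matrix.isUnit_iff_isUnit_det, hdet] at hrow
      exact not_isUnit_zero hrow
  rw [hset]
  exact isAlg_forall fun M => isAlg_forall fun c => isAlg_setOf_eval_eq_zero _

end FermatAgent.MW
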