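import Fermat.Agent.MW.Slice
import Fermat.Agent.MW.AlgSet
import Mathlib.LinearAlgebra.Basis.VectorSpace

/-!
# Slice functions on a finite set: algebraicity and extension
-/

set_option autoImplicit false

noncomputable section

open MvPolynomial

namespace FermatAgent.MW

variable {k : Type*} [Field k] {X : Type*} {r : ℕ}

/-- Restriction of functions to a finite set. -/
def resLin (s : Finset X) : (X → k) →ₗ[k] (s → k) where
  toFun u z := u z
  map_add' _ _ := rfl
  map_smul' _ _ := rfl

/-- The restrictions to `s` of the elements of `U`. -/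
def resSpace (U : Submodule k (X → k)) (s : Finset X) : Submodule k (s → k) := U.map (resLin s)

/-- Slices of a function of tuples from `s` lie in the restriction of `U`. -/
def IsResSlice (U : Submodule k (X → k)) (s : Finset X) (t : (Fin r → s) → k) : Prop :=
  ∀ (j : Fin r) (Q : Fin r → s), (fun z => t (Function.update Q j z)) ∈ resSpace U s

/-- Restriction to tuples from `s`. -/
def resTuple (s : Finset X) (f : (Fin r → X) → k) : (Fin r → s) → k := fun Q => f fun j => Q j

theorem isResSlice_resTuple {U : Submodule k (X → k)} {f : (Fin r → X) → k} (hf : IsSlice U f)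
    (s : Finset X) : IsResSlice U s (resTuple s f) := by
  classical
  intro j Q
  refine ⟨_, hf j (fun i => Q i), funext fun z => ?_⟩
  show f (Function.update (fun i => (Q i : X)) j z) = f fun i => (Function.update Q j z i : X)
  congr 1
  funext i
  rcases eq_or_ne i j with rfl | h <;> simp [*]

theorem resTuple_eq_resTuple_iff {U : Submodule k (X → k)} {d : ℕ} (hU : FewZeros U d)
    {f g : (Fin r → X) → k} (hf : IsSlice U f) (hg : IsSlice U g) {s : Finset X}
    (hs : d < s.card) : resTuple s f = resTuple s g ↔ f = g := by
  refine ⟨fun h => IsSlice.eq_of_eqOn hU hf hg hs fun Q hQ => ?_, fun h => h ▸ rfl⟩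
  exact congrFun h fun j => ⟨Q j, hQ j⟩

/-- Functions on tuples from `s` with slices in `U` extend. -/
theorem exists_isSlice_extension {U : Submodule k (X → k)} {d : ℕ} (hU : FewZeros U d)
    {s : Finset X} (hs : d < s.card) {t : (Fin r → s) → k} (ht : IsResSlice U s t) :
    ∃ f : (Fin r → X) → k, IsSlice U f ∧ resTuple s f = t := by
  classical
  let res : U →ₗ[k] (s → k) := (resLin s).comp U.subtype
  have hinj : Function.Injective res := by
    refine (injective_iff_map_eq_zero _).mpr fun u hu => Subtype.ext ?_
    by_contra h0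
    have := hU u u.2 h0 s fun x hx => congrFun hu ⟨x, hx⟩
    omega
  obtain ⟨l, hl⟩ := LinearMap.exists_leftInverse_of_injective res (LinearMap.ker_eq_bot.mpr hinj)
  let lam : s → X → k := fun z => (l (Pi.single z 1) : X → k)
  have hlam : ∀ v ∈ resSpace U s, ∀ x : s, ∑ z, v z * lam z x = v x := by
    rintro _ ⟨u, hu, rfl⟩ x
    have h1 : l (res ⟨u, hu⟩) = ⟨u, hu⟩ := LinearMap.congr_fun hl _
    have h2 : ∑ z, (res ⟨u, hu⟩) z • l (Pi.single z 1) = l (res ⟨u, hu⟩) := by
      conv_rhs => rw [pi_eq_sum_univ' (res ⟨u, hu⟩), map_sum]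
      exact Finset.sum_congr rfl fun z _ => (map_smul l _ _).symm
    rw [h1] at h2
    have h3 := congrArg (fun w : U => (w : X → k) x) h2
    simp only [Submodule.coe_sum, Submodule.coe_smul, Finset.sum_apply, Pi.smul_apply,
      smul_eq_mul] at h3
    exact h3
  refine ⟨fun P => ∑ Q : Fin r → s, t Q * ∏ j, lam (Q j) (P j), ?_, ?_⟩
  · intro j P
    have : (fun x => ∑ Q : Fin r → s, t Q * ∏ i, lam (Q i) (Function.update P j x i)) =
        ∑ Q : Fin r → s, (t Q * ∏ i ∈ Finset.univ.erase j, lam (Q i) (P i)) • lam (Q j) := by
      funext x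
      rw [Finset.sum_apply]
      refine Finset.sum_congr rfl fun Q _ => ?_
      rw [← Finset.mul_prod_erase Finset.univ _ (Finset.mem_univ j), Function.update_self,
        Pi.smul_apply, smul_eq_mul]
      rw [Finset.prod_congr rfl fun i hi => by
        rw [Function.update_of_ne (Finset.ne_of_mem_erase hi)]]
      ring
    rw [this]
    exact Submodule.sum_mem _ fun Q _ => Submodule.smul_mem _ _ (Subtype.prop _)
  · funext R
    show ∑ Q : Fin r → s, t Q * ∏ j, lam (Q j) (R j) = t R
    -- contract one slot after the other
    suffices H : ∀ J : Finset (Fin r), ∑ Q ∈ Finset.univ.filter (fun Q : Fin r → s =>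
        ∀ j ∉ J, Q j = R j), t Q * ∏ j ∈ J, lam (Q j) (R j) = t R by
      simpa using H Finset.univ
    intro J
    induction J using Finset.induction generalizing R with
    | empty =>
      rw [Finset.sum_eq_single R]
      · simp
      · intro Q hQ hne
        simp only [Finset.mem_filter, Finset.mem_univ, true_and] at hQ
        exact absurd (funext fun j => hQ j (Finset.notMem_empty j)) hne
      · simp
    | insert a J ha ih =>
      have key : ∑ z, t (Function.update R a z) * lam z (R a) = t R := by
        rw [hlam _ (ht a R) (R a), Function.update_eq_self]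
      rw [← key, ← Finset.sum_fiberwise (Finset.univ.filter fun Q : Fin r → s =>
        ∀ j ∉ insert a J, Q j = R j) (fun Q => Q a)]
      refine Finset.sum_congr rfl fun z _ => ?_
      rw [← ih (Function.update R a z), Finset.sum_mul]
      refine Finset.sum_congr ?_ fun Q hQ => ?_
      · ext Q
        simp only [Finset.mem_filter, Finset.mem_univ, true_and, Finset.mem_insert, not_or]
        constructor
        · rintro ⟨h1, h2⟩ j hj
          rcases eq_or_ne j a with rfl | hja
          · simpa using h2
          · rw [Function.update_of_ne hja]; exact h1 j ⟨hja, hj⟩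
        · intro h
          refine ⟨fun j hj => ?_, by simpa using h a ha⟩
          simpa [Function.update_of_ne hj.1] using h j hj.2
      · simp only [Finset.mem_filter, Finset.mem_univ, true_and] at hQ
        rw [Finset.prod_insert ha, hQ a ha, Function.update_self]
        have e : ∏ i ∈ J, lam (Q i) (Function.update R a z i) = ∏ i ∈ J, lam (Q i) (R i) :=
          Finset.prod_congr rfl fun i hi => by
            rw [Function.update_of_ne (ne_of_mem_of_not_mem hi ha)]
        rw [e]
        ring

/-! ### Algebraicity -/

variable {σ : Type*}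

theorem isAlg_setOf_comp_mem {ι : Type*} [Finite ι] (W : Submodule k (ι → k)) (g : ι → σ) :
    IsAlg {x : σ → k | (fun i => x (g i)) ∈ W} := by
  classical
  cases nonempty_fintype ι
  let b := Module.finBasis k ((ι → k) ⧸ W)
  have : {x : σ → k | (fun i => x (g i)) ∈ W} = {x | ∀ m, eval x
      (∑ i, C (b.repr (W.mkQ (Pi.single i 1)) m) * X (g i)) = 0} := by
    ext x
    have e : ∀ m, b.repr (W.mkQ fun i => x (g i)) m =
        eval x (∑ i, C (b.repr (W.mkQ (Pi.single i 1)) m) * X (g i)) := fun m => by
      conv_lhs => rw [pi_eq_sum_univ' (fun i => x (g i))]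
      simp only [map_sum, map_smul, Finsupp.finsetSum_apply, Finsupp.smul_apply, smul_eq_mul,
        map_mul, eval_C, eval_X]
      exact Finset.sum_congr rfl fun i _ => mul_comm _ _
    constructor
    · intro h m
      rw [← e, show W.mkQ (fun i => x (g i)) = 0 from (Submodule.Quotient.mk_eq_zero W).mpr h]
      simp
    · intro h
      refine (Submodule.Quotient.mk_eq_zero W).mp (b.repr.injective ?_)
      rw [map_zero]
      exact Finsupp.ext fun m => (e m).trans (h m)
  rw [this]
  exact isAlg_forall fun m => isAlg_setOf_eval_eq_zero _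

theorem isAlg_isResSlice (U : Submodule k (X → k)) (s : Finset X) (g : (Fin r → s) → σ) :
    IsAlg {x : σ → k | IsResSlice U s (fun Q => x (g Q))} :=
  isAlg_forall fun j => isAlg_forall fun Q =>
    isAlg_setOf_comp_mem (resSpace U s) fun z => g (Function.update Q j z)

theorem isAlg_isAlt {Y : Type*} (g : (Fin r → Y) → σ) :
    IsAlg {x : σ → k | IsAlt (fun Q => x (g Q))} := by
  refine IsAlg.and (isAlg_forall fun Q => isAlg_forall fun π => ?_)
    (isAlg_forall fun Q => isAlg_forall fun i => isAlg_forall fun j => ?_)
  · have : {x : σ → k | x (g (Q ∘ π)) = (Equiv.Perm.sign π : ℤ) • x (g Q)} =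
        {x | eval x (X (g (Q ∘ π)) - C ((Equiv.Perm.sign π : ℤ) : k) * X (g Q)) = 0} := by
      ext x; simp [sub_eq_zero]
    rw [this]
    exact isAlg_setOf_eval_eq_zero _
  · by_cases h : i ≠ j ∧ Q i = Q j
    · have : {x : σ → k | i ≠ j → Q i = Q j → x (g Q) = 0} = {x | eval x (X (g Q)) = 0} := by
        ext x; simp [h.1, h.2]
      rw [this]
      exact isAlg_setOf_eval_eq_zero _
    · have : {x : σ → k | i ≠ j → Q i = Q j → x (g Q) = 0} = Set.univ := by
        ext x; simp only [Set.mem_ofPred_eq, Set.mem_univ, iff_true]
        exact fun h1 h2 => absurd ⟨h1, h2⟩ h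
      rw [this]
      exact isAlg_univ

end FermatAgent.MW
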