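import Fermat.Agent.MW.Recognition
import Fermat.Agent.MW.Restrict
import Fermat.Agent.MW.Elim

/-!
# The image of `psi` is an algebraic cone
-/

set_option autoImplicit false

noncomputable section

open AlgebraicCurve FermatAgent.Curve MvPolynomial

namespace FermatAgent.MW

variable {K F : Type*} [Field K] [Field F] [Algebra K F] [IsAlgClosed K] [IsFunctionField1 K F]

omit [IsAlgClosed K] [IsFunctionField1 K F] in
theorem isResSlice_smul {r : ℕ} {U : Submodule K (Place K F → K)} {s : Finset (Place K F)}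
    {t : (Fin r → s) → K} (h : IsResSlice U s t) (c : K) : IsResSlice U s (c • t) := fun j Q =>
  (resSpace U s).smul_mem c (h j Q)

omit [IsAlgClosed K] in
theorem isAlt_smul {r : ℕ} {X : Type*} {f : (Fin r → X) → K} (h : IsAlt f) (c : K) :
    IsAlt (c • f) :=
  ⟨fun Q π => by rw [Pi.smul_apply, Pi.smul_apply, h.1, smul_comm],
    fun Q i j hij hQ => by rw [Pi.smul_apply, h.2 Q i j hij hQ, smul_zero]⟩

omit [IsAlgClosed K] [IsFunctionField1 K F] in
theorem isAlt_of_resTuple [CharZero K] {r d : ℕ} {U : Submodule K (Place K F → K)}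
    (hU : FewZeros U d) {s : Finset (Place K F)} (hs : d < s.card)
    {f : (Fin r → Place K F) → K} (hf : IsSlice U f) (h : IsAlt (resTuple s f)) : IsAlt f := by
  classical
  have h1 : ∀ (Q : Fin r → Place K F) (π : Equiv.Perm (Fin r)),
      f (Q ∘ π) = (Equiv.Perm.sign π : ℤ) • f Q := fun Q π => by
    have hs' : IsSlice U (fun R => f (R ∘ π)) := fun j R => by
      have : (fun x => f (Function.update R j x ∘ π)) =
          fun x => f (Function.update (R ∘ π) (π.symm j) x) := by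
        funext x; rw [Function.update_comp_equiv]
      show (fun x => f (Function.update R j x ∘ π)) ∈ U
      rw [this]
      exact hf _ _
    have := IsSlice.eq_of_eqOn hU hs' ((sliceSpace U r).smul_mem ((Equiv.Perm.sign π : ℤ) : K) hf)
      hs fun R hR => by
        have := h.1 (fun j => ⟨R j, hR j⟩) π
        rw [Pi.smul_apply, smul_eq_mul, ← zsmul_eq_mul]
        exact this
    rw [congrFun this Q, Pi.smul_apply, smul_eq_mul, ← zsmul_eq_mul]
  refine ⟨h1, fun Q i j hij hQ => ?_⟩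
  have h2 := h1 Q (Equiv.swap i j)
  have e : Q ∘ Equiv.swap i j = Q := funext fun l => by
    rcases eq_or_ne l i with rfl | hi
    · simp [hQ]
    rcases eq_or_ne l j with rfl | hj
    · simp [hQ]
    · simp [Equiv.swap_apply_of_ne_of_ne hi hj]
  rw [e, Equiv.Perm.sign_swap hij, Units.val_neg, Units.val_one, neg_one_zsmul] at h2
  exact CharZero.eq_neg_self_iff.mp h2

/-- Large enough sample. -/
def Large (M : Divisor K F) (s : Finset (Place K F)) : Prop :=
  4 * (Divisor.degree M).toNat < s.card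

/-- The cone over the image of `psi`. -/
def imgSet (M : Divisor K F) (s : Finset (Place K F)) : Set ((Fin (rk M) → s) → K) :=
  {x | ∃ (c : K) (y : Pic0 K F), x = c • resTuple s (psi M y)}

omit [IsFunctionField1 K F] [IsAlgClosed K] in
theorem resTuple_smul {r : ℕ} (s : Finset (Place K F)) (c : K) (f : (Fin r → Place K F) → K) :
    resTuple s (c • f) = c • resTuple s f := rfl

theorem smul_resTuple_psi_mem {M : Divisor K F} {s : Finset (Place K F)} (c : K) (y : Pic0 K F) :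
    c • resTuple s (psi M y) ∈ imgSet M s := ⟨c, y, rfl⟩

theorem smul_mem_imgSet {M : Divisor K F} {s : Finset (Place K F)} {x : (Fin (rk M) → s) → K}
    (hx : x ∈ imgSet M s) (c : K) : c • x ∈ imgSet M s := by
  obtain ⟨c', y, rfl⟩ := hx
  exact ⟨c * c', y, smul_smul c c' _⟩

theorem isCone_imgSet (M : Divisor K F) (s : Finset (Place K F)) : IsCone (imgSet M s) :=
  fun _ hx c _ => smul_mem_imgSet hx c

theorem psi_ne_zero {M : Divisor K F} (hM : IsBig M) (y : Pic0 K F) : psi M y ≠ 0 := by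
  have := RR.infinite_place (K := K) (F := F)
  obtain ⟨t, -, ht⟩ := (Set.infinite_univ (α := Place K F)).exists_subset_card_eq
    (2 * (Divisor.degree M).toNat + 1)
  obtain ⟨Q, -, hQ⟩ := exists_psiDiv_ne_zero hM (degree_repDiv y) (s := t) (by omega)
  exact fun h => hQ (congrFun h Q)

theorem resTuple_psi_ne_zero {M : Divisor K F} (hM : IsBig M) {s : Finset (Place K F)}
    (hs : 2 * (Divisor.degree M).toNat < s.card) (y : Pic0 K F) :
    resTuple s (psi M y) ≠ 0 := fun h => by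
  obtain ⟨Q, hQ, hne⟩ := exists_psiDiv_ne_zero hM (degree_repDiv y) hs
  exact hne (congrFun h fun j => ⟨Q j, hQ j⟩)

theorem detFun_subEvLin {r : ℕ} {G E : Divisor K F} (hE : 0 ≤ E)
    (h : RR.ell (G - E) = r) :
    IsSlice (evSpace G) (fun Q : Fin r → Place K F =>
        (∏ j, chi E (Q j)) * detL r (G - E) Q) ∧
      IsAlt (fun Q : Fin r → Place K F => (∏ j, chi E (Q j)) * detL r (G - E) Q) := by
  have hb : ∀ i, evFun r (G - E) i =
      evLin (G - E) (Module.finBasisOfFinrankEq K _ (show Module.finrank K _ = r from h) i) :=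
    fun i => by rw [evFun, dif_pos (show Module.finrank K (riemannRochSpace (G - E)) = r from h)]
  let u : Fin r → Place K F → K := fun i x => chi E x * evFun r (G - E) i x
  have e : (fun Q : Fin r → Place K F => (∏ j, chi E (Q j)) * detL r (G - E) Q) = detFun u :=
    funext fun Q => (detFun_smul_rows u _ (chi E) (fun _ _ => rfl) Q).symm
  rw [e]
  refine ⟨IsSlice.mono ?_ (isSlice_detFun u), isAlt_detFun u⟩
  rw [Submodule.span_le]
  rintro _ ⟨i, rfl⟩
  refine ⟨⟨_, mem_L_of_sub hE (Module.finBasisOfFinrankEq K _ h i).2⟩, funext fun x => ?_⟩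
  show evLin G _ x = chi E x * evFun r (G - E) i x
  rw [evLin_of_sub hE, hb]

theorem chiDet_ne_zero {r : ℕ} {G E : Divisor K F} (h : RR.ell (G - E) = r) :
    (fun Q : Fin r → Place K F => (∏ j, chi E (Q j)) * detL r (G - E) Q) ≠ 0 := by
  classical
  obtain ⟨t, ht, htS, hte⟩ := exists_setDiv_ell_eq_zero (G - E) E.support.finite_toSet
  let e : Fin r ≃ t := (Finset.equivFinOfCardEq (ht.trans h)).symm
  refine Function.ne_iff.mpr ⟨fun j => (e j : Place K F), mul_ne_zero ?_ fun h0 => ?_⟩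
  · refine Finset.prod_ne_zero_iff.mpr fun j _ => ?_
    rw [chi_eq_one (Finsupp.notMem_support_iff.mp fun hm => htS _ (e j).2 (Finset.mem_coe.mpr hm))]
    exact one_ne_zero
  · exact (detL_eq_zero_iff h (t := t) fun P => ⟨fun hP => ⟨e.symm ⟨P, hP⟩, by simp⟩,
      fun ⟨j, hj⟩ => hj ▸ (e j).2⟩).mp h0 hte

theorem exists_relation {M : Divisor K F} (hM : IsBig M) (P₀ : Place K F) (y : Pic0 K F) :
    ∃ (h : riemannRochSpace (Finsupp.single P₀ (2 * (genusFF K F : ℤ))))
      (W₁ W₂ : (Fin (rk M) → Place K F) → K),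
      (h : F) ≠ 0 ∧
      (IsSlice (evSpace (M + Finsupp.single P₀ (genusFF K F : ℤ))) W₁ ∧ IsAlt W₁ ∧ W₁ ≠ 0) ∧
      (IsSlice (evSpace (M + Finsupp.single P₀ (genusFF K F : ℤ))) W₂ ∧ IsAlt W₂ ∧ W₂ ≠ 0) ∧
      ∃ c : K, ∀ Q, psi M y Q * (∏ j, evLin _ h (Q j)) = c * (W₁ Q * W₂ Q) := by
  set g : ℤ := (genusFF K F : ℤ)
  set A := Finsupp.single P₀ g - repDiv y
  have hA : Divisor.degree A = g := by
    rw [map_sub, RR.degree_single, degree_repDiv, sub_zero]
  have hposA : 0 < RR.ell A := by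
    have := RR.riemann_inequality A
    omega
  obtain ⟨E₁, hE₁, hp₁⟩ := RR.ell_pos_iff.mp hposA
  set B := Finsupp.single P₀ (2 * g) - E₁
  have hdE₁ : Divisor.degree E₁ = g := by
    have := RR.degree_eq_zero_of_mem_principal hp₁
    rw [map_sub, hA] at this
    omega
  have hB : Divisor.degree B = g := by rw [map_sub, RR.degree_single, hdE₁]; ring
  have hposB : 0 < RR.ell B := by
    have := RR.riemann_inequality B
    omega
  obtain ⟨E₂, hE₂, hp₂⟩ := RR.ell_pos_iff.mp hposB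
  have hdE₂ : Divisor.degree E₂ = g := by
    have := RR.degree_eq_zero_of_mem_principal hp₂
    rw [map_sub, hB] at this
    omega
  obtain ⟨h, h0, hh⟩ := RR.mem_principal_iff_divFn.mp hp₂
  have he : E₁ + E₂ = Finsupp.single P₀ (2 * g) + RR.divFn h := by rw [← hh]; simp only [B]; abel
  have hmem : h ∈ riemannRochSpace (Finsupp.single P₀ (2 * g)) :=
    mem_riemannRochSpace_iff.mpr fun v => Or.inr <| by
      have := DFunLike.congr_fun he v
      simp only [Finsupp.add_apply, RR.divFn_apply] at this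
      have := Finsupp.le_def.mp hE₁ v
      have := Finsupp.le_def.mp hE₂ v
      simp only [Finsupp.coe_zero, Pi.zero_apply] at *
      omega
  set G := M + Finsupp.single P₀ g
  have hl : ∀ {E : Divisor K F}, Divisor.degree E = g → RR.ell (G - E) = rk M := fun {E} hE => by
    rw [show G - E = M + (Finsupp.single P₀ g - E) by simp only [G]; abel]
    exact ell_add_eq_rk hM (by rw [map_sub, RR.degree_single, hE, sub_self])
  refine ⟨⟨h, hmem⟩, _, _, h0,
    ⟨(detFun_subEvLin hE₁ (hl hdE₁)).1, (detFun_subEvLin hE₁ (hl hdE₁)).2, chiDet_ne_zero (hl hdE₁)⟩,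
    ⟨(detFun_subEvLin hE₂ (hl hdE₂)).1, (detFun_subEvLin hE₂ (hl hdE₂)).2, chiDet_ne_zero (hl hdE₂)⟩,
    ?_⟩
  set D' := Finsupp.single P₀ g - E₁
  have hD' : Divisor.degree D' = 0 := by rw [map_sub, RR.degree_single, hdE₁, sub_self]
  have hprin : D' - repDiv y ∈ Divisor.principal (K := K) (F := F) := by
    rw [show D' - repDiv y = -(E₁ - A) by simp only [D', A]; abel]
    exact neg_mem hp₁
  obtain ⟨c₁, -, hc₁⟩ := sameLine_psiDiv hM hD' hprin
  obtain ⟨c₂, -, hc₂⟩ := sameLine_detL_sub_divFn (hl hdE₂) (inv_ne_zero h0)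
  have hinv : RR.divFn (K := K) h⁻¹ = -RR.divFn h := Finsupp.ext fun v => by
    simp [RR.divFn_apply, v.ord_inv]
  rw [hinv, sub_neg_eq_add] at hc₂
  refine ⟨c₁ * c₂, fun Q => ?_⟩
  have e1 : M + D' = G - E₁ := by simp only [D', G]; abel
  have e2 : M - D' = G - E₂ + RR.divFn h := by
    rw [← hh]; simp only [D', G, B]
    rw [show (2 * g) = g + g by ring, Finsupp.single_add]
    abel
  rw [show psi M y = c₁ • psiDiv M D' from hc₁, Pi.smul_apply, smul_eq_mul, psiDiv, e1, e2,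
    Pi.mul_apply, congrFun hc₂ Q, Pi.smul_apply, smul_eq_mul]
  have e3 : (∏ j, evLin (Finsupp.single P₀ (2 * g)) ⟨h, hmem⟩ (Q j)) =
      (∏ j, chi E₁ (Q j)) * (∏ j, chi E₂ (Q j)) * ∏ j, unitPart h (Q j) := by
    rw [← Finset.prod_mul_distrib, ← Finset.prod_mul_distrib]
    exact Finset.prod_congr rfl fun j _ => evLin_eq_chi_mul_unitPart h0 hE₁ hE₂ he _
  have e4 : (∏ j, unitPart h (Q j)) * (∏ j, unitPart h⁻¹ (Q j)) = 1 := by
    rw [← Finset.prod_mul_distrib]
    exact Finset.prod_eq_one fun j _ => unitPart_mul_unitPart_inv h0 _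
  rw [e3]
  linear_combination (c₁ * c₂ * (∏ j, chi E₁ (Q j)) * (∏ j, chi E₂ (Q j)) *
    detL (rk M) (G - E₁) Q * detL (rk M) (G - E₂) Q) * e4

theorem exists_psi_eq_of_relation [CharZero K] {M : Divisor K F} (hM : IsBig M) (P₀ : Place K F)
    {s : Finset (Place K F)} (hs : Large M s) {q W₁ W₂ : (Fin (rk M) → Place K F) → K}
    (hq : IsSlice (evSpace (M + M)) q) (hq0 : q ≠ 0)
    {h : riemannRochSpace (Finsupp.single P₀ (2 * (genusFF K F : ℤ)))} (h0 : (h : F) ≠ 0)
    (hW₁ : IsSlice (evSpace (M + Finsupp.single P₀ (genusFF K F : ℤ))) W₁) (hA₁ : IsAlt W₁)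
    (hW₁0 : W₁ ≠ 0)
    (hW₂ : IsSlice (evSpace (M + Finsupp.single P₀ (genusFF K F : ℤ))) W₂) (hA₂ : IsAlt W₂)
    (hW₂0 : W₂ ≠ 0)
    (hrel : ∀ Q Q' : Fin (rk M) → Place K F, (∀ j, Q j ∈ s) → (∀ j, Q' j ∈ s) →
      q Q * (∏ j, evLin _ h (Q j)) * (W₁ Q' * W₂ Q') =
        q Q' * (∏ j, evLin _ h (Q' j)) * (W₁ Q * W₂ Q)) :
    ∃ y : Pic0 K F, SameLine q (psi M y) := by
  have hM' : 3 * (genusFF K F : ℤ) + 1 ≤ Divisor.degree M := hM
  obtain ⟨m, hm⟩ : ∃ m, rk M = m + 1 := ⟨rk M - 1, by unfold rk; omega⟩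
  have hrk : (rk M : ℤ) = Divisor.degree M + 1 - genusFF K F := by unfold rk; omega
  suffices H : ∀ r, r = m + 1 → ∀ (q W₁ W₂ : (Fin r → Place K F) → K),
      IsSlice (evSpace (M + M)) q → q ≠ 0 →
      IsSlice (evSpace (M + Finsupp.single P₀ (genusFF K F : ℤ))) W₁ → IsAlt W₁ → W₁ ≠ 0 →
      IsSlice (evSpace (M + Finsupp.single P₀ (genusFF K F : ℤ))) W₂ → IsAlt W₂ → W₂ ≠ 0 →
      (∀ Q Q' : Fin r → Place K F, (∀ j, Q j ∈ s) → (∀ j, Q' j ∈ s) →
        q Q * (∏ j, evLin _ h (Q j)) * (W₁ Q' * W₂ Q') =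
          q Q' * (∏ j, evLin _ h (Q' j)) * (W₁ Q * W₂ Q)) →
      ∃ E : Divisor K F, Divisor.degree E = genusFF K F ∧
        SameLine q (detL r (M + (Finsupp.single P₀ (genusFF K F : ℤ) - E)) *
          detL r (M - (Finsupp.single P₀ (genusFF K F : ℤ) - E))) by
    obtain ⟨E, hE, hl⟩ := H _ hm q W₁ W₂ hq hq0 hW₁ hA₁ hW₁0 hW₂ hA₂ hW₂0 hrel
    have hD : Divisor.degree (Finsupp.single P₀ (genusFF K F : ℤ) - E) = 0 := by
      rw [map_sub, RR.degree_single, hE, sub_self]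
    exact ⟨Pic0.mk ⟨_, Divisor.mem_degZero.mpr hD⟩, hl.trans (sameLine_psi_mk hM ⟨_, _⟩).symm⟩
  rintro r rfl q W₁ W₂ hq hq0 hW₁ hA₁ hW₁0 hW₂ hA₂ hW₂0 hrel
  have hdeg : Divisor.degree (M + Finsupp.single P₀ (genusFF K F : ℤ)) =
      ((Divisor.degree M).toNat : ℤ) + (genusFF K F : ℕ) := by
    rw [map_add, RR.degree_single]; omega
  obtain ⟨E₁, E₂, -, -, hd₁, hd₂, he, hl⟩ := recognition (d := (Divisor.degree M).toNat)
    (n := genusFF K F) (Mt := M + M)
    (H := Finsupp.single P₀ (2 * (genusFF K F : ℤ))) (by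
      rw [two_mul, Finsupp.single_add]; abel)
    hdeg hdeg (by rw [RR.degree_single]) (by omega) (by omega) hq hq0 hW₁ hA₁ hW₁0 hW₂ hA₂ hW₂0 h0
    (s := s) (by rw [map_add, map_add, RR.degree_single]; unfold Large at hs; omega) hrel
  refine ⟨E₁, hd₁, ?_⟩
  have e1 : M + (Finsupp.single P₀ (genusFF K F : ℤ) - E₁) =
      M + Finsupp.single P₀ (genusFF K F : ℤ) - E₁ := by abel
  have e2 : M - (Finsupp.single P₀ (genusFF K F : ℤ) - E₁) =
      M + Finsupp.single P₀ (genusFF K F : ℤ) - E₂ + RR.divFn (h : F) := by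
    have : RR.divFn (h : F) = E₁ + E₂ - Finsupp.single P₀ (2 * (genusFF K F : ℤ)) := by
      rw [he]; abel
    rw [this, two_mul, Finsupp.single_add]
    abel
  rw [e1, e2]
  exact hl

/-- The relation between a point of the cone and the parameters. -/
def relSet (M : Divisor K F) (P₀ : Place K F) (s : Finset (Place K F)) :
    Set ((((Fin (rk M) → s) ⊕ s) ⊕ (Fin (rk M) → s)) ⊕ (Fin (rk M) → s) → K) :=
  {v | IsResSlice (evSpace (M + M)) s (fun Q => v (.inl (.inl (.inl Q)))) ∧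
    (fun z => v (.inl (.inl (.inr z)))) ∈
      resSpace (evSpace (Finsupp.single P₀ (2 * (genusFF K F : ℤ)))) s ∧
    (IsResSlice (evSpace (M + Finsupp.single P₀ (genusFF K F : ℤ))) s
      (fun Q => v (.inl (.inr Q))) ∧ IsAlt (fun Q => v (.inl (.inr Q)))) ∧
    (IsResSlice (evSpace (M + Finsupp.single P₀ (genusFF K F : ℤ))) s
      (fun Q => v (.inr Q)) ∧ IsAlt (fun Q => v (.inr Q))) ∧
    ∀ Q Q' : Fin (rk M) → s,
      v (.inl (.inl (.inl Q))) * (∏ j, v (.inl (.inl (.inr (Q j))))) *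
          (v (.inl (.inr Q')) * v (.inr Q')) =
        v (.inl (.inl (.inl Q'))) * (∏ j, v (.inl (.inl (.inr (Q' j))))) *
          (v (.inl (.inr Q)) * v (.inr Q))}

theorem isAlg_relSet (M : Divisor K F) (P₀ : Place K F) (s : Finset (Place K F)) :
    IsAlg (relSet M P₀ s) := by
  refine (isAlg_isResSlice _ s _).and ((isAlg_setOf_comp_mem _ _).and
    (((isAlg_isResSlice _ s _).and (isAlg_isAlt _)).and
      (((isAlg_isResSlice _ s _).and (isAlg_isAlt _)).and
        (isAlg_forall fun Q => isAlg_forall fun Q' => ?_))))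
  refine ⟨{X (.inl (.inl (.inl Q))) * (∏ j, X (.inl (.inl (.inr (Q j))))) *
          (X (.inl (.inr Q')) * X (.inr Q')) -
        X (.inl (.inl (.inl Q'))) * (∏ j, X (.inl (.inl (.inr (Q' j))))) *
          (X (.inl (.inr Q)) * X (.inr Q))}, ?_⟩
  ext v
  simp [sub_eq_zero, map_prod]

theorem imgSet_eq_exists [CharZero K] {M : Divisor K F} (hM : IsBig M) (P₀ : Place K F)
    {s : Finset (Place K F)} (hs : Large M s) :
    imgSet M s = {x | ∃ h : s → K, h ≠ 0 ∧ ∃ w₁ : (Fin (rk M) → s) → K, w₁ ≠ 0 ∧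
      ∃ w₂ : (Fin (rk M) → s) → K, w₂ ≠ 0 ∧
        Sum.elim (Sum.elim (Sum.elim x h) w₁) w₂ ∈ relSet M P₀ s} := by
  classical
  have hM' : 3 * (genusFF K F : ℤ) + 1 ≤ Divisor.degree M := hM
  unfold Large at hs
  set G := M + Finsupp.single P₀ (genusFF K F : ℤ)
  set H := Finsupp.single P₀ (2 * (genusFF K F : ℤ))
  have hG : (Divisor.degree G).toNat < s.card := by
    rw [map_add, RR.degree_single]; omega
  have hMM : (Divisor.degree (M + M)).toNat < s.card := by rw [map_add]; omega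
  have hH : (Divisor.degree H).toNat < s.card := by rw [RR.degree_single]; omega
  ext x
  constructor
  · rintro ⟨c, y, rfl⟩
    obtain ⟨h, W₁, W₂, h0, ⟨hW₁, hA₁, hW₁0⟩, ⟨hW₂, hA₂, hW₂0⟩, κ, hκ⟩ :=
      exists_relation hM P₀ y
    have hne : ∀ {W : (Fin (rk M) → Place K F) → K}, IsSlice (evSpace G) W → W ≠ 0 →
        resTuple s W ≠ 0 := fun hW hW0 hz => hW0 <|
      (resTuple_eq_resTuple_iff (fewZeros_evSpace G) hW (sliceSpace _ _).zero_mem hG).mp hz
    refine ⟨resLin s (evLin H h), fun hz => ?_, resTuple s W₁, hne hW₁ hW₁0, resTuple s W₂,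
      hne hW₂ hW₂0, ?_, ⟨_, evLin_mem H h, rfl⟩, ⟨isResSlice_resTuple hW₁ s, ?_⟩,
      ⟨isResSlice_resTuple hW₂ s, ?_⟩, fun Q Q' => ?_⟩
    · have := fewZeros_evSpace H _ (evLin_mem H h) (evLin_ne_zero h0) s fun z hz' =>
        congrFun hz ⟨z, hz'⟩
      omega
    · exact isResSlice_smul (isResSlice_resTuple (isSlice_psi hM y) s) c
    · exact ⟨fun Q π => hA₁.1 (fun j => (Q j : Place K F)) π,
        fun Q i j hij hQ => hA₁.2 _ i j hij (congrArg Subtype.val hQ)⟩
    · exact ⟨fun Q π => hA₂.1 (fun j => (Q j : Place K F)) π,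
        fun Q i j hij hQ => hA₂.2 _ i j hij (congrArg Subtype.val hQ)⟩
    · show c * psi M y (fun j => (Q j : Place K F)) * (∏ j, evLin H h (Q j)) *
          (W₁ (fun j => (Q' j : Place K F)) * W₂ (fun j => (Q' j : Place K F))) =
        c * psi M y (fun j => (Q' j : Place K F)) * (∏ j, evLin H h (Q' j)) *
          (W₁ (fun j => (Q j : Place K F)) * W₂ (fun j => (Q j : Place K F)))
      linear_combination (c * (W₁ (fun j => (Q' j : Place K F)) * W₂ (fun j => (Q' j : Place K F)))) *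
        hκ (fun j => (Q j : Place K F)) - (c * (W₁ (fun j => (Q j : Place K F)) *
          W₂ (fun j => (Q j : Place K F)))) * hκ (fun j => (Q' j : Place K F))
  · rintro ⟨hh, hh0, w₁, hw₁0, w₂, hw₂0, hx, ⟨u, hu, hhu⟩, ⟨hw₁, ha₁⟩, ⟨hw₂, ha₂⟩, hrel⟩
    obtain ⟨q, hq, hqx⟩ := exists_isSlice_extension (fewZeros_evSpace (M + M)) hMM hx
    obtain ⟨W₁, hW₁, e₁⟩ := exists_isSlice_extension (fewZeros_evSpace G) hG hw₁
    obtain ⟨W₂, hW₂, e₂⟩ := exists_isSlice_extension (fewZeros_evSpace G) hG hw₂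
    obtain ⟨h, rfl⟩ := hu
    by_cases hq0 : q = 0
    · refine ⟨0, 0, ?_⟩
      rw [zero_smul, show x = resTuple s q from hqx.symm, hq0]
      rfl
    replace hhu : resLin s (evLin H h) = hh := hhu
    replace e₁ : resTuple s W₁ = w₁ := e₁
    replace e₂ : resTuple s W₂ = w₂ := e₂
    replace hqx : resTuple s q = x := hqx
    replace ha₁ : IsAlt w₁ := ha₁
    replace ha₂ : IsAlt w₂ := ha₂
    have h0 : (h : F) ≠ 0 := fun hz => hh0 <| by
      rw [← hhu, show h = 0 from Subtype.ext hz, map_zero, map_zero]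
    obtain ⟨y, κ, -, hy⟩ := exists_psi_eq_of_relation hM P₀ (s := s) hs hq hq0 h0 hW₁
      (isAlt_of_resTuple (fewZeros_evSpace G) hG hW₁ (e₁.symm ▸ ha₁))
      (fun hz => hw₁0 (by rw [← e₁, hz]; rfl)) hW₂
      (isAlt_of_resTuple (fewZeros_evSpace G) hG hW₂ (e₂.symm ▸ ha₂))
      (fun hz => hw₂0 (by rw [← e₂, hz]; rfl)) fun Q Q' hQ hQ' => by
        have := hrel (fun j => ⟨Q j, hQ j⟩) (fun j => ⟨Q' j, hQ' j⟩)
        simp only [Sum.elim_inl, Sum.elim_inr] at this
        rw [← hqx, ← e₁, ← e₂, ← hhu] at this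
        exact this
    exact ⟨κ, y, by rw [← resTuple_smul, ← hy]; exact hqx.symm⟩

theorem isAlg_imgSet [CharZero K] {M : Divisor K F} (hM : IsBig M) {s : Finset (Place K F)}
    (hs : Large M s) : IsAlg (imgSet M s) := by
  have := RR.infinite_place (K := K) (F := F)
  set P₀ := Classical.arbitrary (Place K F)
  rw [imgSet_eq_exists hM P₀ hs]
  have h1 := (isAlg_relSet M P₀ s).exists_ne_zero (σ := ((Fin (rk M) → s) ⊕ s) ⊕ (Fin (rk M) → s))
    fun a b c hc ⟨hx, hh, hw₁, ⟨hw₂, ha₂⟩, hrel⟩ => by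
      refine ⟨hx, hh, hw₁, ⟨isResSlice_smul hw₂ c, isAlt_smul ha₂ c⟩, fun Q Q' => ?_⟩
      have := hrel Q Q'
      simp only [Sum.elim_inl, Sum.elim_inr, Pi.smul_apply, smul_eq_mul] at this ⊢
      linear_combination c * this
  have h2 := h1.exists_ne_zero fun a b c hc ⟨w₂, hw₂0, hx, hh, ⟨hw₁, ha₁⟩, hw₂, hrel⟩ => by
      refine ⟨w₂, hw₂0, hx, hh, ⟨isResSlice_smul hw₁ c, isAlt_smul ha₁ c⟩, hw₂, fun Q Q' => ?_⟩
      have := hrel Q Q'
      simp only [Sum.elim_inl, Sum.elim_inr, Pi.smul_apply, smul_eq_mul] at this ⊢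
      linear_combination c * this
  exact h2.exists_ne_zero fun a b c hc ⟨w₁, hw₁0, w₂, hw₂0, hx, hh, hw₁, hw₂, hrel⟩ => by
      refine ⟨w₁, hw₁0, w₂, hw₂0, hx, Submodule.smul_mem _ c hh, hw₁, hw₂, fun Q Q' => ?_⟩
      have := hrel Q Q'
      simp only [Sum.elim_inl, Sum.elim_inr, Pi.smul_apply, smul_eq_mul, Finset.prod_mul_distrib,
        Finset.prod_const] at this ⊢
      linear_combination c ^ (Finset.univ : Finset (Fin (rk M))).card * this

end FermatAgent.MW
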