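import Mathlib.LinearAlgebra.Matrix.Adjugate
import Mathlib.LinearAlgebra.Matrix.NonsingularInverse
import Mathlib.LinearAlgebra.Matrix.ToLinearEquiv
import Mathlib.LinearAlgebra.Basis.VectorSpace
import Mathlib.LinearAlgebra.FiniteDimensional.Lemmas

/-!
# Kernels of rank one in families: cofactor vectors

If a family of equations has a one-dimensional kernel, some square system made of equations and
one normalisation row is invertible, and an adjugate column gives the kernel vector.
-/

set_option autoImplicit false

noncomputable section

namespace FermatAgent.MW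

variable {ι τ : Type*} [Fintype τ] [DecidableEq τ]

/-- The square system: chosen equations, and the normalisation `w c` in the remaining rows. -/
def cofRows {R : Type*} [CommRing R] (A : ι → τ → R) (S : τ → Option ι) (c : τ) : Matrix τ τ R :=
  Matrix.of fun t => (S t).elim (Pi.single c 1) A

/-- The right hand side of the normalised system. -/
def cofRhs {R : Type*} [CommRing R] (S : τ → Option ι) (t : τ) : R := if S t = none then 1 else 0

/-- The candidate kernel vector. -/
def cofVec {R : Type*} [CommRing R] (A : ι → τ → R) (S : τ → Option ι) (c : τ) : τ → R :=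
  Matrix.mulVec (cofRows A S c).adjugate (cofRhs S)

omit [Fintype τ] in
theorem cofRows_map {R R' : Type*} [CommRing R] [CommRing R'] (f : R →+* R') (A : ι → τ → R)
    (S : τ → Option ι) (c : τ) :
    (cofRows A S c).map f = cofRows (fun i t => f (A i t)) S c := by
  ext t u
  simp only [Matrix.map_apply, cofRows, Matrix.of_apply]
  cases S t with
  | none => simp [Pi.single_apply, apply_ite f]
  | some i => rfl

theorem det_cofRows_map {R R' : Type*} [CommRing R] [CommRing R'] (f : R →+* R') (A : ι → τ → R)
    (S : τ → Option ι) (c : τ) :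
    f (cofRows A S c).det = (cofRows (fun i t => f (A i t)) S c).det := by
  rw [RingHom.map_det, RingHom.mapMatrix_apply, cofRows_map]

theorem cofVec_map {R R' : Type*} [CommRing R] [CommRing R'] (f : R →+* R') (A : ι → τ → R)
    (S : τ → Option ι) (c : τ) (t : τ) :
    f (cofVec A S c t) = cofVec (fun i t => f (A i t)) S c t := by
  rw [cofVec, cofVec, RingHom.map_mulVec, ← RingHom.mapMatrix_apply, RingHom.map_adjugate,
    RingHom.mapMatrix_apply, cofRows_map]
  congr 2
  funext u
  simp [cofRhs, apply_ite f]

variable {k : Type*} [Field k]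

/-- A vector annihilated by all equations is a multiple of the candidate. -/
theorem smul_cofVec_eq {A : ι → τ → k} {S : τ → Option ι} {c : τ} {w : τ → k}
    (hw : ∀ i, ∑ t, A i t * w t = 0) :
    (cofRows A S c).det • w = w c • cofVec A S c := by
  have h1 : Matrix.mulVec (cofRows A S c) w = w c • cofRhs S := by
    funext t
    simp only [Matrix.mulVec, dotProduct, cofRows, Matrix.of_apply, Pi.smul_apply, cofRhs,
      smul_eq_mul]
    cases h : S t with
    | none => simp [Pi.single_apply]
    | some i => simpa using hw i
  rw [cofVec, ← Matrix.mulVec_smul, ← h1, Matrix.mulVec_mulVec, Matrix.adjugate_mul,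
    Matrix.smul_mulVec, Matrix.one_mulVec]

theorem exists_det_cofRows_ne_zero {A : ι → τ → k} {w₀ : τ → k} {c : τ} (hc : w₀ c ≠ 0)
    (hker : ∀ w : τ → k, (∀ i, ∑ t, A i t * w t = 0) → ∃ a : k, w = a • w₀) :
    ∃ S : τ → Option ι, (cofRows A S c).det ≠ 0 := by
  classical
  set T : Set (τ → k) := insert (Pi.single c 1) (Set.range A)
  have hind : LinearIndepOn k id ({Pi.single c 1} : Set (τ → k)) :=
    LinearIndepOn.singleton (v := id) (fun h => one_ne_zero (α := k) (by simpa using congrFun h c))
  obtain ⟨b, hbT, hcb, hTb, hb⟩ :=
    exists_linearIndepOn_id_extension hind (Set.singleton_subset_iff.mpr (Set.mem_insert _ _) :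
      ({Pi.single c 1} : Set (τ → k)) ⊆ T)
  have hspan : Submodule.span k b = ⊤ := by
    by_contra hne
    obtain ⟨φ, hφ0, hφ⟩ := Submodule.exists_le_ker_of_lt_top _ (lt_top_iff_ne_top.mpr hne)
    set w : τ → k := fun t => φ (Pi.single t 1)
    have hφv : ∀ v : τ → k, φ v = ∑ t, v t * w t := fun v => by
      conv_lhs => rw [pi_eq_sum_univ' v]
      rw [map_sum]
      exact Finset.sum_congr rfl fun t _ => by rw [map_smul, smul_eq_mul]
    have hT : ∀ v ∈ T, φ v = 0 := fun v hv => LinearMap.mem_ker.mp (hφ (hTb hv))
    obtain ⟨a, ha⟩ := hker w fun i => (hφv _).symm.trans (hT _ (Set.mem_insert_of_mem _ ⟨i, rfl⟩))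
    have h1 := hT _ (Set.mem_insert _ _)
    have : φ (Pi.single c 1) = a * w₀ c := by
      show w c = _
      rw [ha]
      rfl
    rw [this, mul_eq_zero] at h1
    refine hφ0 (LinearMap.ext fun v => ?_)
    rw [hφv, ha, h1.resolve_right hc]
    simp
  let B : Module.Basis b k (τ → k) := Module.Basis.mk (v := ((↑) : b → τ → k)) hb.linearIndependent
    (by rw [Subtype.range_coe]; exact hspan.ge)
  have hbfin : b.Finite := LinearIndependent.setFinite (R := k) hb.linearIndependent
  have := hbfin.fintype
  have hcard : Fintype.card τ = Fintype.card b :=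
    (Module.finrank_fintype_fun_eq_card k (η := τ)).symm.trans (Module.finrank_eq_card_basis B)
  let e : τ ≃ b := Fintype.equivOfCardEq hcard
  have hmem : ∀ t, (e t : τ → k) ≠ Pi.single c 1 → ∃ i, A i = e t := fun t ht =>
    (Set.mem_insert_iff.mp (hbT (e t).2)).resolve_left ht
  refine ⟨fun t => if h : (e t : τ → k) = Pi.single c 1 then none else some (hmem t h).choose,
    fun hdet => ?_⟩
  have hrows : ∀ t, cofRows A
      (fun t => if h : (e t : τ → k) = Pi.single c 1 then none else some (hmem t h).choose) c t =
      (e t : τ → k) := fun t => by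
    show Option.elim (if h : (e t : τ → k) = Pi.single c 1 then none
      else some (hmem t h).choose) (Pi.single c 1) A = _
    by_cases h : (e t : τ → k) = Pi.single c 1
    · rw [dif_pos h, Option.elim_none]; exact h.symm
    · rw [dif_neg h, Option.elim_some]; exact (hmem t h).choose_spec
  have hli : LinearIndependent k (cofRows A
      (fun t => if h : (e t : τ → k) = Pi.single c 1 then none else some (hmem t h).choose) c).row :=
    (show (cofRows A _ c).row = fun t => (e t : τ → k) from funext hrows) ▸
      hb.linearIndependent.comp e e.injective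
  rw [Matrix.linearIndependent_rows_iff_isUnit, Matrix.isUnit_iff_isUnit_det, hdet] at hli
  exact not_isUnit_zero hli

end FermatAgent.MW
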