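import Fermat.Agent.MW.Line
import Mathlib.Algebra.MvPolynomial.Eval

/-!
# Regular functions on the image of `psi` are constant; forms form a domain
-/

set_option autoImplicit false

noncomputable section

open AlgebraicCurve FermatAgent.Curve MvPolynomial

namespace FermatAgent.MW

variable {K F : Type*} [Field K] [Field F] [Algebra K F] [IsAlgClosed K] [IsFunctionField1 K F]

/-- The coordinate vector of a class on a sample. -/
def coord (M : Divisor K F) (s : Finset (Place K F)) (y : Pic0 K F) : (Fin (rk M) → s) → K :=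
  resTuple s (psi M y)

theorem coord_ne_zero {M : Divisor K F} (hM : IsBig M) {s : Finset (Place K F)} (hs : Large M s)
    (y : Pic0 K F) : coord M s y ≠ 0 :=
  resTuple_psi_ne_zero hM (by unfold Large at hs; omega) y

theorem coord_mem_imgSet (M : Divisor K F) (s : Finset (Place K F)) (y : Pic0 K F) :
    coord M s y ∈ imgSet M s :=
  ⟨1, y, (one_smul K _).symm⟩

theorem exists_eq_smul_of_mem_imgSet {M : Divisor K F} {s : Finset (Place K F)}
    {x : (Fin (rk M) → s) → K} (hx : x ∈ imgSet M s) :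
    ∃ (c : K) (y : Pic0 K F), x = c • coord M s y := hx

/-- Regular coordinates near any `P₁` along a line. -/
theorem exists_line_coords [CharZero K] {M : Divisor K F} (hM : IsBig M)
    {s : Finset (Place K F)} (a : Pic0 K F) (P₁ : Place K F) :
    ∃ (f : (Fin (rk M) → s) → F) (U : Set (Place K F)), Uᶜ.Finite ∧ P₁ ∈ U ∧
      ∀ P ∈ U, (∀ Q, f Q ∈ P.toValuationSubring) ∧
        SameLine (fun Q => valueAt P (f Q)) (coord M s (a + classOf P P₁)) := by
  classical
  have := RR.infinite_place (K := K) (F := F)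
  obtain ⟨s', hs', hcard⟩ := (Set.finite_singleton P₁).infinite_compl.exists_subset_card_eq
    (4 * (Divisor.degree M).toNat + 1)
  have hP₁ : P₁ ∉ s' := fun h => hs' h rfl
  obtain ⟨f', U, hU, hPU, hf'⟩ :=
    exists_line_coords_of_notMem hM (s := s') (by unfold Large; omega) a hP₁
  have hext := fun Q : Fin (rk M) → s => exists_extension (fewZeros_evSpace (M + M)) (s := s')
    (by rw [map_add]; omega) (fun j => (Q j : Place K F))
  choose Λ hΛ using hext
  refine ⟨fun Q => ∑ Q', algebraMap K F (Λ Q Q') * f' Q', U, hU, hPU, fun P hP => ?_⟩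
  obtain ⟨hmem, κ, hκ, he⟩ := hf' P hP
  have hm : ∀ Q Q', algebraMap K F (Λ Q Q') * f' Q' ∈ P.toValuationSubring :=
    fun Q Q' => mul_mem (P.algebraMap_mem' _) (hmem Q')
  refine ⟨fun Q => sum_mem fun Q' _ => hm Q Q', κ, hκ, funext fun Q => ?_⟩
  have h1 := map_sum (evalHom P) (fun Q' => (⟨_, hm Q Q'⟩ : P.toValuationSubring)) Finset.univ
  simp only [evalHom, RingHom.coe_mk, MonoidHom.coe_mk, OneHom.coe_mk,
    AddSubmonoidClass.coe_finsetSum] at h1
  rw [h1, Pi.smul_apply, smul_eq_mul, coord]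
  show _ = κ * psi M _ _
  rw [hΛ Q _ (isSlice_psi hM _), Finset.mul_sum]
  refine Finset.sum_congr rfl fun Q' _ => ?_
  rw [valueAt_mul P (P.algebraMap_mem' _) (hmem Q'), valueAt_algebraMap,
    show valueAt P (f' Q') = κ * psi M (a + classOf P P₁) (fun j => (Q' j : Place K F)) from
      congrFun he Q']
  ring

theorem aeval_mem_and_valueAt {σ : Type*} (P : Place K F) {f : σ → F}
    (hf : ∀ i, f i ∈ P.toValuationSubring) (p : MvPolynomial σ K) :
    aeval f p ∈ P.toValuationSubring ∧
      valueAt P (aeval f p) = eval (fun i => valueAt P (f i)) p := by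
  induction p using MvPolynomial.induction_on with
  | C c =>
    rw [aeval_C, eval_C, valueAt_algebraMap]
    exact ⟨P.algebraMap_mem' c, rfl⟩
  | add p q hp hq =>
    rw [map_add, map_add, valueAt_add P hp.1 hq.1, hp.2, hq.2]
    exact ⟨add_mem hp.1 hq.1, rfl⟩
  | mul_X p i hp =>
    rw [map_mul, map_mul, aeval_X, eval_X, valueAt_mul P hp.1 (hf i), hp.2]
    exact ⟨mul_mem hp.1 (hf i), rfl⟩

theorem mem_and_valueAt_div {P : Place K F} {f g : F} (hf : f ∈ P.toValuationSubring)
    (hg : g ∈ P.toValuationSubring) (hg0 : valueAt P g ≠ 0) :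
    f / g ∈ P.toValuationSubring ∧ valueAt P (f / g) = valueAt P f / valueAt P g := by
  have hg' := (valueAt_eq_zero_iff P hg).not.mp hg0
  push Not at hg'
  have h0 : P.ord g = 0 := le_antisymm hg'.2 (ord_nonneg_of_mem' P hg)
  have hinv : g⁻¹ ∈ P.toValuationSubring :=
    (mem_iff_ord_nonneg' P).mpr (by rw [P.ord_inv, h0]; omega)
  rw [div_eq_mul_inv, valueAt_mul P hf hinv, valueAt_inv P h0, div_eq_mul_inv]
  exact ⟨mul_mem hf hinv, rfl⟩

theorem eq_of_valueAt_eq {φ ψ : F} {V : Set (Place K F)} (hV : Vᶜ.Finite)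
    (hm : ∀ P ∈ V, φ ∈ P.toValuationSubring ∧ ψ ∈ P.toValuationSubring ∧
      valueAt P φ = valueAt P ψ) : φ = ψ := by
  by_contra hne
  have := RR.infinite_place (K := K) (F := F)
  obtain ⟨P, hP⟩ := ((hV.union (RR.finite_ord_ne_zero (K := K) (φ - ψ)))).infinite_compl.nonempty
  simp only [Set.mem_compl_iff, Set.mem_union, Set.mem_ofPred_eq, not_or, not_not] at hP
  obtain ⟨h1, h2, h3⟩ := hm P hP.1
  have : valueAt P (φ - ψ) = 0 := by rw [valueAt_sub P h1 h2, h3, sub_self]
  rcases (valueAt_eq_zero_iff P (sub_mem h1 h2)).mp this with h | h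
  · exact hne (sub_eq_zero.mp h)
  · omega

theorem classOf_add (P Q R : Place K F) : classOf P Q + classOf Q R = classOf P R := by
  rw [classOf, classOf, classOf, ← Pic0.mk_add]
  congr 1
  refine Subtype.ext ?_
  show (Finsupp.single P (1 : ℤ) - Finsupp.single Q 1) +
    (Finsupp.single Q 1 - Finsupp.single R 1) = _
  abel

/-- A property of classes invariant under every `[P - Q]` holds everywhere. -/
theorem forall_of_classOf {p : Pic0 K F → Prop} (h0 : p 0)
    (h : ∀ a P Q, p a → p (a + classOf P Q)) (y : Pic0 K F) : p y := by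
  classical
  have := RR.infinite_place (K := K) (F := F)
  set Q₀ := Classical.arbitrary (Place K F)
  suffices H : ∀ (D : Divisor K F) (a : Pic0 K F), p a →
      p (a + Pic0.mk ⟨D - Finsupp.single Q₀ (Divisor.degree D), Divisor.mem_degZero.mpr (by
        rw [map_sub, RR.degree_single, sub_self])⟩) by
    obtain ⟨⟨D, hD⟩, rfl⟩ := Pic0.mk_surjective y
    have := H D 0 h0
    rw [zero_add] at this
    convert this using 2
    refine Subtype.ext ?_
    show D = D - Finsupp.single Q₀ (Divisor.degree D)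
    rw [Divisor.mem_degZero.mp hD, Finsupp.single_zero, sub_zero]
  intro D
  induction D using Finsupp.induction with
  | zero =>
    intro a ha
    convert ha
    rw [add_eq_left]
    refine (mk_eq_of_sub_mem_principal (D' := 0) ?_).trans rfl
    rw [ZeroMemClass.coe_zero, sub_zero]
    show (0 : Divisor K F) - Finsupp.single Q₀ (Divisor.degree (0 : Divisor K F)) ∈ _
    rw [map_zero, Finsupp.single_zero, sub_zero]
    exact zero_mem _
  | single_add P n D _ _ ih =>
    intro a ha
    have hint : ∀ (k : ℕ) (a : Pic0 K F), p a → ∀ P Q, p (a + k • classOf P Q) := by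
      intro k
      induction k with
      | zero => intro a ha P Q; rwa [zero_nsmul, add_zero]
      | succ k ihk => intro a ha P Q; rw [succ_nsmul, ← add_assoc]; exact h _ P Q (ihk a ha P Q)
    have hn : p (a + n • classOf P Q₀) := by
      rcases Int.eq_nat_or_neg n with ⟨k, rfl | rfl⟩
      · rw [natCast_zsmul]; exact hint k a ha P Q₀
      · rw [neg_zsmul, natCast_zsmul, ← neg_nsmul,
          show -classOf P Q₀ = classOf Q₀ P from neg_eq_of_add_eq_zero_right
            ((classOf_add P Q₀ P).trans (classOf_self P))]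
        exact hint k a ha Q₀ P
    have := ih _ hn
    rw [add_assoc] at this
    convert this using 2
    rw [classOf]
    show Pic0.mk _ = n • Pic0.mk _ + Pic0.mk _
    rw [← show Pic0.mk (n • (⟨Finsupp.single P 1 - Finsupp.single Q₀ 1, _⟩ :
      Divisor.degZero (K := K) (F := F))) = n • Pic0.mk _ from rfl, ← Pic0.mk_add]
    congr 1
    refine Subtype.ext ?_
    show Finsupp.single P n + D - Finsupp.single Q₀ (Divisor.degree (Finsupp.single P n + D)) =
      n • (Finsupp.single P (1 : ℤ) - Finsupp.single Q₀ 1) +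
        (D - Finsupp.single Q₀ (Divisor.degree D))
    rw [map_add, RR.degree_single, Finsupp.single_add, smul_sub, Finsupp.smul_single,
      Finsupp.smul_single, smul_eq_mul, mul_one]
    abel

/-- A function of classes given locally by quotients of polynomials in the coordinates, valid at
every representative. -/
def IsRegFun (M : Divisor K F) (s : Finset (Place K F)) (lam : Pic0 K F → K) : Prop :=
  ∀ b, ∃ P R : MvPolynomial (Fin (rk M) → s) K, eval (coord M s b) R ≠ 0 ∧
    ∀ b' (κ : K), κ ≠ 0 → eval (κ • coord M s b') R ≠ 0 →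
      lam b' * eval (κ • coord M s b') R = eval (κ • coord M s b') P

theorem IsRegFun.apply_eq [CharZero K] {M : Divisor K F} (hM : IsBig M) {s : Finset (Place K F)}
    {lam : Pic0 K F → K} (h : IsRegFun M s lam) (a b : Pic0 K F) : lam a = lam b := by
  classical
  suffices H : ∀ a P₁ P, lam (a + classOf P P₁) = lam a by
    have key : ∀ y, lam y = lam 0 := forall_of_classOf rfl fun a P Q ha => by rw [H, ha]
    rw [key a, key b]
  intro a P₁
  set g : Place K F → K := fun P => lam (a + classOf P P₁)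
  have hloc : ∀ P₀, ∃ (φ : F) (V : Set (Place K F)), Vᶜ.Finite ∧ P₀ ∈ V ∧
      ∀ P ∈ V, φ ∈ P.toValuationSubring ∧ valueAt P φ = g P := by
    intro P₀
    set a₀ := a + classOf P₀ P₁
    have hg : ∀ P, g P = lam (a₀ + classOf P P₀) := fun P => by
      show lam _ = lam _
      rw [add_assoc, add_comm (classOf P₀ P₁), classOf_add]
    obtain ⟨f, U, hU, hPU, hf⟩ := exists_line_coords hM (s := s) a₀ P₀
    obtain ⟨P', R, hR0, hlam⟩ := h a₀
    obtain ⟨-, κ₀, hκ₀, he₀⟩ := hf P₀ hPU
    rw [classOf_self, add_zero] at he₀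
    let f' : (Fin (rk M) → s) → F := fun Q => algebraMap K F κ₀⁻¹ * f Q
    have hev : ∀ P ∈ U, ∃ κ : K, κ ≠ 0 ∧ ∀ p : MvPolynomial (Fin (rk M) → s) K,
        aeval f' p ∈ P.toValuationSubring ∧
          valueAt P (aeval f' p) = eval (κ • coord M s (a₀ + classOf P P₀)) p := fun P hP => by
      obtain ⟨hm, κ, hκ, he⟩ := hf P hP
      refine ⟨κ₀⁻¹ * κ, mul_ne_zero (inv_ne_zero hκ₀) hκ, fun p => ?_⟩
      obtain ⟨h1, h2⟩ := aeval_mem_and_valueAt P (f := f')
        (fun Q => mul_mem (P.algebraMap_mem' _) (hm Q)) p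
      refine ⟨h1, h2.trans (congrArg (fun v => eval v p) (funext fun Q => ?_))⟩
      rw [valueAt_mul P (P.algebraMap_mem' _) (hm Q), valueAt_algebraMap,
        show valueAt P (f Q) = κ * coord M s (a₀ + classOf P P₀) Q from congrFun he Q,
        Pi.smul_apply, smul_eq_mul, mul_assoc]
    let V : Set (Place K F) := {P | P ∈ U ∧ valueAt P (aeval f' R) ≠ 0}
    have hR1 : valueAt P₀ (aeval f' R) ≠ 0 := by
      have hm := (hf P₀ hPU).1
      rw [(aeval_mem_and_valueAt P₀ (f := f')
        (fun Q => mul_mem (P₀.algebraMap_mem' _) (hm Q)) R).2]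
      refine ne_of_eq_of_ne (congrArg (fun v : (Fin (rk M) → s) → K => eval v R)
        (funext fun Q => ?_)) hR0
      rw [valueAt_mul P₀ (P₀.algebraMap_mem' _) (hm Q), valueAt_algebraMap,
        show valueAt P₀ (f Q) = κ₀ * coord M s a₀ Q from congrFun he₀ Q,
        ← mul_assoc, inv_mul_cancel₀ hκ₀, one_mul]
    have hRF : aeval f' R ≠ 0 := fun h0 => hR1 (by rw [h0]; exact map_zero (evalHom P₀))
    refine ⟨aeval f' P' / aeval f' R, V, ?_, ⟨hPU, hR1⟩, fun P hP => ?_⟩
    · refine (hU.union (RR.finite_ord_ne_zero (K := K) (aeval f' R))).subset fun P hP => ?_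
      by_cases hPU' : P ∈ U
      · simp only [V, Set.mem_compl_iff, Set.mem_ofPred_eq, hPU', true_and, not_not] at hP
        obtain ⟨κ, -, hev'⟩ := hev P hPU'
        rcases (valueAt_eq_zero_iff P (hev' R).1).mp hP with h' | h'
        · exact absurd h' hRF
        · exact Or.inr (ne_of_gt h')
      · exact Or.inl hPU'
    · obtain ⟨κ, hκ, hev'⟩ := hev P hP.1
      obtain ⟨h1, h2⟩ := mem_and_valueAt_div (hev' P').1 (hev' R).1 hP.2
      refine ⟨h1, ?_⟩
      have hne := hP.2
      rw [(hev' R).2] at hne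
      rw [h2, (hev' P').2, (hev' R).2, hg, ← hlam _ κ hκ hne, mul_div_cancel_right₀ _ hne]
  choose φ V hV hPV hφ using hloc
  have hsame : ∀ P₀ P₀', φ P₀ = φ P₀' := fun P₀ P₀' => by
    refine eq_of_valueAt_eq (V := V P₀ ∩ V P₀') ?_ fun P hP =>
      ⟨(hφ P₀ P hP.1).1, (hφ P₀' P hP.2).1, (hφ P₀ P hP.1).2.trans (hφ P₀' P hP.2).2.symm⟩
    rw [Set.compl_inter]
    exact (hV P₀).union (hV P₀')
  obtain ⟨c, hc⟩ : ∃ c : K, algebraMap K F c = φ P₁ := by
    refine RR.mem_riemannRochSpace_zero_iff.mp (mem_riemannRochSpace_iff.mpr fun v => Or.inr ?_)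
    have h1 := (hφ v v (hPV v)).1
    rw [hsame v P₁] at h1
    simpa using ord_nonneg_of_mem' v h1
  have hconst : ∀ P, g P = c := fun P => by
    rw [← (hφ P P (hPV P)).2, hsame P P₁, ← hc, valueAt_algebraMap]
  intro P
  have h1 := hconst P₁
  simp only [g, classOf_self, add_zero] at h1
  exact (hconst P).trans h1.symm

/-- The coordinate ring of the image of `psi` is a domain. -/
theorem forall_eval_eq_zero_or [CharZero K] {M : Divisor K F} (hM : IsBig M)
    {s : Finset (Place K F)} (hs : Large M s) {p q : MvPolynomial (Fin (rk M) → s) K}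
    (h : ∀ x ∈ imgSet M s, eval x (p * q) = 0) :
    (∀ x ∈ imgSet M s, eval x p = 0) ∨ ∀ x ∈ imgSet M s, eval x q = 0 := by
  classical
  have := RR.infinite_place (K := K) (F := F)
  -- the vanishing locus on each line is finite or everything
  let Z : MvPolynomial (Fin (rk M) → s) K → Pic0 K F → Prop := fun p y =>
    ∀ c : K, eval (c • coord M s y) p = 0
  have key : ∀ (p : MvPolynomial (Fin (rk M) → s) K) (a : Pic0 K F) (P₁ : Place K F),
      {P | Z p (a + classOf P P₁)}.Finite ∨ ∀ P, Z p (a + classOf P P₁) := by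
    intro p a P₁
    by_contra hcon
    push Not at hcon
    obtain ⟨hinf, P₀, hP₀⟩ := hcon
    set a₀ := a + classOf P₀ P₁
    obtain ⟨f, U, hU, hPU, hf⟩ := exists_line_coords hM (s := s) a₀ P₀
    obtain ⟨c, hc⟩ : ∃ c : K, eval (c • coord M s a₀) p ≠ 0 := by
      simpa only [Z, not_forall] using hP₀
    obtain ⟨hm₀, κ₀, hκ₀, he₀⟩ := hf P₀ hPU
    let f' : (Fin (rk M) → s) → F := fun Q => algebraMap K F (c * κ₀⁻¹) * f Q
    have hval : ∀ P ∈ U, ∃ e : K, aeval f' p ∈ P.toValuationSubring ∧
        valueAt P (aeval f' p) = eval (e • coord M s (a₀ + classOf P P₀)) p ∧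
        (P = P₀ → e = c) := fun P hP => by
      obtain ⟨hm, κ, hκ, he⟩ := hf P hP
      obtain ⟨h1, h2⟩ := aeval_mem_and_valueAt P (f := f')
        (fun Q => mul_mem (P.algebraMap_mem' _) (hm Q)) p
      refine ⟨c * κ₀⁻¹ * κ, h1, ?_, fun hPe => ?_⟩
      · rw [h2]
        refine congrArg (fun v => eval v p) (funext fun Q => ?_)
        rw [valueAt_mul P (P.algebraMap_mem' _) (hm Q), valueAt_algebraMap,
          show valueAt P (f Q) = κ * coord M s (a₀ + classOf P P₀) Q from congrFun he Q]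
        simp only [Pi.smul_apply, smul_eq_mul]
        ring
      · subst hPe
        have : κ = κ₀ := smul_left_injective K (coord_ne_zero hM hs a₀) (by
          rw [classOf_self, add_zero] at he he₀
          exact he.symm.trans he₀)
        rw [this, mul_assoc, inv_mul_cancel₀ hκ₀, mul_one]
    have hne : aeval f' p ≠ 0 := fun h0 => by
      obtain ⟨e, -, h2, h3⟩ := hval P₀ hPU
      rw [h3 rfl, classOf_self, add_zero, h0] at h2
      exact hc (h2.symm.trans (map_zero (evalHom P₀)))
    refine hinf ((hU.union (RR.finite_ord_ne_zero (K := K) (aeval f' p))).subset fun P hP => ?_)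
    by_cases hPU' : P ∈ U
    · obtain ⟨e, h1, h2, -⟩ := hval P hPU'
      have hz : valueAt P (aeval f' p) = 0 := by
        rw [h2, show a₀ + classOf P P₀ = a + classOf P P₁ by
          rw [add_assoc, add_comm (classOf P₀ P₁), classOf_add]]
        exact hP e
      rcases (valueAt_eq_zero_iff P h1).mp hz with h' | h'
      · exact absurd h' hne
      · exact Or.inr (ne_of_gt h')
    · exact Or.inl hPU'
  have two : ∀ {r₁ r₂ : Pic0 K F → Prop}, (∀ a P₁, {P : Place K F | r₁ (a + classOf P P₁)}.Finite ∨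
      ∀ P, r₁ (a + classOf P P₁)) → (∀ a P₁, {P : Place K F | r₂ (a + classOf P P₁)}.Finite ∨
      ∀ P, r₂ (a + classOf P P₁)) → ∀ y₁ y₂, ¬ r₁ y₁ → ¬ r₂ y₂ → ∃ z, ¬ r₁ z ∧ ¬ r₂ z := by
    intro r₁ r₂ k₁ k₂ y₁ y₂ h₁ h₂
    suffices H : ∀ d y, ¬ r₁ y → ¬ r₂ (y + d) → ∃ z, ¬ r₁ z ∧ ¬ r₂ z from
      H (y₂ - y₁) y₁ h₁ (by rwa [add_sub_cancel])
    refine forall_of_classOf (fun y hy hy' => ⟨y, hy, by rwa [add_zero] at hy'⟩)
      fun d P Q ih y hy hy' => ?_
    have f₁ : {R | r₁ (y + classOf R Q)}.Finite := (k₁ y Q).resolve_right fun hall => hy <| by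
      simpa [classOf_self] using hall Q
    have f₂ : {R | r₂ (y + d + classOf R Q)}.Finite := (k₂ (y + d) Q).resolve_right fun hall =>
      hy' <| by rw [← add_assoc]; exact hall P
    obtain ⟨R, hR⟩ := (f₁.union f₂).infinite_compl.nonempty
    simp only [Set.mem_compl_iff, Set.mem_union, Set.mem_ofPred_eq, not_or] at hR
    refine ih (y + classOf R Q) hR.1 ?_
    rw [add_right_comm]
    exact hR.2
  by_contra hcon
  push Not at hcon
  obtain ⟨⟨x₁, hx₁, hp⟩, x₂, hx₂, hq⟩ := hcon
  obtain ⟨c₁, y₁, rfl⟩ := exists_eq_smul_of_mem_imgSet hx₁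
  obtain ⟨c₂, y₂, rfl⟩ := exists_eq_smul_of_mem_imgSet hx₂
  obtain ⟨z, hzp, hzq⟩ := two (r₁ := Z p) (r₂ := Z q) (key p) (key q) y₁ y₂
    (fun hz => hp (hz c₁)) fun hz => hq (hz c₂)
  let pol : MvPolynomial (Fin (rk M) → s) K → Polynomial K :=
    aeval fun Q => Polynomial.C (coord M s z Q) * Polynomial.X
  have hpol : ∀ (r : MvPolynomial (Fin (rk M) → s) K) (c : K),
      (pol r).eval c = eval (c • coord M s z) r := fun r c => by
    show Polynomial.aeval c (aeval _ r) = _
    rw [← AlgHom.comp_apply, MvPolynomial.comp_aeval, ← aeval_eq_eval]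
    refine congrArg (fun v => aeval v r) (funext fun Q => ?_)
    simp only [map_mul, Polynomial.aeval_C, Polynomial.aeval_X, Pi.smul_apply, smul_eq_mul]
    exact mul_comm _ _
  have hne : ∀ r, ¬ Z r z → pol r ≠ 0 := fun r hr h0 => hr fun c => by
    rw [← hpol, h0, Polynomial.eval_zero]
  obtain ⟨c, hc⟩ := Polynomial.exists_eval_ne_zero_of_natDegree_lt_card (pol p * pol q)
    (mul_ne_zero (hne p hzp) (hne q hzq)) (Cardinal.natCast_lt_aleph0.trans_le
      (Cardinal.aleph0_le_mk K))
  rw [Polynomial.eval_mul, hpol, hpol, ← map_mul] at hc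
  exact hc (h _ ⟨c, z, rfl⟩)

end FermatAgent.MW
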