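import Fermat.Agent.MW.Cert
import Mathlib.RingTheory.AlgebraicIndependent.TranscendenceBasis
import Mathlib.RingTheory.Ideal.GoingUp
import Mathlib.RingTheory.FiniteType

/-!
# Finite maps of cones: fibres, transcendence degrees, lifting points
-/

set_option autoImplicit false

noncomputable section

open MvPolynomial

namespace FermatAgent.MW

universe uk uA

variable {k : Type uk} [Field k]

/-- Points on a cone with prescribed value of a form without zeros are finitely many. -/
theorem finite_normalised [IsAlgClosed k] {σ : Type*} [Finite σ] {Z : Set (σ → k)} (hZ : IsAlg Z)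
    (hc : IsCone Z) (l : MvPolynomial σ k) {d : ℕ} (hd : 0 < d) (hl : l.IsHomogeneous d)
    (h0 : ∀ x ∈ Z, eval x l = 0 → x = 0) (e : k) : {x ∈ Z | eval x l = e}.Finite := by
  classical
  cases nonempty_fintype σ
  set lbar := Ideal.Quotient.mk (vanishingIdeal k Z) l with hlbar
  set S := Algebra.adjoin k (Set.range fun _ : Unit => lbar)
  have hfin : Module.Finite S (CoordRing Z) := finite_adjoin_forms hZ hc (fun _ : Unit => l) hd
    (fun _ => hl) fun x hx h => h0 x hx (h ())
  choose p hpm hp0 using fun i : σ =>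
    IsIntegral.of_finite S (Ideal.Quotient.mk (vanishingIdeal k Z) (X i))
  rcases Set.eq_empty_or_nonempty {x ∈ Z | eval x l = e} with hemp | ⟨x₀, hx₀, hx₀e⟩
  · rw [hemp]; exact Set.finite_empty
  set φ₀ : S →ₐ[k] k := (evalAt hx₀).comp S.val
  have hφ : ∀ x (hx : x ∈ Z), eval x l = e → (evalAt hx).comp S.val = φ₀ := fun x hx hxe => by
    refine AlgHom.adjoin_ext fun z hz => ?_
    obtain ⟨u, rfl⟩ := hz
    show evalAt hx lbar = evalAt hx₀ lbar
    rw [hlbar, evalAt_mk, evalAt_mk, hxe, hx₀e]
  refine (Set.Finite.pi fun i : σ => ((p i).map φ₀.toRingHom).roots.toFinset.finite_toSet).subset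
    fun x hx i _ => ?_
  obtain ⟨hxZ, hxe⟩ := hx
  rw [Finset.mem_coe, Multiset.mem_toFinset, Polynomial.mem_roots ((hpm i).map _).ne_zero,
    Polynomial.IsRoot, Polynomial.eval_map, ← hφ x hxZ hxe]
  have := congrArg (evalAt hxZ) (hp0 i)
  rw [map_zero, ← AlgHom.coe_toRingHom, Polynomial.hom_eval₂, AlgHom.coe_toRingHom, evalAt_mk,
    eval_X] at this
  exact this

/-- Integral injective maps of domains preserve the transcendence degree. -/
theorem trdeg_eq_of_isIntegral {B A : Type uA} [CommRing B] [CommRing A] [IsDomain A]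
    [Algebra k B] [Algebra k A] (f : B →ₐ[k] A) (hf : Function.Injective f)
    (hint : f.toRingHom.IsIntegral) : Algebra.trdeg k B = Algebra.trdeg k A := by
  have := hf.isDomain f
  let := f.toRingHom.toAlgebra
  have : IsScalarTower k B A := IsScalarTower.of_algHom f
  have : FaithfulSMul B A := (faithfulSMul_iff_algebraMap_injective B A).mpr hf
  have : Algebra.IsIntegral B A := ⟨hint⟩
  obtain ⟨t, ht⟩ := exists_isTranscendenceBasis B A
  have := (ht.isEmpty_iff_isAlgebraic).mpr inferInstance
  have h0 : Algebra.trdeg B A = 0 := by rw [← ht.cardinalMk_eq_trdeg, Cardinal.mk_eq_zero]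
  rw [← trdeg_add_eq k B (A := A), h0, add_zero]

/-- A surjection of domains of equal finite transcendence degree is injective. -/
theorem injective_of_trdeg_eq {B C : Type uA} [CommRing B] [CommRing C] [IsDomain B] [IsDomain C]
    [Algebra k B] [Algebra k C] [Algebra.FiniteType k B] (f : B →ₐ[k] C)
    (hf : Function.Surjective f) (h : Algebra.trdeg k C = Algebra.trdeg k B) :
    Function.Injective f := by
  classical
  obtain ⟨t, ht⟩ := exists_isTranscendenceBasis k C
  have hlt : Algebra.trdeg k C < Cardinal.aleph0 := h ▸ trdeg_lt_aleph0_of_finiteType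
  have : Finite t := by
    rw [← Cardinal.lt_aleph0_iff_finite, ht.cardinalMk_eq_trdeg]
    exact hlt
  let x : t → B := fun i => Function.surjInv hf i.1
  have hfx : f ∘ x = Subtype.val := funext fun i => Function.surjInv_eq hf i.1
  have hx : AlgebraicIndependent k x := AlgebraicIndependent.of_comp f (hfx.symm ▸ ht.1)
  have hb : IsTranscendenceBasis k x :=
    hx.isTranscendenceBasis_of_trdeg_le_of_finite (by rw [← h, ht.cardinalMk_eq_trdeg])
  have := hb.isAlgebraic
  refine (injective_iff_map_eq_zero f).mpr fun p hp => ?_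
  by_contra hp0
  obtain ⟨r, hr, hdvd⟩ := (Algebra.IsAlgebraic.isAlgebraic
    (R := Algebra.adjoin k (Set.range x)) p).exists_nonzero_dvd (mem_nonZeroDivisors_of_ne_zero hp0)
  obtain ⟨q, hq⟩ := hdvd
  obtain ⟨P, hP⟩ : ∃ P : MvPolynomial t k, aeval x P = (r : B) := by
    exact (Algebra.adjoin_range_eq_range_aeval k x).le r.2
  have hfr : f (r : B) = 0 := by
    rw [show (r : B) = p * q from hq, map_mul, hp, zero_mul]
  rw [← hP, ← AlgHom.comp_apply, comp_aeval] at hfr
  have hfr' : aeval (Subtype.val : t → C) P = 0 := by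
    rw [← hfx]
    exact hfr
  have : P = 0 := ht.1 (by rw [map_zero]; exact hfr')
  exact hr (Subtype.ext (by rw [← hP, this, map_zero]; rfl))

/-- A point extends along an integral map. -/
theorem exists_algHom_extend [IsAlgClosed k] {B A : Type*} [CommRing B] [CommRing A]
    [Algebra k B] [Algebra k A] (f : B →ₐ[k] A) (hint : f.toRingHom.IsIntegral) (χ : B →ₐ[k] k)
    (hker : ∀ b, f b = 0 → χ b = 0) : ∃ φ : A →ₐ[k] k, ∀ b, φ (f b) = χ b := by
  let := f.toRingHom.toAlgebra
  have : Algebra.IsIntegral B A := ⟨hint⟩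
  have hsurj : Function.Surjective χ := fun c => ⟨algebraMap k B c, χ.commutes c⟩
  have : (RingHom.ker χ).IsMaximal := RingHom.ker_isMaximal_of_surjective χ hsurj
  obtain ⟨Q, hQ, hQm⟩ := Ideal.exists_ideal_over_maximal_of_isIntegral (S := A) (RingHom.ker χ)
    fun b hb => hker b hb
  let q : A →ₐ[k] A ⧸ Q := Ideal.Quotient.mkₐ k Q
  have hqf : ∀ b, q (f b) = algebraMap k (A ⧸ Q) (χ b) := fun b => by
    have hb : b - algebraMap k B (χ b) ∈ RingHom.ker χ := by
      rw [RingHom.mem_ker, map_sub, AlgHom.commutes, Algebra.algebraMap_self, RingHom.id_apply,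
        sub_self]
    rw [← hQm, Ideal.mem_comap] at hb
    have : q (f (b - algebraMap k B (χ b))) = 0 := Ideal.Quotient.eq_zero_iff_mem.mpr hb
    rwa [map_sub, map_sub, sub_eq_zero, AlgHom.commutes, AlgHom.commutes] at this
  have : Algebra.IsIntegral k (A ⧸ Q) := ⟨fun z => by
    obtain ⟨a, rfl⟩ := Ideal.Quotient.mk_surjective z
    obtain ⟨P, hPm, hP⟩ := hint a
    refine ⟨P.map χ.toRingHom, hPm.map _, ?_⟩
    rw [Polynomial.eval₂_map,
      show (algebraMap k (A ⧸ Q)).comp χ.toRingHom = (q : A →+* A ⧸ Q).comp f.toRingHom from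
        RingHom.ext fun b => (hqf b).symm,
      show Ideal.Quotient.mk Q a = (q : A →+* A ⧸ Q) a from rfl, ← Polynomial.hom_eval₂, hP,
      map_zero]⟩
  have : IsDomain (A ⧸ Q) := Ideal.Quotient.isDomain Q
  have hbij : Function.Bijective (algebraMap k (A ⧸ Q)) :=
    IsAlgClosed.algebraMap_bijective_of_isIntegral
  let e : k ≃ₐ[k] A ⧸ Q := AlgEquiv.ofBijective (Algebra.ofId k (A ⧸ Q)) hbij
  refine ⟨e.symm.toAlgHom.comp q, fun b => ?_⟩
  show e.symm (q (f b)) = χ b
  rw [hqf]
  exact e.symm.commutes (χ b)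

theorem isIntegral_aeval {ι A : Type*} [CommRing A] [Algebra k A] (a : ι → A)
    (h : Module.Finite (Algebra.adjoin k (Set.range a)) A) :
    (aeval a : MvPolynomial ι k →ₐ[k] A).toRingHom.IsIntegral := by
  let ψ : MvPolynomial ι k →+* Algebra.adjoin k (Set.range a) :=
    ((aeval a : MvPolynomial ι k →ₐ[k] A).codRestrict _ fun p => by
      rw [Algebra.adjoin_range_eq_range_aeval]; exact ⟨p, rfl⟩).toRingHom
  have hψ : Function.Surjective ψ := fun y => by
    obtain ⟨p, hp⟩ : ∃ p, aeval a p = (y : A) :=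
      (Algebra.adjoin_range_eq_range_aeval k a).le y.2
    exact ⟨p, Subtype.ext hp⟩
  show ((algebraMap (Algebra.adjoin k (Set.range a)) A).comp ψ).IsIntegral
  exact RingHom.IsIntegral.trans _ _ (RingHom.isIntegral_of_surjective _ hψ)
    fun z => IsIntegral.of_finite (Algebra.adjoin k (Set.range a)) z

end FermatAgent.MW
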