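import Fermat.Agent.MW.Reps

/-!
# The embedding of `Pic⁰` modulo `± 1`

`psi M y Q = det L(M + D)(Q) · det L(M - D)(Q)` for `y = [D]`, as functions of tuples
`Q : Fin r → Place K F`, well defined up to a non-zero scalar.
-/

set_option autoImplicit false

noncomputable section

open AlgebraicCurve FermatAgent.Curve

namespace FermatAgent.MW

variable {K F : Type*} [Field K] [Field F] [Algebra K F] [IsAlgClosed K] [IsFunctionField1 K F]

/-- Equality up to a non-zero scalar. -/
def SameLine {X : Type*} (a b : X → K) : Prop := ∃ c : K, c ≠ 0 ∧ a = c • b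

omit [IsAlgClosed K] in
theorem SameLine.refl {X : Type*} (a : X → K) : SameLine a a := ⟨1, one_ne_zero, (one_smul K a).symm⟩

omit [IsAlgClosed K] in
theorem SameLine.symm {X : Type*} {a b : X → K} (h : SameLine a b) : SameLine b a := by
  obtain ⟨c, hc, rfl⟩ := h
  exact ⟨c⁻¹, inv_ne_zero hc, (inv_smul_smul₀ hc b).symm⟩

omit [IsAlgClosed K] in
theorem SameLine.trans {X : Type*} {a b c : X → K} (h : SameLine a b) (h' : SameLine b c) :
    SameLine a c := by
  obtain ⟨s, hs, rfl⟩ := h
  obtain ⟨t, ht, rfl⟩ := h'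
  exact ⟨s * t, mul_ne_zero hs ht, smul_smul s t c⟩

omit [IsAlgClosed K] in
theorem SameLine.mul {X : Type*} {a b a' b' : X → K} (h : SameLine a b) (h' : SameLine a' b') :
    SameLine (a * a') (b * b') := by
  obtain ⟨s, hs, rfl⟩ := h
  obtain ⟨t, ht, rfl⟩ := h'
  exact ⟨s * t, mul_ne_zero hs ht, by rw [smul_mul_smul_comm]⟩

omit [IsAlgClosed K] in
theorem SameLine.apply_eq_zero {X : Type*} {a b : X → K} (h : SameLine a b) (x : X) :
    a x = 0 ↔ b x = 0 := by
  obtain ⟨c, hc, rfl⟩ := h
  simp [hc]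

omit [IsAlgClosed K] in
theorem SameLine.comp {X Y : Type*} {a b : X → K} (h : SameLine a b) (g : Y → X) :
    SameLine (a ∘ g) (b ∘ g) := by
  obtain ⟨c, hc, rfl⟩ := h
  exact ⟨c, hc, rfl⟩

/-- Trivialised evaluations of a basis of `L(D)` (or zero if `l(D) ≠ r`). -/
def evFun (r : ℕ) (D : Divisor K F) : Fin r → Place K F → K :=
  if h : Module.finrank K (riemannRochSpace D) = r then
    fun i => evLin D (Module.finBasisOfFinrankEq K _ h i)
  else 0

/-- `det L(D)` at tuples of places. -/
def detL (r : ℕ) (D : Divisor K F) : (Fin r → Place K F) → K := detFun (evFun r D)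

theorem sameLine_evDet {r : ℕ} {D : Divisor K F}
    (b b' : Module.Basis (Fin r) K (riemannRochSpace D)) : SameLine (evDet b) (evDet b') := by
  refine ⟨((b'.toMatrix b).transpose).det, ?_, funext fun Q => ?_⟩
  · rw [Matrix.det_transpose]
    have := b'.invertibleToMatrix b
    exact (Matrix.isUnit_det_of_invertible _).ne_zero
  · show evDet b Q = _ * evDet b' Q
    unfold evDet detFun
    rw [← Matrix.det_mul]
    congr 1
    ext i j
    simp only [Matrix.mul_apply, Matrix.transpose_apply, Matrix.of_apply]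
    have e := congrArg (fun x => evLin D x (Q j)) (b'.sum_toMatrix_smul_self b i)
    simp only [map_sum, map_smul, Finset.sum_apply, Pi.smul_apply, smul_eq_mul] at e
    exact e.symm

theorem sameLine_detL {r : ℕ} {D : Divisor K F}
    (b : Module.Basis (Fin r) K (riemannRochSpace D)) : SameLine (detL r D) (evDet b) := by
  have h : Module.finrank K (riemannRochSpace D) = r := by
    rw [Module.finrank_eq_card_basis b, Fintype.card_fin]
  rw [detL, evFun, dif_pos h]
  exact sameLine_evDet _ b

theorem isSlice_detL {r : ℕ} {D : Divisor K F} (h : RR.ell D = r) :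
    IsSlice (evSpace D) (detL r D) := by
  rw [detL, evFun, dif_pos (show Module.finrank K (riemannRochSpace D) = r from h)]
  exact isSlice_evDet _

theorem isAlt_detL (r : ℕ) (D : Divisor K F) : IsAlt (detL r D) := isAlt_detFun _

theorem detL_eq_zero_iff {r : ℕ} {D : Divisor K F} (h : RR.ell D = r) {Q : Fin r → Place K F}
    {t : Finset (Place K F)} (ht : ∀ P, P ∈ t ↔ ∃ j, Q j = P) :
    detL r D Q = 0 ↔ RR.ell (D - setDiv t) ≠ 0 := by
  rw [detL, evFun, dif_pos (show Module.finrank K (riemannRochSpace D) = r from h)]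
  exact not_iff_not.mp (by rw [not_not]; exact evDet_ne_zero_iff_ell _ ht)

/-- Linearly equivalent divisors: the determinants differ by the product of a nowhere zero
function. -/
theorem sameLine_detL_sub_divFn {r : ℕ} {D : Divisor K F} (h : RR.ell D = r) {f : F} (hf : f ≠ 0) :
    SameLine (detL r (D - RR.divFn f)) (fun Q => (∏ j, unitPart f (Q j)) * detL r D Q) := by
  let b := Module.finBasisOfFinrankEq K (riemannRochSpace D) h
  refine (sameLine_detL (b.map (RR.mulEquiv hf D))).trans ?_
  have e : evDet (b.map (RR.mulEquiv hf D)) = fun Q => (∏ j, unitPart f (Q j)) * evDet b Q := by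
    funext Q
    exact detFun_smul_rows _ _ (unitPart f)
      (fun i P => by rw [Module.Basis.map_apply, evLin_mulEquiv, mul_comm]) Q
  rw [e]
  exact (SameLine.refl _).mul (sameLine_detL b).symm

/-- A set of places imposing exactly `l(A)` independent conditions on `L(A)`. -/
theorem exists_setDiv_ell_eq_zero (A : Divisor K F) {S : Set (Place K F)} (hS : S.Finite) :
    ∃ t : Finset (Place K F), t.card = RR.ell A ∧ (∀ P ∈ t, P ∉ S) ∧
      RR.ell (A - setDiv t) = 0 := by
  classical
  induction hn : RR.ell A generalizing A S with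
  | zero => exact ⟨∅, rfl, by simp, by simpa [setDiv] using hn⟩
  | succ n ih =>
    obtain ⟨f, hf, hf0⟩ := Submodule.exists_mem_ne_zero_of_ne_bot
      (p := riemannRochSpace A) (fun hb => by
        unfold RR.ell at hn; rw [hb, finrank_bot] at hn; omega)
    have := RR.infinite_place (K := K) (F := F)
    obtain ⟨P, hP⟩ := (hS.union ((A.support.finite_toSet).union
      (RR.finite_ord_ne_zero (K := K) f))).infinite_compl.nonempty
    simp only [Set.mem_compl_iff, Set.mem_union, not_or, Finset.mem_coe,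
      Finsupp.mem_support_iff, not_not, Set.mem_ofPred_eq] at hP
    obtain ⟨hPS, hPA, hPf⟩ := hP
    have h1 : RR.ell A = RR.ell (A - Finsupp.single P 1) + 1 := by
      have hf' := hf
      rw [← sub_add_cancel A (Finsupp.single P 1)] at hf'
      have := RR.ell_add_single_of_notMem hf' fun hcon => by
        have h3 := (mem_riemannRochSpace_iff.mp hcon P).resolve_left hf0
        rw [Finsupp.sub_apply, Finsupp.single_eq_same] at h3
        omega
      rwa [sub_add_cancel] at this
    obtain ⟨t, ht, htS, hte⟩ := ih (A - Finsupp.single P 1) (hS.insert P) (by omega)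
    have hPt : P ∉ t := fun h => htS P h (Set.mem_insert P S)
    refine ⟨insert P t, by rw [Finset.card_insert_of_notMem hPt, ht], fun Q hQ => ?_, ?_⟩
    · rcases Finset.mem_insert.mp hQ with rfl | hQ
      · exact hPS
      · exact fun h => htS Q hQ (Set.mem_insert_of_mem P h)
    · rwa [setDiv_insert hPt, ← sub_sub]

theorem detL_ne_zero {r : ℕ} {D : Divisor K F} (h : RR.ell D = r) : detL r D ≠ 0 := by
  obtain ⟨t, ht, -, hte⟩ := exists_setDiv_ell_eq_zero D Set.finite_empty
  let e : Fin r ≃ t := (Finset.equivFinOfCardEq (ht.trans h)).symm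
  refine Function.ne_iff.mpr ⟨fun j => (e j : Place K F), fun h0 => ?_⟩
  exact (detL_eq_zero_iff h (t := t) fun P => ⟨fun hP => ⟨e.symm ⟨P, hP⟩, by simp⟩,
    fun ⟨j, hj⟩ => hj ▸ (e j).2⟩).mp h0 hte

/-! ### The map `psi` -/

/-- Large degree: enough for all the constructions. -/
def IsBig (M : Divisor K F) : Prop := 3 * (genusFF K F : ℤ) + 1 ≤ Divisor.degree M

/-- `l(M + D)` for `deg D = 0`. -/
def rk (M : Divisor K F) : ℕ := (Divisor.degree M + 1 - genusFF K F).toNat

theorem ell_add_eq_rk {M : Divisor K F} (hM : IsBig M) {D : Divisor K F}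
    (hD : Divisor.degree D = 0) : RR.ell (M + D) = rk M := by
  have h : 2 * (genusFF K F : ℤ) - 1 ≤ Divisor.degree (M + D) := by
    rw [map_add, hD]; unfold IsBig at hM; omega
  have := RR.ell_eq_of_degree_ge h
  rw [map_add, hD, add_zero] at this
  unfold rk
  omega

theorem ell_sub_eq_rk {M : Divisor K F} (hM : IsBig M) {D : Divisor K F}
    (hD : Divisor.degree D = 0) : RR.ell (M - D) = rk M := by
  rw [sub_eq_add_neg]
  exact ell_add_eq_rk hM (by rw [map_neg, hD, neg_zero])

/-- The coordinates attached to a divisor of degree zero. -/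
def psiDiv (M D : Divisor K F) : (Fin (rk M) → Place K F) → K :=
  detL (rk M) (M + D) * detL (rk M) (M - D)

theorem psiDiv_neg (M D : Divisor K F) : psiDiv M (-D) = psiDiv M D := by
  rw [psiDiv, psiDiv, ← sub_eq_add_neg, sub_neg_eq_add, mul_comm]

theorem sameLine_psiDiv {M : Divisor K F} (hM : IsBig M) {D D' : Divisor K F}
    (hD : Divisor.degree D = 0) (h : D - D' ∈ Divisor.principal (K := K) (F := F)) :
    SameLine (psiDiv M D') (psiDiv M D) := by
  obtain ⟨f, hf, he⟩ := RR.mem_principal_iff_divFn.mp h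
  have e1 : M + D' = (M + D) - RR.divFn f := by rw [← he]; abel
  have hneg : RR.divFn (K := K) f⁻¹ = -RR.divFn f := Finsupp.ext fun v => by
    simp [RR.divFn_apply, v.ord_inv]
  have e2 : M - D' = (M - D) - RR.divFn f⁻¹ := by rw [hneg, ← he]; abel
  have h1 := sameLine_detL_sub_divFn (ell_add_eq_rk hM hD) hf
  have h2 := sameLine_detL_sub_divFn (ell_sub_eq_rk hM hD) (inv_ne_zero hf)
  rw [← e1] at h1
  rw [← e2] at h2
  refine (h1.mul h2).trans ?_
  have : ((fun Q => (∏ j, unitPart f (Q j)) * detL (rk M) (M + D) Q) *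
      fun Q => (∏ j, unitPart f⁻¹ (Q j)) * detL (rk M) (M - D) Q) = psiDiv M D := by
    funext Q
    simp only [Pi.mul_apply, psiDiv]
    rw [mul_mul_mul_comm, ← Finset.prod_mul_distrib]
    simp only [unitPart_mul_unitPart_inv hf, Finset.prod_const_one, one_mul]
  rw [this]
  exact SameLine.refl _

/-- A chosen representative of a class. -/
def repDiv (y : Pic0 K F) : Divisor K F :=
  (Function.surjInv Pic0.mk_surjective y : Divisor.degZero (K := K) (F := F))

omit [IsAlgClosed K] [IsFunctionField1 K F] in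
theorem degree_repDiv (y : Pic0 K F) : Divisor.degree (repDiv y) = 0 :=
  Divisor.mem_degZero.mp (Function.surjInv Pic0.mk_surjective y).2

omit [IsAlgClosed K] [IsFunctionField1 K F] in
theorem mk_repDiv (y : Pic0 K F) :
    Pic0.mk ⟨repDiv y, Divisor.mem_degZero.mpr (degree_repDiv y)⟩ = y :=
  Function.surjInv_eq Pic0.mk_surjective y

/-- The coordinates of a class. -/
def psi (M : Divisor K F) (y : Pic0 K F) : (Fin (rk M) → Place K F) → K := psiDiv M (repDiv y)

omit [IsAlgClosed K] [IsFunctionField1 K F] in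
theorem sub_mem_principal_of_mk_eq {D D' : Divisor.degZero (K := K) (F := F)}
    (h : Pic0.mk D = Pic0.mk D') :
    (D : Divisor K F) - D' ∈ Divisor.principal (K := K) (F := F) := by
  have := (QuotientAddGroup.eq (s := (Divisor.principal (K := K) (F := F)).addSubgroupOf _)).mp h
  rw [AddSubgroup.mem_addSubgroupOf] at this
  have h2 := neg_mem this
  simpa [neg_add_eq_sub] using h2

omit [IsAlgClosed K] [IsFunctionField1 K F] in
theorem mk_eq_of_sub_mem_principal {D D' : Divisor.degZero (K := K) (F := F)}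
    (h : (D : Divisor K F) - D' ∈ Divisor.principal (K := K) (F := F)) :
    Pic0.mk D = Pic0.mk D' := by
  refine (QuotientAddGroup.eq (s := (Divisor.principal (K := K) (F := F)).addSubgroupOf _)).mpr ?_
  rw [AddSubgroup.mem_addSubgroupOf]
  have h2 := neg_mem h
  simpa [neg_add_eq_sub] using h2

theorem sameLine_psi_mk {M : Divisor K F} (hM : IsBig M)
    (D : Divisor.degZero (K := K) (F := F)) :
    SameLine (psi M (Pic0.mk D)) (psiDiv M D) :=
  sameLine_psiDiv hM (Divisor.mem_degZero.mp D.2)
    (sub_mem_principal_of_mk_eq (mk_repDiv (Pic0.mk D)).symm)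

theorem sameLine_psi_neg {M : Divisor K F} (hM : IsBig M) (y : Pic0 K F) :
    SameLine (psi M (-y)) (psi M y) := by
  have hy : -y = Pic0.mk ⟨-repDiv y, Divisor.mem_degZero.mpr (by
      rw [map_neg, degree_repDiv, neg_zero])⟩ := by
    conv_lhs => rw [← mk_repDiv y]
    rfl
  rw [hy]
  exact (sameLine_psi_mk hM _).trans (by rw [psiDiv_neg]; exact SameLine.refl _)

theorem isSlice_psiDiv {M D : Divisor K F} (hM : IsBig M) (hD : Divisor.degree D = 0) :
    IsSlice (evSpace (M + M)) (psiDiv M D) := fun j Q => by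
  have h := mul_mem_evSpace (isSlice_detL (ell_add_eq_rk hM hD) j Q)
    (isSlice_detL (ell_sub_eq_rk hM hD) j Q)
  rwa [show M + D + (M - D) = M + M by abel] at h

theorem isSlice_psi {M : Divisor K F} (hM : IsBig M) (y : Pic0 K F) :
    IsSlice (evSpace (M + M)) (psi M y) := isSlice_psiDiv hM (degree_repDiv y)

theorem exists_psiDiv_ne_zero {M D : Divisor K F} (hM : IsBig M) (hD : Divisor.degree D = 0)
    {s : Finset (Place K F)} (hs : 2 * (Divisor.degree M).toNat < s.card) :
    ∃ Q : Fin (rk M) → Place K F, (∀ j, Q j ∈ s) ∧ psiDiv M D Q ≠ 0 := by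
  obtain ⟨Q, hQ, h1, h2⟩ := exists_tuple_mul_ne_zero (fewZeros_evSpace (M + D))
    (fewZeros_evSpace (M - D)) (isSlice_detL (ell_add_eq_rk hM hD))
    (isSlice_detL (ell_sub_eq_rk hM hD)) (detL_ne_zero (ell_add_eq_rk hM hD))
    (detL_ne_zero (ell_sub_eq_rk hM hD)) (s := s) (by
      rw [map_add, map_sub, hD, add_zero, sub_zero]; omega)
  exact ⟨Q, hQ, mul_ne_zero h1 h2⟩

theorem ell_eq_zero_of_ne {D D' : Divisor.degZero (K := K) (F := F)}
    (h : Pic0.mk D ≠ Pic0.mk D') :
    RR.ell (HSub.hSub (α := Divisor K F) (D : Divisor K F) (D' : Divisor K F)) = 0 := by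
  by_contra hne
  obtain ⟨E, hE, hp⟩ := RR.ell_pos_iff.mp (Nat.pos_of_ne_zero hne)
  have hdeg : Divisor.degree E = 0 := by
    have := RR.degree_eq_zero_of_mem_principal hp
    rw [map_sub, map_sub, Divisor.mem_degZero.mp D.2, Divisor.mem_degZero.mp D'.2] at this
    omega
  have hE0 : E = 0 := by
    by_contra hne0
    obtain ⟨v, hv⟩ := Finsupp.ne_iff.mp hne0
    have hv1 : 1 ≤ E v := by
      have := Finsupp.le_def.mp hE v
      simp only [Finsupp.coe_zero, Pi.zero_apply] at this hv
      omega
    have h1 : Finsupp.single v (1 : ℤ) ≤ E := Finsupp.le_def.mpr fun w => by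
      rcases eq_or_ne w v with rfl | hw
      · rw [Finsupp.single_eq_same]; exact hv1
      · simpa [hw] using Finsupp.le_def.mp hE w
    have := RR.degree_mono h1
    rw [RR.degree_single] at this
    omega
  rw [hE0, zero_sub] at hp
  exact h (mk_eq_of_sub_mem_principal (by simpa using neg_mem hp))

/-- `psi` is injective up to sign. -/
theorem eq_or_eq_neg_of_psi_eq_zero_iff [CharZero K] {M : Divisor K F} (hM : IsBig M)
    {y y' : Pic0 K F} (h : ∀ Q, psi M y Q = 0 → psi M y' Q = 0) : y' = y ∨ y' = -y := by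
  by_contra hne
  push Not at hne
  obtain ⟨D, rfl⟩ := Pic0.mk_surjective y
  obtain ⟨D', rfl⟩ := Pic0.mk_surjective y'
  have hd : Divisor.degree (D : Divisor K F) = 0 := Divisor.mem_degZero.mp D.2
  have hd' : Divisor.degree (D' : Divisor K F) = 0 := Divisor.mem_degZero.mp D'.2
  have w1 := ell_eq_zero_of_ne hne.1
  have w2 := ell_eq_zero_of_ne (D := -D') (D' := D) fun he => hne.2 (by
    have := congrArg Neg.neg he
    simpa [Pic0.mk] using this)
  have hg : 1 ≤ genusFF K F := by
    have := RR.riemann_inequality ((D' : Divisor K F) - D.1)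
    rw [w1, map_sub, hd, hd'] at this
    omega
  obtain ⟨e, he, -, hew⟩ := exists_ell_add_eq_zero
    ![(D' : Divisor K F) - D.1, ((-D' : Divisor.degZero (K := K) (F := F)) : Divisor K F) - D.1]
    (by simp [Fin.forall_fin_two, hd, hd']) (by simp only [Fin.forall_fin_two]; exact ⟨w1, w2⟩)
    (genusFF K F - 1) (by omega) Set.finite_empty
  unfold IsBig at hM
  have hT : Divisor.degree (M + (D : Divisor K F) - setDiv e) = (rk M : ℤ) := by
    rw [map_sub, map_add, hd, degree_setDiv, he]
    unfold rk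
    omega
  obtain ⟨t, -, htc, htp⟩ := exists_reduced_linearEquiv
    (D := M + (D : Divisor K F) - setDiv e) (by rw [hT]; unfold rk; omega) Set.finite_empty
  rw [hT, Nat.cast_inj] at htc
  let eq : Fin (rk M) ≃ t := (Finset.equivFinOfCardEq htc).symm
  set Q : Fin (rk M) → Place K F := fun j => (eq j : Place K F)
  have hQ : ∀ P, P ∈ t ↔ ∃ j, Q j = P := fun P =>
    ⟨fun hP => ⟨eq.symm ⟨P, hP⟩, by simp [Q]⟩, fun ⟨j, hj⟩ => hj ▸ (eq j).2⟩
  have hzero : psi M (Pic0.mk D) Q = 0 := by
    rw [(sameLine_psi_mk hM D).apply_eq_zero]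
    refine mul_eq_zero.mpr (Or.inl ((detL_eq_zero_iff (ell_add_eq_rk hM hd) hQ).mpr ?_))
    refine (RR.ell_pos_iff.mpr ⟨setDiv e, setDiv_nonneg e, ?_⟩).ne'
    have e1 : setDiv e - (M + (D : Divisor K F) - setDiv t) =
        setDiv t - (M + (D : Divisor K F) - setDiv e) := by abel
    rw [e1]
    exact htp
  refine absurd (h Q hzero) ?_
  rw [(sameLine_psi_mk hM D').apply_eq_zero]
  have hshift : ∀ A : Divisor K F, RR.ell (M + A - setDiv t) =
      RR.ell (A - D.1 + setDiv e) := fun A => RR.ell_eq_of_sub_mem_principal (by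
    have e1 : M + A - setDiv t - (A - D.1 + setDiv e) =
        -(setDiv t - (M + (D : Divisor K F) - setDiv e)) := by abel
    rw [e1]
    exact neg_mem htp)
  refine mul_ne_zero ?_ ?_
  · rw [Ne, detL_eq_zero_iff (ell_add_eq_rk hM hd') hQ, not_not, hshift]
    exact hew 0
  · rw [Ne, detL_eq_zero_iff (ell_sub_eq_rk hM hd') hQ, not_not, sub_eq_add_neg M, hshift]
    exact hew 1

/-- Proportional coordinates on tuples from a large set determine the class up to sign. -/
theorem eq_or_eq_neg_of_sameLine [CharZero K] {M : Divisor K F} (hM : IsBig M) {y y' : Pic0 K F}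
    {s : Finset (Place K F)} (hs : 2 * (Divisor.degree M).toNat < s.card) {c : K}
    (h : ∀ Q : Fin (rk M) → Place K F, (∀ j, Q j ∈ s) → psi M y' Q = c * psi M y Q) :
    y' = y ∨ y' = -y := by
  refine eq_or_eq_neg_of_psi_eq_zero_iff hM fun Q hQ => ?_
  have := IsSlice.eq_of_eqOn (fewZeros_evSpace (M + M)) (isSlice_psi hM y')
    ((sliceSpace _ _).smul_mem c (isSlice_psi hM y)) (s := s)
    (by rw [map_add]; omega) (fun Q hQ => h Q hQ)
  rw [congrFun this Q, Pi.smul_apply, hQ, smul_zero]

end FermatAgent.MW
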