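import Fermat.Agent.MW.Slice
import Fermat.Agent.Curve.RR.Setup

/-!
# Trivialised evaluation of Riemann–Roch spaces at every place

`evLin D : L(D) → (Place → K)` evaluates `f · π_P ^ (D P)` at `P`; it is multiplicative in
`(D, f)`, defined at all places, and detects `L(D - P)`.
-/

set_option autoImplicit false

noncomputable section

open AlgebraicCurve FermatAgent.Curve

namespace FermatAgent.MW

variable {K F : Type*} [Field K] [Field F] [Algebra K F] [IsAlgClosed K] [IsFunctionField1 K F]

/-- The power `π_P ^ n` of a fixed uniformiser. -/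
def triv (P : Place K F) (n : ℤ) : F := RR.elemOfOrd P 1 ^ n

omit [IsAlgClosed K] [IsFunctionField1 K F] in
theorem triv_ne_zero (P : Place K F) (n : ℤ) : triv P n ≠ 0 :=
  zpow_ne_zero _ (RR.elemOfOrd_ne_zero P 1)

omit [IsAlgClosed K] [IsFunctionField1 K F] in
@[simp] theorem ord_triv (P : Place K F) (n : ℤ) : P.ord (triv P n) = n := by
  simp [triv, P.ord_zpow]

omit [IsAlgClosed K] [IsFunctionField1 K F] in
theorem triv_add (P : Place K F) (m n : ℤ) : triv P (m + n) = triv P m * triv P n :=
  zpow_add₀ (RR.elemOfOrd_ne_zero P 1) m n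

omit [IsAlgClosed K] [IsFunctionField1 K F] in
@[simp] theorem triv_zero (P : Place K F) : triv P 0 = 1 := zpow_zero _

omit [IsAlgClosed K] [IsFunctionField1 K F] in
theorem mul_triv_mem {D : Divisor K F} {f : F} (hf : f ∈ riemannRochSpace D) (P : Place K F) :
    f * triv P (D P) ∈ P.toValuationSubring := by
  refine RR.mem_of_eq_zero_or_ord_nonneg P ?_
  rcases eq_or_ne f 0 with rfl | hf0
  · exact Or.inl (zero_mul _)
  · refine Or.inr ?_
    have := (mem_riemannRochSpace_iff.mp hf P).resolve_left hf0
    rw [P.ord_mul hf0 (triv_ne_zero P _), ord_triv]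
    omega

theorem valueAt_smul (P : Place K F) (c : K) {g : F} (hg : g ∈ P.toValuationSubring) :
    valueAt P (c • g) = c * valueAt P g := by
  rw [Algebra.smul_def, valueAt_mul P (P.algebraMap_mem' c) hg, valueAt_algebraMap]

/-- Trivialised evaluation. -/
def evLin (D : Divisor K F) : riemannRochSpace D →ₗ[K] (Place K F → K) where
  toFun f P := valueAt P ((f : F) * triv P (D P))
  map_add' f g := funext fun P => by
    show valueAt P (((f : F) + g) * _) = _
    rw [add_mul, valueAt_add P (mul_triv_mem f.2 P) (mul_triv_mem g.2 P)]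
    rfl
  map_smul' c f := funext fun P => by
    show valueAt P ((c • (f : F)) * _) = _
    rw [smul_mul_assoc, valueAt_smul P c (mul_triv_mem f.2 P)]
    rfl

theorem evLin_apply (D : Divisor K F) (f : riemannRochSpace D) (P : Place K F) :
    evLin D f P = valueAt P ((f : F) * triv P (D P)) := rfl

theorem evLin_eq_zero_iff {D : Divisor K F} (f : riemannRochSpace D) (P : Place K F) :
    evLin D f P = 0 ↔ (f : F) ∈ riemannRochSpace (D - Finsupp.single P 1) := by
  rw [evLin_apply, valueAt_eq_zero_iff P (mul_triv_mem f.2 P)]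
  rcases eq_or_ne (f : F) 0 with h0 | h0
  · simp [h0]
  have hord : P.ord ((f : F) * triv P (D P)) = P.ord (f : F) + D P := by
    rw [P.ord_mul h0 (triv_ne_zero P _), ord_triv]
  simp only [mul_eq_zero, h0, triv_ne_zero, or_self, false_or, hord]
  constructor
  · intro h
    refine mem_riemannRochSpace_iff.mpr fun v => Or.inr ?_
    have := (mem_riemannRochSpace_iff.mp f.2 v).resolve_left h0
    rcases eq_or_ne v P with rfl | hv
    · rw [Finsupp.sub_apply, Finsupp.single_eq_same]; omega
    · rw [Finsupp.sub_apply, Finsupp.single_eq_of_ne hv]; omega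
  · intro h
    have := (mem_riemannRochSpace_iff.mp h P).resolve_left h0
    rw [Finsupp.sub_apply, Finsupp.single_eq_same] at this
    omega

omit [IsAlgClosed K] [IsFunctionField1 K F] in
theorem mul_mem_L {D E : Divisor K F} {f g : F} (hf : f ∈ riemannRochSpace D)
    (hg : g ∈ riemannRochSpace E) : f * g ∈ riemannRochSpace (D + E) := by
  refine mem_riemannRochSpace_iff.mpr fun v => ?_
  rcases eq_or_ne f 0 with rfl | hf0
  · exact Or.inl (zero_mul g)
  rcases eq_or_ne g 0 with rfl | hg0
  · exact Or.inl (mul_zero f)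
  refine Or.inr ?_
  have := (mem_riemannRochSpace_iff.mp hf v).resolve_left hf0
  have := (mem_riemannRochSpace_iff.mp hg v).resolve_left hg0
  rw [v.ord_mul hf0 hg0, Finsupp.add_apply]
  omega

theorem evLin_mul {D E : Divisor K F} (f : riemannRochSpace D) (g : riemannRochSpace E)
    (P : Place K F) :
    evLin (D + E) ⟨(f : F) * g, mul_mem_L f.2 g.2⟩ P = evLin D f P * evLin E g P := by
  simp only [evLin_apply, Finsupp.add_apply, triv_add]
  rw [mul_mul_mul_comm, valueAt_mul P (mul_triv_mem f.2 P) (mul_triv_mem g.2 P)]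

/-- The space of trivialised evaluations of `L(D)`. -/
def evSpace (D : Divisor K F) : Submodule K (Place K F → K) := LinearMap.range (evLin D)

theorem evLin_mem (D : Divisor K F) (f : riemannRochSpace D) : evLin D f ∈ evSpace D :=
  LinearMap.mem_range_self _ f

theorem mul_mem_evSpace {D E : Divisor K F} {u v : Place K F → K} (hu : u ∈ evSpace D)
    (hv : v ∈ evSpace E) : u * v ∈ evSpace (D + E) := by
  obtain ⟨f, rfl⟩ := hu
  obtain ⟨g, rfl⟩ := hv
  exact ⟨⟨(f : F) * g, mul_mem_L f.2 g.2⟩, funext fun P => evLin_mul f g P⟩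

theorem card_le_degree_of_evLin_eq_zero {D : Divisor K F} {f : riemannRochSpace D} (h0 : f ≠ 0)
    (t : Finset (Place K F)) (h : ∀ P ∈ t, evLin D f P = 0) :
    (t.card : ℤ) ≤ Divisor.degree D := by
  classical
  have hmem : (f : F) ∈ riemannRochSpace (D - ∑ P ∈ t, Finsupp.single P (1 : ℤ)) := by
    have h0' : (f : F) ≠ 0 := fun hc => h0 (Subtype.ext hc)
    refine mem_riemannRochSpace_iff.mpr fun v => Or.inr ?_
    rw [Finsupp.sub_apply, Finsupp.finsetSum_apply]
    by_cases hv : v ∈ t
    · rw [Finset.sum_eq_single_of_mem v hv fun b _ hb => Finsupp.single_eq_of_ne hb.symm,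
        Finsupp.single_eq_same]
      have := (mem_riemannRochSpace_iff.mp ((evLin_eq_zero_iff f v).mp (h v hv)) v).resolve_left h0'
      rw [Finsupp.sub_apply, Finsupp.single_eq_same] at this
      exact this
    · rw [Finset.sum_eq_zero fun b hb => Finsupp.single_eq_of_ne
        (ne_of_mem_of_not_mem hb hv).symm, sub_zero]
      exact (mem_riemannRochSpace_iff.mp f.2 v).resolve_left h0'
  by_contra hlt
  have hb : riemannRochSpace (D - ∑ P ∈ t, Finsupp.single P (1 : ℤ)) = ⊥ := by
    refine RR.riemannRochSpace_eq_bot_of_degree_neg ?_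
    rw [map_sub, map_sum, Finset.sum_congr rfl (fun P _ => RR.degree_single P 1),
      Finset.sum_const, nsmul_one]
    omega
  rw [hb, Submodule.mem_bot] at hmem
  exact h0 (Subtype.ext hmem)

theorem fewZeros_evSpace (D : Divisor K F) :
    FewZeros (evSpace D) (Divisor.degree D).toNat := by
  rintro u ⟨f, rfl⟩ hu t ht
  have hf : f ≠ 0 := fun h => hu (by rw [h, map_zero])
  have := card_le_degree_of_evLin_eq_zero hf t ht
  omega

theorem evLin_injective (D : Divisor K F) : Function.Injective (evLin D) := by
  refine (injective_iff_map_eq_zero _).mpr fun f hf => ?_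
  by_contra h0
  have := RR.infinite_place (K := K) (F := F)
  obtain ⟨t, ht⟩ := Infinite.exists_subset_card_eq (Place K F) ((Divisor.degree D).toNat + 1)
  have := card_le_degree_of_evLin_eq_zero h0 t fun P _ => by rw [hf]; rfl
  omega

instance finite_evSpace (D : Divisor K F) : Module.Finite K (evSpace D) := by
  unfold evSpace; infer_instance

/-! ### Change of representative -/

/-- The nowhere vanishing function attached to `f ≠ 0`. -/
def unitPart (f : F) (P : Place K F) : K := valueAt P (f * triv P (-P.ord f))

omit [IsAlgClosed K] [IsFunctionField1 K F] in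
theorem mul_triv_neg_ord_mem {f : F} (hf : f ≠ 0) (P : Place K F) :
    f * triv P (-P.ord f) ∈ P.toValuationSubring :=
  RR.mem_of_eq_zero_or_ord_nonneg P (Or.inr (by
    rw [P.ord_mul hf (triv_ne_zero P _), ord_triv]; omega))

theorem unitPart_mul {f g : F} (hf : f ≠ 0) (hg : g ≠ 0) (P : Place K F) :
    unitPart (f * g) P = unitPart f P * unitPart g P := by
  rw [unitPart, unitPart, unitPart, P.ord_mul hf hg, neg_add, triv_add, mul_mul_mul_comm,
    valueAt_mul P (mul_triv_neg_ord_mem hf P) (mul_triv_neg_ord_mem hg P)]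

theorem unitPart_one (P : Place K F) : unitPart (1 : F) P = 1 := by
  rw [unitPart, P.ord_one, neg_zero, triv_zero, mul_one, ← map_one (algebraMap K F),
    valueAt_algebraMap]

theorem unitPart_mul_unitPart_inv {f : F} (hf : f ≠ 0) (P : Place K F) :
    unitPart f P * unitPart f⁻¹ P = 1 := by
  rw [← unitPart_mul hf (inv_ne_zero hf), mul_inv_cancel₀ hf, unitPart_one]

theorem evLin_mulEquiv {f : F} (hf : f ≠ 0) (D : Divisor K F) (g : riemannRochSpace D)
    (P : Place K F) :
    evLin (D - RR.divFn f) (RR.mulEquiv hf D g) P = evLin D g P * unitPart f P := by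
  have e : (RR.mulEquiv hf D g : F) = (g : F) * f := rfl
  rw [evLin_apply, evLin_apply, e, unitPart, Finsupp.sub_apply, RR.divFn_apply, sub_eq_add_neg,
    triv_add, mul_mul_mul_comm,
    valueAt_mul P (mul_triv_mem g.2 P) (mul_triv_neg_ord_mem hf P)]

/-! ### Determinants of evaluation matrices -/

/-- Determinant of the evaluations of a basis of `L(D)`. -/
def evDet {r : ℕ} {D : Divisor K F} (b : Module.Basis (Fin r) K (riemannRochSpace D)) :
    (Fin r → Place K F) → K := detFun fun i => evLin D (b i)

theorem span_evLin_basis {r : ℕ} {D : Divisor K F}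
    (b : Module.Basis (Fin r) K (riemannRochSpace D)) :
    Submodule.span K (Set.range fun i => evLin D (b i)) = evSpace D := by
  rw [evSpace, ← Submodule.map_top, ← b.span_eq, Submodule.map_span, ← Set.range_comp]
  rfl

theorem isSlice_evDet {r : ℕ} {D : Divisor K F} (b : Module.Basis (Fin r) K (riemannRochSpace D)) :
    IsSlice (evSpace D) (evDet b) :=
  span_evLin_basis b ▸ isSlice_detFun _

/-- `evDet` is non-zero at `Q` iff the points impose independent conditions. -/
theorem evDet_ne_zero_iff {r : ℕ} {D : Divisor K F}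
    (b : Module.Basis (Fin r) K (riemannRochSpace D)) (Q : Fin r → Place K F) :
    evDet b Q ≠ 0 ↔ ∀ f : riemannRochSpace D, (∀ j, evLin D f (Q j) = 0) → f = 0 := by
  constructor
  · intro h f hf
    have hvm : Matrix.vecMul (fun i => b.repr f i)
        (Matrix.of fun i j => evLin D (b i) (Q j)) = 0 := funext fun j => by
      have := hf j
      rw [← b.sum_repr f, map_sum] at this
      simpa [Matrix.vecMul, dotProduct, Finset.sum_apply] using this
    have hunit : IsUnit (Matrix.of fun i j => evLin D (b i) (Q j)) :=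
      (Matrix.isUnit_iff_isUnit_det _).mpr h.isUnit
    have h0 : (fun i => b.repr f i) = 0 :=
      Matrix.vecMul_injective_of_isUnit hunit (by simpa using hvm)
    rw [← b.sum_repr f]
    exact Finset.sum_eq_zero fun i _ => by rw [show b.repr f i = 0 from congrFun h0 i, zero_smul]
  · intro h hdet
    obtain ⟨c, hc0, hc⟩ := Matrix.exists_vecMul_eq_zero_iff.mpr hdet
    have hz : ∀ j, evLin D (∑ i, c i • b i) (Q j) = 0 := fun j => by
      have := congrFun hc j
      simpa [Matrix.vecMul, dotProduct, Finset.sum_apply, map_sum] using this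
    refine hc0 (funext fun i => ?_)
    have h1 := Fintype.linearIndependent_iff.mp b.linearIndependent c (h _ hz) i
    exact h1

end FermatAgent.MW
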