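import Fermat.Agent.MW.Half
import Fermat.Prelude.Def_AlgebraicCurve_BaseChangeGalois
import Mathlib.FieldTheory.Galois.Basic

/-!
# Semilinear automorphisms and the coordinates of classes
-/

set_option autoImplicit false

noncomputable section

open AlgebraicCurve FermatAgent.Curve

namespace FermatAgent.MW

variable {K F : Type*} [Field K] [Field F] [Algebra K F] [IsAlgClosed K] [IsFunctionField1 K F]

theorem valueAt_semilinear (γ : SemilinearAut K F) (P : Place K F) {f : F}
    (hf : f ∈ P.toValuationSubring) :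
    valueAt (γ • P) (γ • f) = SemilinearAut.baseAut γ (valueAt P f) := by
  refine valueAt_eq_of _ ((valueAt_spec P hf).imp (fun h => ?_) fun h => ?_)
  · rw [← SemilinearAut.smul_algebraMap, ← h]
  · rw [← SemilinearAut.smul_algebraMap, ← smul_sub, SemilinearAut.ord_smul]
    exact h

omit [IsAlgClosed K] [IsFunctionField1 K F] in
theorem smul_mem_L (γ : SemilinearAut K F) {E : Divisor K F} {f : F}
    (hf : f ∈ riemannRochSpace E) : γ • f ∈ riemannRochSpace (γ • E) := by
  refine mem_riemannRochSpace_iff.mpr fun v => ?_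
  rcases eq_or_ne f 0 with rfl | hf0
  · exact Or.inl (smul_zero γ)
  refine Or.inr ?_
  have h := (mem_riemannRochSpace_iff.mp hf (γ⁻¹ • v)).resolve_left hf0
  rw [← SemilinearAut.ord_smul γ, ← SemilinearAut.divisor_smul_apply, smul_inv_smul] at h
  exact h

/-- The determinant of `L(E)` transforms semilinearly at fixed places where `E` is zero. -/
theorem sameLine_detL_smul (γ : SemilinearAut K F) {E : Divisor K F} {r : ℕ}
    (hE : RR.ell E = r) (hE' : RR.ell (γ • E) = r) (hr : 0 < r) {s : Finset (Place K F)}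
    (hfix : ∀ P ∈ s, γ • P = P) (hzero : ∀ P ∈ s, E P = 0) :
    SameLine (resTuple s (detL r (γ • E)))
      (SemilinearAut.baseAut γ ∘ resTuple s (detL r E)) := by
  classical
  set τ := SemilinearAut.baseAut γ
  let b := Module.finBasisOfFinrankEq K (riemannRochSpace E) hE
  let b' : Fin r → riemannRochSpace (γ • E) := fun i => ⟨γ • (b i : F), smul_mem_L γ (b i).2⟩
  have hli : LinearIndependent K b' := by
    refine Fintype.linearIndependent_iff.mpr fun c hc i => ?_
    have h1 : ∑ i, c i • (b' i : F) = 0 := by simpa using congrArg Subtype.val hc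
    have h2 : ∑ i, τ.symm (c i) • (b i : F) = 0 := by
      refine smul_left_cancel γ ?_
      rw [smul_zero, Finset.smul_sum, ← h1]
      refine Finset.sum_congr rfl fun i _ => ?_
      rw [Algebra.smul_def, Algebra.smul_def, smul_mul', SemilinearAut.smul_algebraMap,
        RingEquiv.apply_symm_apply]
    have h3 := Fintype.linearIndependent_iff.mp b.linearIndependent (fun i => τ.symm (c i))
      (Subtype.ext (by simpa using h2)) i
    simpa using h3
  have : Nonempty (Fin r) := ⟨⟨0, hr⟩⟩
  have : Module.Finite K (riemannRochSpace (γ • E)) := Module.finite_of_finrank_pos (by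
    rw [show Module.finrank K (riemannRochSpace (γ • E)) = r from hE']; exact hr)
  let B := basisOfLinearIndependentOfCardEqFinrank hli (by rw [Fintype.card_fin]; exact hE'.symm)
  refine (sameLine_resTuple (sameLine_detL B) s).trans ?_
  obtain ⟨c, hc, hc'⟩ := sameLine_resTuple (sameLine_detL b) s
  refine ⟨τ c⁻¹, by simpa using hc, funext fun Q => ?_⟩
  rw [Pi.smul_apply, smul_eq_mul, Function.comp_apply, congrFun hc' Q, Pi.smul_apply, smul_eq_mul,
    map_mul, ← mul_assoc, ← map_mul τ, inv_mul_cancel₀ hc, map_one, one_mul]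
  show evDet B _ = τ (evDet b _)
  rw [evDet, evDet, detFun, detFun, ← RingEquiv.coe_toRingHom, RingHom.map_det]
  congr 1
  ext i j
  have hfixj := hfix _ (Q j).2
  have h0 : (γ • E) (Q j : Place K F) = 0 := by
    rw [← hfixj, SemilinearAut.divisor_smul_apply_smul]
    exact hzero _ (Q j).2
  have hmem := mul_triv_mem (b i).2 (Q j : Place K F)
  rw [hzero _ (Q j).2, triv_zero, mul_one] at hmem
  simp only [RingHom.mapMatrix_apply, Matrix.map_apply, Matrix.of_apply, evLin_apply, h0,
    hzero _ (Q j).2, triv_zero, mul_one, RingEquiv.coe_toRingHom]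
  rw [show (B i : F) = γ • (b i : F) by simp [B, b']]
  conv_lhs => rw [← hfixj]
  exact valueAt_semilinear γ _ hmem

/-- Equivariance of the coordinates of classes. -/
theorem sameLine_coord_smul [CharZero K] {M : Divisor K F} (hM : IsBig M) {s : Finset (Place K F)}
    (γ : SemilinearAut K F) (hγM : γ • M = M) (hfix : ∀ P ∈ s, γ • P = P)
    (hzero : ∀ P ∈ s, M P = 0) (y : Pic0 K F) :
    SameLine (coord M s (γ • y)) (SemilinearAut.baseAut γ ∘ coord M s y) := by
  classical
  have := RR.infinite_place (K := K) (F := F)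
  obtain ⟨P, hP⟩ := s.finite_toSet.infinite_compl.nonempty
  set n : ℤ := 2 * (genusFF K F : ℤ) + 1
  obtain ⟨t, ht, htc, htp⟩ := exists_reduced_linearEquiv (D := repDiv y + Finsupp.single P n)
    (by rw [map_add, degree_repDiv, RR.degree_single]; omega) s.finite_toSet
  rw [map_add, degree_repDiv, RR.degree_single, zero_add] at htc
  set D : Divisor K F := setDiv t - Finsupp.single P n
  have hD : Divisor.degree D = 0 := by
    rw [map_sub, degree_setDiv, RR.degree_single, htc, sub_self]
  have hDs : ∀ Q ∈ s, D Q = 0 := fun Q hQ => by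
    have hne : Q ≠ P := by rintro rfl; exact hP (Finset.mem_coe.mpr hQ)
    rw [Finsupp.sub_apply, setDiv_apply, if_neg fun h => ht Q h (Finset.mem_coe.mpr hQ),
      Finsupp.single_eq_of_ne hne, sub_zero]
  have hy : y = Pic0.mk ⟨D, Divisor.mem_degZero.mpr hD⟩ := by
    conv_lhs => rw [← mk_repDiv y]
    refine mk_eq_of_sub_mem_principal ?_
    show repDiv y - D ∈ _
    have e : repDiv y - D = -(setDiv t - (repDiv y + Finsupp.single P n)) := by simp only [D]; abel
    rw [e]
    exact neg_mem htp
  subst hy
  rw [SemilinearAut.pic0_smul_mk]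
  have hl := sameLine_resTuple (sameLine_psi_mk hM
    (SemilinearAut.degZeroSMulHom γ ⟨D, Divisor.mem_degZero.mpr hD⟩)) s
  have hr := sameLine_resTuple (sameLine_psi_mk hM
    (⟨D, Divisor.mem_degZero.mpr hD⟩ : Divisor.degZero (K := K) (F := F))) s
  refine hl.trans ?_
  obtain ⟨c, hc, hc'⟩ := hr.symm
  have hγD : Divisor.degree (γ • D) = 0 := by rw [SemilinearAut.degree_smul, hD]
  have hp := sameLine_detL_smul γ (E := M + D) (r := rk M) (ell_add_eq_rk hM hD)
    (by rw [smul_add, hγM]; exact ell_add_eq_rk hM hγD) (rk_pos hM) hfix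
    (fun Q hQ => by rw [Finsupp.add_apply, hzero Q hQ, hDs Q hQ, add_zero])
  have hm := sameLine_detL_smul γ (E := M - D) (r := rk M) (ell_sub_eq_rk hM hD)
    (by rw [smul_sub, hγM]; exact ell_sub_eq_rk hM hγD) (rk_pos hM) hfix
    (fun Q hQ => by rw [Finsupp.sub_apply, hzero Q hQ, hDs Q hQ, sub_zero])
  rw [smul_add, hγM] at hp
  rw [smul_sub, hγM] at hm
  refine (hp.mul hm).trans ?_
  refine ⟨SemilinearAut.baseAut γ c, by simpa using hc, funext fun Q => ?_⟩
  simp only [Pi.mul_apply, Function.comp_apply, Pi.smul_apply, smul_eq_mul, ← map_mul]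
  exact congrArg _ (congrFun hc' Q)

variable [Algebra ℚ K]

/-- The data of a function field with an action of the absolute Galois group. -/
structure GaloisData (K F : Type*) [Field K] [Field F] [Algebra K F] [Algebra ℚ K] where
  /-- The action. -/
  act : (K ≃ₐ[ℚ] K) →* SemilinearAut K F
  /-- The action on constants. -/
  baseAut_act : ∀ σ a, SemilinearAut.baseAut (act σ) a = σ a
  /-- Every function is defined over a number field. -/
  exists_field : ∀ f : F, ∃ E : IntermediateField ℚ K, FiniteDimensional ℚ E ∧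
    ∀ σ ∈ E.fixingSubgroup, act σ • f = f

/-- Something is defined over a number field. -/
def GaloisData.DefinedOver (D : GaloisData K F) {X : Type*} [SMul (SemilinearAut K F) X]
    (E : IntermediateField ℚ K) (x : X) : Prop :=
  ∀ σ ∈ E.fixingSubgroup, D.act σ • x = x

omit [IsAlgClosed K] [IsFunctionField1 K F] in
theorem GaloisData.DefinedOver.mono {D : GaloisData K F} {X : Type*} [SMul (SemilinearAut K F) X]
    {E E' : IntermediateField ℚ K} {x : X} (h : D.DefinedOver E x) (hE : E ≤ E') :
    D.DefinedOver E' x := fun σ hσ => h σ (IntermediateField.fixingSubgroup_antitone hE hσ)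

theorem GaloisData.exists_field_place (D : GaloisData K F) (P : Place K F) :
    ∃ E : IntermediateField ℚ K, FiniteDimensional ℚ E ∧ D.DefinedOver E P := by
  obtain ⟨f, hf, ho, hreg⟩ := RR.exists_single_pole P (n := 2 * genusFF K F + 1) (by omega)
    (by omega)
  obtain ⟨E, hE, hEf⟩ := D.exists_field f
  refine ⟨E, hE, fun σ hσ => ?_⟩
  by_contra hne
  have := hreg _ hne
  have h2 := SemilinearAut.ord_smul (D.act σ) P f
  rw [hEf σ hσ] at h2
  omega

omit [IsAlgClosed K] [IsFunctionField1 K F] in
theorem GaloisData.exists_field_finset (D : GaloisData K F) {X : Type*}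
    [SMul (SemilinearAut K F) X] (t : Finset X)
    (h : ∀ x ∈ t, ∃ E : IntermediateField ℚ K, FiniteDimensional ℚ E ∧ D.DefinedOver E x) :
    ∃ E : IntermediateField ℚ K, FiniteDimensional ℚ E ∧ ∀ x ∈ t, D.DefinedOver E x := by
  classical
  induction t using Finset.induction with
  | empty => exact ⟨⊥, inferInstance, by simp⟩
  | insert a t ha ih =>
    obtain ⟨E, hE, hEt⟩ := ih fun x hx => h x (Finset.mem_insert_of_mem hx)
    obtain ⟨E', hE', hE'a⟩ := h a (Finset.mem_insert_self a t)
    refine ⟨E ⊔ E', inferInstance, fun x hx => ?_⟩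
    rcases Finset.mem_insert.mp hx with rfl | hx
    · exact hE'a.mono le_sup_right
    · exact (hEt x hx).mono le_sup_left

theorem GaloisData.exists_field_divisor (D : GaloisData K F) (X : Divisor K F) :
    ∃ E : IntermediateField ℚ K, FiniteDimensional ℚ E ∧ D.DefinedOver E X := by
  obtain ⟨E, hE, h⟩ := D.exists_field_finset X.support fun P _ => D.exists_field_place P
  refine ⟨E, hE, fun σ hσ => ?_⟩
  rw [SemilinearAut.divisor_smul_def]
  refine (Finsupp.mapDomain_congr fun P hP => h P hP σ hσ).trans Finsupp.mapDomain_id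

theorem GaloisData.exists_field_pic (D : GaloisData K F) (y : Pic0 K F) :
    ∃ E : IntermediateField ℚ K, FiniteDimensional ℚ E ∧ D.DefinedOver E y := by
  obtain ⟨X, rfl⟩ := Pic0.mk_surjective y
  obtain ⟨E, hE, h⟩ := D.exists_field_divisor X
  refine ⟨E, hE, fun σ hσ => ?_⟩
  rw [SemilinearAut.pic0_smul_mk]
  exact congrArg Pic0.mk (Subtype.ext (h σ hσ))

end FermatAgent.MW
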