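import Fermat.Agent.MW.Constancy

/-!
# Half products and the quadratic maps of the parallelogram
-/

set_option autoImplicit false

noncomputable section

open AlgebraicCurve FermatAgent.Curve

namespace FermatAgent.MW

variable {K F : Type*} [Field K] [Field F] [Algebra K F] [IsAlgClosed K] [IsFunctionField1 K F]

omit [IsAlgClosed K] [IsFunctionField1 K F] in
/-- Products of two coordinates. -/
def pairs {T : Type*} (v : T → K) : T × T → K := fun p => v p.1 * v p.2

/-- `psi(x + y) · psi(x - y)` on a sample. -/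
def parFun (M : Divisor K F) (s : Finset (Place K F)) (x y : Pic0 K F) :
    (Fin (rk M) → s) → K :=
  coord M s (x + y) * coord M s (x - y)

theorem detL_cast {r r' : ℕ} (h : r = r') (G : Divisor K F) (R : Fin r' → Place K F) :
    detL r G (R ∘ Fin.cast h) = detL r' G R := by
  subst h; rfl

omit [IsAlgClosed K] [IsFunctionField1 K F] in
theorem isBig_add {M G₀ : Divisor K F} (hM : IsBig M) (h : 0 ≤ Divisor.degree G₀) :
    IsBig (M + G₀) := by
  unfold IsBig at *
  rw [map_add]; omega

omit [IsAlgClosed K] [IsFunctionField1 K F] in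
theorem rk_add {M G₀ : Divisor K F} (hM : IsBig M) (h : 0 ≤ Divisor.degree G₀) :
    rk (M + G₀) = rk M + (Divisor.degree G₀).toNat := by
  unfold IsBig at hM
  unfold rk
  rw [map_add]; omega

omit [IsAlgClosed K] [IsFunctionField1 K F] in
theorem rk_pos {M : Divisor K F} (hM : IsBig M) : 0 < rk M := by
  unfold IsBig at hM
  unfold rk
  omega

/-- Half of the parallelogram product is linear in the larger coordinates. -/
theorem exists_half [CharZero K] {M G₀ : Divisor K F} (hM : IsBig M)
    (hG₀ : 2 * (genusFF K F : ℤ) + 1 ≤ Divisor.degree G₀) (s : Finset (Place K F))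
    {s' : Finset (Place K F)} (hs' : Large (M + G₀) s') {B : Divisor K F}
    (hB : Divisor.degree B = 0) :
    ∃ L : ((Fin (rk (M + G₀)) → s') → K) →ₗ[K] ((Fin (rk M) → s) → K), ∀ x : Pic0 K F,
      SameLine (L (coord (M + G₀) s' x)) (resTuple s
        (detL (rk M) (M + (repDiv x - B)) * detL (rk M) (M - (repDiv x + B)))) := by
  classical
  have hG0 : 0 ≤ Divisor.degree G₀ := by omega
  obtain ⟨t, ht, htc, htp⟩ := exists_reduced_linearEquiv (D := G₀ + B)
    (by rw [map_add, hB]; omega) s.finite_toSet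
  rw [map_add, hB, add_zero] at htc
  obtain ⟨f, hf, hfe⟩ := RR.mem_principal_iff_divFn.mp htp
  set k := (Divisor.degree G₀).toNat
  have htk : t.card = k := by omega
  set e := (Finset.equivFinOfCardEq htk).symm
  set T : Fin k → Place K F := fun j => (e j : Place K F)
  have hT : Function.Injective T := Subtype.val_injective.comp e.injective
  have hTt : ∀ P, P ∈ t ↔ ∃ j, T j = P := fun P =>
    ⟨fun hP => ⟨e.symm ⟨P, hP⟩, by simp [T]⟩, fun ⟨j, hj⟩ => hj ▸ (e j).2⟩
  have hrk := rk_add hM hG0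
  have hbig := isBig_add hM hG0
  have hext := fun Q : Fin (rk M) → s => exists_extension
    (fewZeros_evSpace ((M + G₀) + (M + G₀))) (s := s')
    (by unfold Large at hs'; rw [map_add]; omega)
    (Fin.append (fun j => (Q j : Place K F)) T ∘ Fin.cast hrk)
  choose Λ hΛ using hext
  let u : (Fin (rk M) → s) → K := fun Q => (∏ j, unitPart f⁻¹ (Q j : Place K F)) ^ 2
  refine ⟨LinearMap.pi fun Q => u Q • ∑ R, Λ Q R • LinearMap.proj R, fun x => ?_⟩
  set A := repDiv x
  have hA : Divisor.degree A = 0 := degree_repDiv x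
  have side : ∀ A' : Divisor K F, Divisor.degree A' = 0 → ∀ A'' : Divisor K F,
      M + G₀ + A' - setDiv t = M + A'' - RR.divFn f →
      ∃ c : K, c ≠ 0 ∧ ∀ Q : Fin (rk M) → s,
        detL (rk (M + G₀)) (M + G₀ + A') (Fin.append (fun j => (Q j : Place K F)) T ∘ Fin.cast hrk) =
          c * ((∏ j, unitPart f (Q j : Place K F)) * detL (rk M) (M + A'') fun j => (Q j : Place K F)) := by
    intro A' hA' A'' he
    have hA'' : Divisor.degree A'' = 0 := by
      have := congrArg Divisor.degree he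
      simp only [map_sub, map_add, hA', degree_setDiv, htk, RR.degree_divFn] at this
      omega
    have hl : RR.ell (M + A'') = rk M := ell_add_eq_rk hM hA''
    have hl' : RR.ell (M + G₀ + A' - setDiv t) = rk M := by
      rw [he, RR.ell_sub_divFn hf]; exact hl
    obtain ⟨c, hc0, hc⟩ := exists_detL_append (rk_pos hM) hT hTt
      (by rw [ell_add_eq_rk hbig hA', hrk]) hl'
    obtain ⟨c', hc'0, hc'⟩ := sameLine_detL_sub_divFn hl hf
    refine ⟨c * c', mul_ne_zero hc0 hc'0, fun Q => ?_⟩
    rw [detL_cast hrk, hc, Finset.prod_eq_one (fun j _ => chi_eq_one (by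
      rw [setDiv_apply, if_neg]
      exact fun h => ht _ h (Finset.mem_coe.mpr (Q j).2))), one_mul, he, congrFun hc' _,
      Pi.smul_apply, smul_eq_mul]
    ring
  have hfe' : setDiv t = G₀ + B + RR.divFn f := by rw [← hfe]; abel
  obtain ⟨c₁, hc₁0, hc₁⟩ := side A hA (A - B) (by rw [hfe']; abel)
  obtain ⟨c₂, hc₂0, hc₂⟩ := side (-A) (by rw [map_neg, hA, neg_zero]) (-(A + B))
    (by rw [hfe']; abel)
  refine ⟨c₁ * c₂, mul_ne_zero hc₁0 hc₂0, funext fun Q => ?_⟩
  simp only [LinearMap.pi_apply, LinearMap.smul_apply, LinearMap.sum_apply, LinearMap.proj_apply,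
    smul_eq_mul, Pi.smul_apply]
  have h1 := hΛ Q (psi (M + G₀) x) (isSlice_psi hbig x)
  rw [show ∑ R, Λ Q R * coord (M + G₀) s' x R =
      psi (M + G₀) x (Fin.append (fun j => (Q j : Place K F)) T ∘ Fin.cast hrk) from h1.symm]
  show u Q * psiDiv (M + G₀) A _ = c₁ * c₂ * ((detL (rk M) (M + (A - B)) *
    detL (rk M) (M - (A + B))) fun j => (Q j : Place K F))
  rw [psiDiv, Pi.mul_apply, Pi.mul_apply, hc₁, sub_eq_add_neg (M + G₀), hc₂,
    sub_eq_add_neg M (A + B)]
  have e4 : (∏ j, unitPart f (Q j : Place K F)) * (∏ j, unitPart f⁻¹ (Q j : Place K F)) = 1 := by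
    rw [← Finset.prod_mul_distrib]
    exact Finset.prod_eq_one fun j _ => unitPart_mul_unitPart_inv hf _
  simp only [u]
  linear_combination (c₁ * c₂ * detL (rk M) (M + (A - B)) (fun j => (Q j : Place K F)) *
    detL (rk M) (M + -(A + B)) (fun j => (Q j : Place K F))) *
    ((∏ j, unitPart f (Q j : Place K F)) * (∏ j, unitPart f⁻¹ (Q j : Place K F)) + 1) * e4

omit [IsAlgClosed K] [IsFunctionField1 K F] in
theorem mk_repDiv_add (x y : Pic0 K F) :
    x + y = Pic0.mk ⟨repDiv x + repDiv y, Divisor.mem_degZero.mpr (by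
      rw [map_add, degree_repDiv, degree_repDiv, add_zero])⟩ := by
  conv_lhs => rw [← mk_repDiv x, ← mk_repDiv y]
  rfl

omit [IsAlgClosed K] [IsFunctionField1 K F] in
theorem mk_repDiv_sub (x y : Pic0 K F) :
    x - y = Pic0.mk ⟨repDiv x - repDiv y, Divisor.mem_degZero.mpr (by
      rw [map_sub, degree_repDiv, degree_repDiv, sub_zero])⟩ := by
  conv_lhs => rw [← mk_repDiv x, ← mk_repDiv y]
  rfl

omit [IsAlgClosed K] [IsFunctionField1 K F] in
theorem sameLine_resTuple {r : ℕ} {f g : (Fin r → Place K F) → K} (h : SameLine f g)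
    (s : Finset (Place K F)) : SameLine (resTuple s f) (resTuple s g) := by
  obtain ⟨c, hc, rfl⟩ := h
  exact ⟨c, hc, rfl⟩

theorem sameLine_coord_neg {M : Divisor K F} (hM : IsBig M) (s : Finset (Place K F))
    (y : Pic0 K F) : SameLine (coord M s (-y)) (coord M s y) :=
  sameLine_resTuple (sameLine_psi_neg hM y) s

/-- Translation by a point of order two is linear. -/
theorem exists_halfTorsion [CharZero K] {M G₀ : Divisor K F} (hM : IsBig M)
    (hG₀ : 2 * (genusFF K F : ℤ) + 1 ≤ Divisor.degree G₀) (s : Finset (Place K F))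
    {s' : Finset (Place K F)} (hs' : Large (M + G₀) s') {R : Pic0 K F} (hR : R + R = 0) :
    ∃ L : ((Fin (rk (M + G₀)) → s') → K) →ₗ[K] ((Fin (rk M) → s) → K), ∀ x : Pic0 K F,
      SameLine (L (coord (M + G₀) s' x)) (coord M s (x + R)) := by
  set B := repDiv R
  have h2 : B + B ∈ Divisor.principal (K := K) (F := F) := by
    have := sub_mem_principal_of_mk_eq (D' := 0) ((mk_repDiv_add R R).symm.trans
      (hR.trans Pic0.mk_zero.symm))
    rw [ZeroMemClass.coe_zero, sub_zero] at this
    exact this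
  obtain ⟨e, he, hee⟩ := RR.mem_principal_iff_divFn.mp h2
  obtain ⟨L, hL⟩ := exists_half hM hG₀ s hs' (B := B) (degree_repDiv R)
  let u : (Fin (rk M) → s) → K := fun Q => ∏ j, unitPart e⁻¹ (Q j : Place K F)
  refine ⟨LinearMap.pi fun Q => u Q • (LinearMap.proj Q).comp L, fun x => ?_⟩
  set A := repDiv x
  have hd : Divisor.degree (A - B) = 0 := by
    rw [map_sub, degree_repDiv, degree_repDiv, sub_zero]
  obtain ⟨c, hc0, hc⟩ := hL x
  obtain ⟨c', hc'0, hc'⟩ := sameLine_detL_sub_divFn (ell_sub_eq_rk hM hd) he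
  rw [show M - (A - B) - RR.divFn e = M - (A + B) by rw [← hee]; abel] at hc'
  have h1 : SameLine (coord M s (x + R)) (resTuple s (psiDiv M (A - B))) := by
    rw [show x + R = x - R by rw [sub_eq_add_neg, neg_eq_of_add_eq_zero_right hR], mk_repDiv_sub]
    exact sameLine_resTuple (sameLine_psi_mk hM _) s
  refine SameLine.trans ⟨c * c', mul_ne_zero hc0 hc'0, funext fun Q => ?_⟩ h1.symm
  simp only [LinearMap.pi_apply, LinearMap.smul_apply, LinearMap.comp_apply, LinearMap.proj_apply,
    smul_eq_mul, congrFun hc Q, Pi.smul_apply]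
  show u Q * (c * ((detL (rk M) (M + (A - B)) * detL (rk M) (M - (A + B)))
      fun j => (Q j : Place K F))) =
    c * c' * ((detL (rk M) (M + (A - B)) * detL (rk M) (M - (A - B)))
      fun j => (Q j : Place K F))
  rw [Pi.mul_apply, Pi.mul_apply, congrFun hc' _, Pi.smul_apply, smul_eq_mul]
  have e4 : (∏ j, unitPart e (Q j : Place K F)) * (∏ j, unitPart e⁻¹ (Q j : Place K F)) = 1 := by
    rw [← Finset.prod_mul_distrib]
    exact Finset.prod_eq_one fun j _ => unitPart_mul_unitPart_inv he _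
  simp only [u]
  linear_combination (c * c' * detL (rk M) (M + (A - B)) (fun j => (Q j : Place K F)) *
    detL (rk M) (M - (A - B)) (fun j => (Q j : Place K F))) * e4

/-- `parFun · y` is a quadratic map in the larger coordinates. -/
theorem exists_quad [CharZero K] {M G₀ : Divisor K F} (hM : IsBig M)
    (hG₀ : 2 * (genusFF K F : ℤ) + 1 ≤ Divisor.degree G₀) (s : Finset (Place K F))
    {s' : Finset (Place K F)} (hs' : Large (M + G₀) s') (y : Pic0 K F) :
    ∃ L : ((Fin (rk (M + G₀)) → s') × (Fin (rk (M + G₀)) → s') → K) →ₗ[K]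
        ((Fin (rk M) → s) → K),
      ∀ x : Pic0 K F, SameLine (L (pairs (coord (M + G₀) s' x))) (parFun M s x y) := by
  classical
  set B := repDiv y
  obtain ⟨L₁, h₁⟩ := exists_half hM hG₀ s hs' (B := B) (degree_repDiv y)
  obtain ⟨L₂, h₂⟩ := exists_half hM hG₀ s hs' (B := -B) (by rw [map_neg, degree_repDiv, neg_zero])
  refine ⟨LinearMap.pi fun Q => ∑ p : _ × _,
    (L₁ (Pi.single p.1 1) Q * L₂ (Pi.single p.2 1) Q) • LinearMap.proj p, fun x => ?_⟩
  set v := coord (M + G₀) s' x
  set A := repDiv x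
  have hv : ∀ (L : ((Fin (rk (M + G₀)) → s') → K) →ₗ[K] ((Fin (rk M) → s) → K)) Q,
      L v Q = ∑ R, v R * L (Pi.single R 1) Q := fun L Q => by
    conv_lhs => rw [pi_eq_sum_univ' v]
    simp only [map_sum, map_smul, Finset.sum_apply, Pi.smul_apply, smul_eq_mul]
  have hD : SameLine (parFun M s x y)
      (resTuple s (psiDiv M (A + B)) * resTuple s (psiDiv M (A - B))) := by
    rw [parFun, coord, coord, mk_repDiv_add, mk_repDiv_sub]
    exact (sameLine_resTuple (sameLine_psi_mk hM _) s).mul (sameLine_resTuple (sameLine_psi_mk hM _) s)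
  refine SameLine.trans ?_ hD.symm
  obtain ⟨c₁, hc₁, e₁⟩ := h₁ x
  obtain ⟨c₂, hc₂, e₂⟩ := h₂ x
  refine ⟨c₁ * c₂, mul_ne_zero hc₁ hc₂, funext fun Q => ?_⟩
  simp only [LinearMap.pi_apply, LinearMap.sum_apply, LinearMap.smul_apply, LinearMap.proj_apply,
    smul_eq_mul, pairs]
  rw [Fintype.sum_prod_type]
  have : ∑ R, ∑ R', L₁ (Pi.single R 1) Q * L₂ (Pi.single R' 1) Q * (v R * v R') = L₁ v Q * L₂ v Q := by
    rw [hv L₁ Q, hv L₂ Q, Finset.sum_mul_sum]
    exact Finset.sum_congr rfl fun R _ => Finset.sum_congr rfl fun R' _ => by ring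
  rw [this, congrFun e₁ Q, congrFun e₂ Q]
  show c₁ * ((detL (rk M) (M + (A - B)) * detL (rk M) (M - (A + B))) fun j => (Q j : Place K F)) *
    (c₂ * ((detL (rk M) (M + (A - -B)) * detL (rk M) (M - (A + -B))) fun j => (Q j : Place K F))) =
    c₁ * c₂ * ((detL (rk M) (M + (A + B)) * detL (rk M) (M - (A + B))) (fun j => (Q j : Place K F)) *
      (detL (rk M) (M + (A - B)) * detL (rk M) (M - (A - B))) fun j => (Q j : Place K F))
  simp only [Pi.mul_apply, sub_neg_eq_add, ← sub_eq_add_neg]
  ring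

theorem parFun_ne_zero {M : Divisor K F} (hM : IsBig M) {s : Finset (Place K F)} (hs : Large M s)
    (x y : Pic0 K F) : parFun M s x y ≠ 0 := by
  unfold Large at hs
  obtain ⟨Q, hQ, h1, h2⟩ := exists_tuple_mul_ne_zero (fewZeros_evSpace (M + M))
    (fewZeros_evSpace (M + M)) (isSlice_psi hM (x + y)) (isSlice_psi hM (x - y))
    (psi_ne_zero hM _) (psi_ne_zero hM _) (s := s) (by rw [map_add]; omega)
  exact fun h => mul_ne_zero h1 h2 (congrFun h fun j => ⟨Q j, hQ j⟩)

theorem sameLine_parFun_comm {M : Divisor K F} (hM : IsBig M) (s : Finset (Place K F))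
    (x y : Pic0 K F) : SameLine (parFun M s x y) (parFun M s y x) := by
  rw [parFun, parFun, add_comm y x, ← neg_sub x y]
  exact (SameLine.refl _).mul (sameLine_coord_neg hM s _).symm

end FermatAgent.MW
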