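import Fermat.Agent.MW.Cert
import Mathlib.RingTheory.Valuation.ValuationSubring
import Mathlib.RingTheory.Nullstellensatz

/-!
# Specialisation at a valuation ring

A Nullstellensatz certificate turns an implication between vanishing statements on an algebraic set
into the same implication modulo the maximal ideal of every valuation ring containing finitely
many given constants.
-/

set_option autoImplicit false

noncomputable section

open MvPolynomial

namespace FermatAgent.MW

variable {k : Type*} [Field k]

/-- Vanishing modulo the maximal ideal. -/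
def Small (O : ValuationSubring k) (a : k) : Prop := O.valuation a < 1

theorem small_zero (O : ValuationSubring k) : Small O 0 := by simp [Small]

theorem Small.mul_left {O : ValuationSubring k} {a b : k} (h : Small O b) (ha : a ∈ O) :
    Small O (a * b) := by
  rw [Small, map_mul]
  exact (mul_le_of_le_one_left zero_le ((O.valuation_le_one_iff a).mpr ha)).trans_lt h

theorem Small.mul_right {O : ValuationSubring k} {a b : k} (h : Small O b) (ha : a ∈ O) :
    Small O (b * a) := mul_comm a b ▸ h.mul_left ha

theorem Small.add {O : ValuationSubring k} {a b : k} (ha : Small O a) (hb : Small O b) :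
    Small O (a + b) := O.valuation.map_add_lt ha hb

theorem Small.neg {O : ValuationSubring k} {a : k} (ha : Small O a) : Small O (-a) := by
  rwa [Small, Valuation.map_neg]

theorem Small.sub {O : ValuationSubring k} {a b : k} (ha : Small O a) (hb : Small O b) :
    Small O (a - b) := sub_eq_add_neg a b ▸ ha.add hb.neg

theorem small_sum {O : ValuationSubring k} {ι : Type*} {t : Finset ι} {f : ι → k}
    (h : ∀ i ∈ t, Small O (f i)) : Small O (∑ i ∈ t, f i) :=
  O.valuation.map_sum_lt one_ne_zero h

theorem not_small_of_inv_mem {O : ValuationSubring k} {a : k} (ha : a ≠ 0) (h : a⁻¹ ∈ O) :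
    ¬ Small O a := fun hs => by
  have := hs.mul_left h
  rw [inv_mul_cancel₀ ha] at this
  simp [Small] at this

theorem inv_mem_of_not_small {O : ValuationSubring k} {a : k} (h : ¬ Small O a) : a⁻¹ ∈ O := by
  rw [← O.valuation_le_one_iff, map_inv₀]
  exact inv_le_one_of_one_le₀ (not_lt.mp h)

variable {σ : Type*}

theorem eval_mem {O : ValuationSubring k} {p : MvPolynomial σ k} {x : σ → k}
    (hp : ∀ e, coeff e p ∈ O) (hx : ∀ i, x i ∈ O) : eval x p ∈ O := by
  rw [eval_eq]
  exact sum_mem fun e _ => mul_mem (hp e) (prod_mem fun i _ => pow_mem (hx i) _)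

/-- All coefficients of a polynomial. -/
def allCoeffs (p : MvPolynomial σ k) : Set k := insert 0 ((fun e => coeff e p) '' p.support)

theorem finite_allCoeffs (p : MvPolynomial σ k) : (allCoeffs p).Finite :=
  ((Finset.finite_toSet _).image _).insert 0

theorem coeff_mem_allCoeffs (p : MvPolynomial σ k) (e : σ →₀ ℕ) : coeff e p ∈ allCoeffs p := by
  by_cases he : e ∈ p.support
  · exact Or.inr ⟨e, he, rfl⟩
  · exact Or.inl (notMem_support_iff.mp he)

theorem eval_mem_of_allCoeffs {O : ValuationSubring k} {p : MvPolynomial σ k} {x : σ → k}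
    (hp : allCoeffs p ⊆ (O : Set k)) (hx : ∀ i, x i ∈ O) : eval x p ∈ O :=
  eval_mem (fun e => hp (coeff_mem_allCoeffs p e)) hx

/-- The specialisation of an implication between vanishing statements. -/
theorem exists_coeff_cert [IsAlgClosed k] [Finite σ] {ι : Type*} [Fintype ι] {Z : Set (σ → k)}
    (hZ : IsAlg Z) (g : ι → MvPolynomial σ k) (p : MvPolynomial σ k)
    (h : ∀ x ∈ Z, (∀ j, eval x (g j) = 0) → eval x p = 0) :
    ∃ C : Set k, C.Finite ∧ ∀ O : ValuationSubring k, C ⊆ (O : Set k) → ∀ x ∈ Z, (∀ i, x i ∈ O) →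
      (∀ j, Small O (eval x (g j))) → Small O (eval x p) := by
  classical
  obtain ⟨P, rfl⟩ := hZ
  have hmem : p ∈ (Ideal.span P ⊔ Ideal.span (Set.range g)).radical := by
    rw [← vanishingIdeal_zeroLocus_eq_radical (K := k)]
    intro x hx
    rw [aeval_eq_eval]
    refine h x (fun q hq => ?_) fun j => ?_
    · simpa [aeval_eq_eval] using hx q (Ideal.mem_sup_left (Ideal.subset_span hq))
    · simpa [aeval_eq_eval] using hx (g j) (Ideal.mem_sup_right (Ideal.subset_span ⟨j, rfl⟩))
  obtain ⟨N, hN⟩ := hmem
  obtain ⟨a, ha, b, hb, hab⟩ := Submodule.mem_sup.mp hN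
  obtain ⟨c, rfl⟩ := (Submodule.mem_span_range_iff_exists_fun _).mp hb
  refine ⟨⋃ j, allCoeffs (c j), Set.finite_iUnion fun j => finite_allCoeffs _,
    fun O hC x hx hxO hsmall => ?_⟩
  have hax : eval x a = 0 := by
    have hle : Ideal.span P ≤ RingHom.ker (eval x) := Ideal.span_le.mpr fun q hq => hx q hq
    exact hle ha
  have hs : Small O (eval x p ^ N) := by
    rw [← map_pow, ← hab, map_add, hax, zero_add, map_sum]
    refine small_sum fun j _ => ?_
    rw [smul_eq_mul, map_mul]
    exact (hsmall j).mul_left (eval_mem_of_allCoeffs ((Set.subset_iUnion _ j).trans hC) hxO)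
  by_contra hn
  rw [Small, map_pow] at hs
  exact absurd hs (not_lt.mpr (one_le_pow₀ (not_lt.mp hn)))

/-- Minors of a pair of vectors vanish modulo the maximal ideal. -/
def CongLine {T : Type*} (O : ValuationSubring k) (u w : T → k) : Prop :=
  ∀ i j, Small O (u i * w j - u j * w i)

theorem CongLine.mul {T : Type*} {O : ValuationSubring k} {u v u' v' : T → k}
    (h : CongLine O u v) (h' : CongLine O u' v') (hu : ∀ i, u i ∈ O) (hv : ∀ i, v i ∈ O)
    (hu' : ∀ i, u' i ∈ O) (hv' : ∀ i, v' i ∈ O) : CongLine O (u * u') (v * v') := fun i j => by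
  have e : (u * u') i * (v * v') j - (u * u') j * (v * v') i =
      (u i * v j - u j * v i) * (u' i * v' j) + u j * v i * (u' i * v' j - u' j * v' i) := by
    simp only [Pi.mul_apply]; ring
  rw [e]
  exact ((h i j).mul_right (mul_mem (hu' i) (hv' j))).add ((h' i j).mul_left (mul_mem (hu j) (hv i)))

/-- A primitive vector congruent to `v` is a unit wherever `v` is. -/
theorem CongLine.not_small {T : Type*} {O : ValuationSubring k} {u v : T → k}
    (h : CongLine O u v) (hv : ∀ i, v i ∈ O) {i₀ : T}
    (hi₀ : ¬ Small O (v i₀)) {i₁ : T} (hi₁ : ¬ Small O (u i₁)) : ¬ Small O (u i₀) := fun hs => by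
  have h1 : Small O (u i₁ * v i₀) := by
    have := (h i₁ i₀).add (hs.mul_right (hv i₁))
    rwa [sub_add_cancel] at this
  refine hi₁ ?_
  have := h1.mul_right (inv_mem_of_not_small hi₀)
  rwa [mul_assoc, mul_inv_cancel₀ (fun h0 => hi₀ (by rw [h0]; exact small_zero O)), mul_one] at this

/-- Every non-zero vector can be scaled to a primitive one. -/
theorem exists_primitive {T : Type*} [Finite T] (O : ValuationSubring k) {v : T → k} (hv : v ≠ 0) :
    ∃ c : k, c ≠ 0 ∧ (∀ i, (c • v) i ∈ O) ∧ ∃ i, (c • v) i = 1 := by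
  obtain ⟨i₀, hi₀⟩ := Function.ne_iff.mp hv
  have : Nonempty T := ⟨i₀⟩
  obtain ⟨i, hi⟩ := Finite.exists_max fun i => O.valuation (v i)
  have hne : v i ≠ 0 := fun h0 => by
    have := hi i₀
    rw [h0, map_zero, le_zero_iff, map_eq_zero] at this
    exact hi₀ this
  refine ⟨(v i)⁻¹, inv_ne_zero hne, fun j => ?_, i, by simp [hne]⟩
  rw [← O.valuation_le_one_iff, Pi.smul_apply, smul_eq_mul, map_mul, map_inv₀,
    inv_mul_le_one₀ (pos_iff_ne_zero.mpr ((map_ne_zero _).mpr hne))]
  exact hi j

end FermatAgent.MW
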