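import Fermat.Agent.MW.Cert
import Fermat.Agent.MW.Specialise
import Mathlib.NumberTheory.Height.MvPolynomial
import Mathlib.NumberTheory.Height.NumberField
import Mathlib.FieldTheory.IsAlgClosed.AlgebraicClosure
import Mathlib.FieldTheory.IntermediateField.Basic
import Mathlib.NumberTheory.NumberField.Basic

/-!
# Two-sided height bounds for forms without zeros on a cone over `ℚ̄`
-/

set_option autoImplicit false

noncomputable section

open MvPolynomial Height

namespace FermatAgent.MW

local notation "Qb" => AlgebraicClosure ℚ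

/-- Finite extensions inside `ℚ̄` are number fields. -/
theorem numberField_finite (E : IntermediateField ℚ Qb) [FiniteDimensional ℚ E] : NumberField E := ⟨⟩

attribute [local instance] numberField_finite

/-- A vector over a subfield as a vector over `ℚ̄`. -/
def up {E : IntermediateField ℚ Qb} {ι : Type*} (v : ι → E) : ι → Qb := fun i => (v i : Qb)

theorem exists_lift_poly {E : IntermediateField ℚ Qb} {ι : Type*} {p : MvPolynomial ι Qb}
    (h : allCoeffs p ⊆ (E : Set Qb)) {N : ℕ} (hp : p.IsHomogeneous N) :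
    ∃ p₀ : MvPolynomial ι E, p₀.IsHomogeneous N ∧
      ∀ v : ι → E, ((eval v p₀ : E) : Qb) = eval (up v) p := by
  obtain ⟨p₀, rfl⟩ : p ∈ Set.range (MvPolynomial.map E.val.toRingHom) :=
    mem_range_map_iff_coeffs_subset.mpr fun c hc => by
      obtain ⟨e, -, rfl⟩ := mem_coeffs_iff.mp hc
      exact ⟨⟨_, h (coeff_mem_allCoeffs p e)⟩, rfl⟩
  refine ⟨p₀, IsHomogeneous.of_map E.val.toRingHom.injective hp, fun v => ?_⟩
  rw [eval_map]
  exact (eval₂_comp_left E.val.toRingHom (RingHom.id E) v p₀).trans rfl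

/-- Forms of degree `N` without common zero on a cone multiply the height by `N` up to a bounded
error. -/
theorem exists_height_bounds {ι ι' : Type*} [Fintype ι] [Fintype ι'] {Z : Set (ι → Qb)}
    (hZ : IsAlg Z) (hc : IsCone Z) (p : ι' → MvPolynomial ι Qb) {N : ℕ}
    (hp : ∀ j, (p j).IsHomogeneous N) (h0 : ∀ x ∈ Z, (∀ j, eval x (p j) = 0) → x = 0) :
    ∃ C : Set Qb, C.Finite ∧ ∀ (E : IntermediateField ℚ Qb) [FiniteDimensional ℚ E],
      C ⊆ (E : Set Qb) → ∃ B : ℝ, ∀ x : ι → E, up x ∈ Z → ∃ y : ι' → E,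
        (∀ j, (y j : Qb) = eval (up x) (p j)) ∧
          |logHeight y - N * logHeight x| ≤ B := by
  classical
  obtain ⟨M, hM⟩ := exists_forms_cert hZ hc p hp h0
  choose q hq heq using fun i : ι => hM M le_rfl (X i ^ (M + N)) (isHomogeneous_X_pow i _)
  refine ⟨(⋃ j, allCoeffs (p j)) ∪ (⋃ i, ⋃ j, allCoeffs (q i j)),
    (Set.finite_iUnion fun j => finite_allCoeffs _).union
      (Set.finite_iUnion fun i => Set.finite_iUnion fun j => finite_allCoeffs _),
    fun E _ hE => ?_⟩
  simp only [Set.union_subset_iff, Set.iUnion_subset_iff] at hE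
  choose p₀ hp₀ hp₀e using fun j => exists_lift_poly (hE.1 j) (hp j)
  choose q₀ hq₀ hq₀e using fun a : ι × ι' => exists_lift_poly (hE.2 a.1 a.2) (hq a.1 a.2)
  obtain ⟨B₁, hB₁⟩ := logHeight_eval_le' (N := N) hp₀
  obtain ⟨B₂, hB₂⟩ := logHeight_eval_ge' (N := N) hq₀
  refine ⟨max B₁ (-B₂), fun x hx => ⟨fun j => eval x (p₀ j), fun j => hp₀e j x, ?_⟩⟩
  have h1 := hB₁ x
  have h2 := hB₂ p₀ (x := x) fun i => Subtype.ext (by
    have := heq i (up x) hx
    simp only [map_pow, eval_X, up] at this
    push_cast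
    simp only [hp₀e, hq₀e]
    exact this.symm)
  rw [abs_le]
  constructor <;> linarith [le_max_left B₁ (-B₂), le_max_right B₁ (-B₂)]

end FermatAgent.MW
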