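import Fermat.Agent.MW.Elim

/-!
# The Segre product of two cones
-/

set_option autoImplicit false

noncomputable section

open MvPolynomial

namespace FermatAgent.MW

variable {k : Type*} [Field k] {τ τ' : Type*}

/-- The table of products. -/
def tens (u : τ → k) (w : τ' → k) : τ × τ' → k := fun p => u p.1 * w p.2

theorem tens_ne_zero {u : τ → k} {w : τ' → k} (hu : u ≠ 0) (hw : w ≠ 0) : tens u w ≠ 0 := by
  obtain ⟨i, hi⟩ := Function.ne_iff.mp hu
  obtain ⟨j, hj⟩ := Function.ne_iff.mp hw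
  exact fun h => mul_ne_zero hi hj (congrFun h (i, j))

/-- The products of two sets of vectors. -/
def segre (Z : Set (τ → k)) (Z' : Set (τ' → k)) : Set (τ × τ' → k) :=
  {z | ∃ u ∈ Z, ∃ w ∈ Z', z = tens u w}

theorem isCone_segre {Z : Set (τ → k)} (hZ : ∀ x ∈ Z, ∀ c : k, c • x ∈ Z) (Z' : Set (τ' → k)) :
    IsCone (segre Z Z') := by
  rintro _ ⟨u, hu, w, hw, rfl⟩ c -
  exact ⟨c • u, hZ u hu c, w, hw, funext fun p => (mul_assoc c _ _).symm⟩

theorem isAlg_segre [IsAlgClosed k] [Finite τ] [Finite τ'] {Z : Set (τ → k)} (hZ : IsAlg Z)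
    (hc : ∀ x ∈ Z, ∀ c : k, c • x ∈ Z) {Z' : Set (τ' → k)} (hZ' : IsAlg Z')
    (hc' : ∀ x ∈ Z', ∀ c : k, c • x ∈ Z') {u₀ : τ → k} (hu₀ : u₀ ∈ Z) (hu₀0 : u₀ ≠ 0)
    {w₀ : τ' → k} (hw₀ : w₀ ∈ Z') (hw₀0 : w₀ ≠ 0) : IsAlg (segre Z Z') := by
  let S : Set (((τ × τ') ⊕ τ) ⊕ τ' → k) := {x |
    ((fun i => x (.inl (.inr i))) ∈ Z ∧ (fun i => x (.inr i)) ∈ Z') ∧
      ∀ p q : τ × τ', x (.inl (.inl p)) * (x (.inl (.inr q.1)) * x (.inr q.2)) -
        x (.inl (.inl q)) * (x (.inl (.inr p.1)) * x (.inr p.2)) = 0}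
  have hS : IsAlg S := ((hZ.comp fun i => Sum.inl (Sum.inr i)).and (hZ'.comp Sum.inr)).and
    (isAlg_forall fun p => isAlg_forall fun q => ⟨{X (.inl (.inl p)) *
      (X (.inl (.inr q.1)) * X (.inr q.2)) - X (.inl (.inl q)) *
      (X (.inl (.inr p.1)) * X (.inr p.2))}, by ext x; simp⟩)
  have h1 := hS.exists_ne_zero fun a b c _ h => by
    refine ⟨⟨h.1.1, hc' _ h.1.2 c⟩, fun p q => ?_⟩
    have := h.2 p q
    simp only [Sum.elim_inl, Sum.elim_inr, Pi.smul_apply, smul_eq_mul] at this ⊢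
    linear_combination c * this
  have h2 := h1.exists_ne_zero fun a b c _ h => by
    obtain ⟨w, hw, ⟨h3, h4⟩, h5⟩ := h
    refine ⟨w, hw, ⟨hc _ h3 c, h4⟩, fun p q => ?_⟩
    have := h5 p q
    simp only [Sum.elim_inl, Sum.elim_inr, Pi.smul_apply, smul_eq_mul] at this ⊢
    linear_combination c * this
  convert h2 using 1
  ext z
  constructor
  · rintro ⟨u, hu, w, hw, rfl⟩
    rcases eq_or_ne (tens u w) 0 with h0 | h0
    · exact ⟨u₀, hu₀0, w₀, hw₀0, ⟨hu₀, hw₀⟩, fun p q => by simp [h0]⟩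
    · refine ⟨u, fun h => h0 (funext fun p => by simp [tens, h]), w,
        fun h => h0 (funext fun p => by simp [tens, h]), ⟨hu, hw⟩, fun p q => ?_⟩
      simp only [Sum.elim_inl, Sum.elim_inr, tens]
      ring
  · rintro ⟨u, hu0, w, hw0, ⟨hu, hw⟩, h⟩
    obtain ⟨p, hp⟩ := Function.ne_iff.mp (tens_ne_zero hu0 hw0)
    refine ⟨(z p / tens u w p) • u, hc _ hu _, w, hw, funext fun q => ?_⟩
    have := h q p
    simp only [Sum.elim_inl, Sum.elim_inr, sub_eq_zero] at this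
    rw [show tens ((z p / tens u w p) • u) w q = z p / tens u w p * tens u w q from
      mul_assoc _ _ _, div_mul_eq_mul_div, eq_div_iff hp]
    exact this

end FermatAgent.MW
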