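import Fermat.Agent.MW.WeakMW
import Fermat.Agent.MW.Segre
import Fermat.Agent.MW.HeightBound
import Mathlib.GroupTheory.Descent

/-!
# Descent: the Mordell–Weil theorem for `Pic⁰`
-/

set_option autoImplicit false

noncomputable section

open AlgebraicCurve FermatAgent.Curve MvPolynomial Height

namespace FermatAgent.MW

local notation "Qb" => AlgebraicClosure ℚ
local notation "GQ" => AlgebraicClosure ℚ ≃ₐ[ℚ] AlgebraicClosure ℚ

attribute [local instance] FermatAgent.RT.isGalois_algClosureRat numberField_finite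

variable {F : Type*} [Field F] [Algebra Qb F] [IsFunctionField1 Qb F]

/-- Proportional rational vectors have the same height. -/
theorem logHeight_eq_of_sameLine {E : IntermediateField ℚ Qb} [FiniteDimensional ℚ E]
    {ι : Type*} [Finite ι] {v w : ι → E} (hw : w ≠ 0) (h : SameLine (up v) (up w)) :
    logHeight v = logHeight w := by
  obtain ⟨c, hc, he⟩ := h
  obtain ⟨i, hi⟩ := Function.ne_iff.mp hw
  have hi' : (w i : Qb) ≠ 0 := fun h0 => hi (Subtype.ext h0)
  have hcE : c ∈ E := by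
    have h1 : c = (v i : Qb) * (w i : Qb)⁻¹ := by
      rw [show (v i : Qb) = c * (w i : Qb) from congrFun he i, mul_inv_cancel_right₀ hi']
    exact h1 ▸ mul_mem (v i).2 (inv_mem (w i).2)
  have hvw : v = (⟨c, hcE⟩ : E) • w := funext fun j => Subtype.ext (congrFun he j)
  rw [hvw, logHeight_smul_eq_logHeight w fun h0 => hc (congrArg Subtype.val h0)]

/-- Classes defined over `E` have coordinates in `E`. -/
theorem GaloisData.exists_rational_coord (D : GaloisData Qb F) {M : Divisor Qb F} (hM : IsBig M)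
    {s : Finset (Place Qb F)} (hs : Large M s) (hzero : ∀ P ∈ s, M P = 0)
    {E : IntermediateField ℚ Qb} (hEM : D.DefinedOver E M) (hEs : ∀ P ∈ s, D.DefinedOver E P)
    {y : Pic0 Qb F} (hy : y ∈ D.rationalClasses E) :
    ∃ v : (Fin (rk M) → s) → E, (∃ i, v i = 1) ∧ SameLine (up v) (coord M s y) := by
  obtain ⟨i, hi⟩ := Function.ne_iff.mp (coord_ne_zero hM hs y)
  have hmem : ∀ j, (coord M s y i)⁻¹ * coord M s y j ∈ E := fun j => by
    rw [← InfiniteGalois.fixedField_fixingSubgroup E, IntermediateField.mem_fixedField_iff]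
    intro σ hσ
    obtain ⟨c, hc, he⟩ := D.sameLine_coord hM (hEM σ hσ) (fun P hP => hEs P hP σ hσ) hzero y
    rw [hy σ hσ] at he
    have hj : coord M s y j = c * σ (coord M s y j) := congrFun he j
    have hi' : coord M s y i = c * σ (coord M s y i) := congrFun he i
    rw [map_mul, map_inv₀]
    conv_rhs => rw [hi', hj, mul_inv, mul_mul_mul_comm, inv_mul_cancel₀ hc, one_mul]
  exact ⟨fun j => ⟨_, hmem j⟩, ⟨i, Subtype.ext (inv_mul_cancel₀ hi)⟩,
    (coord M s y i)⁻¹, inv_ne_zero hi, rfl⟩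

/-- The biquadratic forms of the parallelogram law on the table of products. -/
def biPoly {T T' : Type*} [Fintype T] (B : (T × T → Qb) →ₗ[Qb] (T × T → Qb) →ₗ[Qb] (T' → Qb))
    (Q : T') : MvPolynomial (T × T) Qb :=
  haveI := Classical.decEq T
  ∑ p : T × T, ∑ q : T × T,
    C (B (Pi.single p 1) (Pi.single q 1) Q) * (X (p.1, q.1) * X (p.2, q.2))

theorem eval_biPoly {T T' : Type*} [Fintype T]
    (B : (T × T → Qb) →ₗ[Qb] (T × T → Qb) →ₗ[Qb] (T' → Qb)) (Q : T') (v w : T → Qb) :
    eval (tens v w) (biPoly B Q) = B (pairs v) (pairs w) Q := by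
  classical
  conv_rhs => rw [pi_eq_sum_univ' (pairs v), pi_eq_sum_univ' (pairs w)]
  simp only [biPoly, map_sum, map_mul, eval_C, eval_X, map_smul, LinearMap.sum_apply,
    LinearMap.smul_apply, Finset.sum_apply, Pi.smul_apply, smul_eq_mul, Finset.mul_sum, pairs, tens]
  rw [Finset.sum_comm]
  exact Finset.sum_congr rfl fun p _ => Finset.sum_congr rfl fun q _ => by ring

theorem isHomogeneous_biPoly {T T' : Type*} [Fintype T]
    (B : (T × T → Qb) →ₗ[Qb] (T × T → Qb) →ₗ[Qb] (T' → Qb)) (Q : T') :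
    (biPoly B Q).IsHomogeneous 2 :=
  IsHomogeneous.sum _ _ _ fun p _ => IsHomogeneous.sum _ _ _ fun q _ =>
    ((isHomogeneous_X Qb (p.1, q.1)).mul (isHomogeneous_X Qb (p.2, q.2))).C_mul _

/-- **Mordell–Weil**: over some number field the rational classes are finitely generated. -/
theorem GaloisData.exists_field_fg_of_le (D : GaloisData Qb F) :
    ∃ E₀ : IntermediateField ℚ Qb, FiniteDimensional ℚ E₀ ∧ ∀ E : IntermediateField ℚ Qb,
      FiniteDimensional ℚ E → E₀ ≤ E → AddGroup.FG (D.rationalClasses E) := by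
  classical
  by_cases hA : ∀ A : Pic0 Qb F, A + A = 0
  · have : Finite (Pic0 Qb F) := Set.finite_univ_iff.mp
      ((finite_two_torsion (K := Qb) (F := F)).subset fun x _ => hA x)
    exact ⟨⊥, inferInstance, fun E _ _ => inferInstance⟩
  push Not at hA
  obtain ⟨A, hA⟩ := hA
  have := RR.infinite_place (K := Qb) (F := F)
  set P₀ := Classical.arbitrary (Place Qb F)
  obtain ⟨s, hs₀, hsc⟩ := (Set.finite_singleton P₀).infinite_compl.exists_subset_card_eq
    (6 * (5 * genusFF Qb F + 2) + 1)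
  set M : Divisor Qb F := Finsupp.single P₀ (3 * (genusFF Qb F : ℤ) + 1)
  set G₀ : Divisor Qb F := Finsupp.single P₀ (2 * (genusFF Qb F : ℤ) + 1)
  have hdM : Divisor.degree M = 3 * (genusFF Qb F : ℤ) + 1 := RR.degree_single _ _
  have hdG : Divisor.degree G₀ = 2 * (genusFF Qb F : ℤ) + 1 := RR.degree_single _ _
  have hM : IsBig M := by unfold IsBig; rw [hdM]
  have hG₀ : 2 * (genusFF Qb F : ℤ) + 1 ≤ Divisor.degree G₀ := by rw [hdG]
  have hs6 : 6 * (Divisor.degree M).toNat < s.card := by rw [hdM]; omega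
  have hsM : Large M s := by unfold Large; omega
  have hs' : Large (M + G₀) s := by unfold Large; rw [map_add, hdM, hdG]; omega
  have hM' : IsBig (M + G₀) := isBig_add hM (by omega)
  have hzero : ∀ P ∈ s, (M + G₀) P = 0 := fun P hP => by
    have hne : P ≠ P₀ := hs₀ hP
    simp [M, G₀, hne]
  obtain ⟨Ew, hEw, hweak⟩ := exists_field_finiteIndex D hM hG₀ hs6 hs' hzero hA
  obtain ⟨Λ, hΛ⟩ := exists_halfTorsion hM hG₀ s hs' (R := 0) (add_zero 0)
  obtain ⟨B, hB⟩ := exists_bilinear hM hG₀ hsM hs'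
  have hZ := isAlg_imgSet hM hsM
  have hZ' := isAlg_imgSet hM' hs'
  have hcl : ∀ (N : Divisor Qb F) (t : Finset (Place Qb F)), ∀ x ∈ imgSet N t, ∀ c : Qb,
      c • x ∈ imgSet N t := fun _ _ x hx c => smul_mem_imgSet hx c
  -- the three certificates
  obtain ⟨C₁, hC₁, hh₁⟩ := exists_height_bounds hZ' (isCone_imgSet _ _) (linPoly Λ) (N := 1)
    (fun Q => IsHomogeneous.sum _ _ _ fun R _ => (isHomogeneous_X Qb R).C_mul _) fun x hx h => by
      obtain ⟨e, y, rfl⟩ := exists_eq_smul_of_mem_imgSet hx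
      obtain ⟨e', he'0, he'⟩ := hΛ y
      have h1 : Λ (e • coord (M + G₀) s y) = 0 :=
        funext fun Q => (eval_linPoly Λ Q _).symm.trans (h Q)
      rw [map_smul, he', smul_smul, smul_eq_zero] at h1
      rcases h1 with h1 | h1
      · rw [(mul_eq_zero.mp h1).resolve_right he'0, zero_smul]
      · exact absurd h1 (coord_ne_zero hM hsM _)
  obtain ⟨C₂, hC₂, hh₂⟩ := exists_height_bounds (isAlg_segre hZ' (hcl _ _) hZ' (hcl _ _)
      (coord_mem_imgSet _ _ 0) (coord_ne_zero hM' hs' 0) (coord_mem_imgSet _ _ 0)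
      (coord_ne_zero hM' hs' 0))
    (isCone_segre (hcl _ _) _) (biPoly B) (isHomogeneous_biPoly B) fun z hz h => by
      obtain ⟨v, hv, w, hw, rfl⟩ := hz
      obtain ⟨e, x, rfl⟩ := exists_eq_smul_of_mem_imgSet hv
      obtain ⟨e', y, rfl⟩ := exists_eq_smul_of_mem_imgSet hw
      obtain ⟨d, hd, hd'⟩ := hB x y
      have h1 : (e ^ 2 * e' ^ 2 * d) • parFun M s x y = 0 := funext fun Q => by
        have := h Q
        simp only [eval_biPoly, pairs_smul, map_smul, LinearMap.smul_apply, hd', Pi.smul_apply,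
          smul_eq_mul, Pi.zero_apply] at this ⊢
        linear_combination this
      rw [smul_eq_zero, or_iff_left (parFun_ne_zero hM hsM x y), mul_eq_zero, or_iff_left hd,
        mul_eq_zero, pow_eq_zero_iff two_ne_zero, pow_eq_zero_iff two_ne_zero] at h1
      funext p
      rcases h1 with rfl | rfl <;> simp [tens]
  obtain ⟨C₃, hC₃, hh₃⟩ := exists_height_bounds (isAlg_segre hZ (hcl _ _) hZ (hcl _ _)
      (coord_mem_imgSet _ _ 0) (coord_ne_zero hM hsM 0) (coord_mem_imgSet _ _ 0)
      (coord_ne_zero hM hsM 0))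
    (isCone_segre (hcl _ _) _) (fun Q : Fin (rk M) → s => X (Q, Q)) (N := 1)
    (fun Q => isHomogeneous_X Qb (Q, Q)) fun z hz h => by
      obtain ⟨v, hv, w, hw, rfl⟩ := hz
      obtain ⟨e, x, rfl⟩ := exists_eq_smul_of_mem_imgSet hv
      obtain ⟨e', y, rfl⟩ := exists_eq_smul_of_mem_imgSet hw
      have h1 : (e * e') • (coord M s x * coord M s y) = 0 := funext fun Q => by
        have := h Q
        simp only [eval_X, tens, Pi.smul_apply, Pi.mul_apply, smul_eq_mul, Pi.zero_apply] at this ⊢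
        linear_combination this
      rw [smul_eq_zero, or_iff_left (coord_mul_ne_zero hM hsM x y), mul_eq_zero] at h1
      funext p
      rcases h1 with rfl | rfl <;> simp [tens]
  obtain ⟨E₁, hE₁, hCE⟩ := exists_field_constants ((hC₁.union hC₂).union hC₃)
  obtain ⟨E₂, hE₂, h₂⟩ := D.exists_field_divisor (M + G₀)
  obtain ⟨E₃, hE₃, h₃⟩ := D.exists_field_finset s fun P _ => D.exists_field_place P
  refine ⟨Ew ⊔ E₁ ⊔ E₂ ⊔ E₃, inferInstance, fun E hE hle => ?_⟩
  simp only [sup_le_iff] at hle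
  obtain ⟨⟨⟨hlew, hle₁⟩, hle₂⟩, hle₃⟩ := hle
  have hleC := hCE.trans hle₁
  simp only [Set.union_subset_iff] at hleC
  obtain ⟨⟨hC₁E, hC₂E⟩, hC₃E⟩ := hleC
  obtain ⟨B₁, hB₁⟩ := hh₁ E hC₁E
  obtain ⟨B₂, hB₂⟩ := hh₂ E hC₂E
  obtain ⟨B₃, hB₃⟩ := hh₃ E hC₃E
  set G := D.rationalClasses E
  choose v hv1 hv using fun x : G => D.exists_rational_coord hM' hs' hzero
    (h₂.mono hle₂) (fun P hP => (h₃ P hP).mono hle₃) x.2
  have hvne : ∀ x, v x ≠ 0 := fun x h => by
    obtain ⟨i, hi⟩ := hv1 x
    simp [h] at hi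
  have hvmem : ∀ x, up (v x) ∈ imgSet (M + G₀) s := fun x => by
    obtain ⟨c, -, hc⟩ := hv x
    exact hc ▸ smul_mem_imgSet (coord_mem_imgSet _ _ _) c
  -- the smaller coordinates
  choose u hu hbd₁ using fun x => hB₁ (v x) (hvmem x)
  have hul : ∀ x : G, SameLine (up (u x)) (coord M s x) := fun x => by
    obtain ⟨c, hc, he⟩ := hv x
    obtain ⟨d, hd, he'⟩ := hΛ x
    refine ⟨c * d, mul_ne_zero hc hd, funext fun Q => ?_⟩
    show (u x Q : Qb) = _
    rw [hu, eval_linPoly, he, map_smul, he', smul_smul, add_zero]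
  have hune : ∀ x, u x ≠ 0 := fun x h => by
    obtain ⟨c, hc, he⟩ := hul x
    refine smul_ne_zero hc (coord_ne_zero hM hsM (x : Pic0 Qb F)) (he.symm.trans ?_)
    rw [h]; rfl
  have humem : ∀ x, up (u x) ∈ imgSet M s := fun x => by
    obtain ⟨c, -, hc⟩ := hul x
    exact hc ▸ smul_mem_imgSet (coord_mem_imgSet _ _ _) c
  let h : G → ℝ := fun x => logHeight (v x)
  replace hbd₁ : ∀ x, |logHeight (u x) - h x| ≤ B₁ := fun x => by
    have := hbd₁ x
    rwa [Nat.cast_one, one_mul] at this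
  have hpar : ∀ x y : G, |h (x + y) + h (x - y) - 2 * (h x + h y)| ≤ 2 * B₁ + B₂ + B₃ := by
    intro x y
    let z : (Fin (rk (M + G₀)) → s) × (Fin (rk (M + G₀)) → s) → E := fun p => v x p.1 * v y p.2
    have hz : up z = tens (up (v x)) (up (v y)) := funext fun p => by simp [z, up, tens]
    have hzmem : up z ∈ segre (imgSet (M + G₀) s) (imgSet (M + G₀) s) :=
      ⟨_, hvmem x, _, hvmem y, hz⟩
    have hlz : logHeight z = h x + h y := logHeight_fun_mul_eq (hvne x) (hvne y)
    let z' : (Fin (rk M) → s) × (Fin (rk M) → s) → E := fun p => u (x + y) p.1 * u (x - y) p.2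
    have hz' : up z' = tens (up (u (x + y))) (up (u (x - y))) := funext fun p => by simp [z', up, tens]
    have hlz' : logHeight z' = logHeight (u (x + y)) + logHeight (u (x - y)) :=
      logHeight_fun_mul_eq (hune _) (hune _)
    obtain ⟨w, hw, ht'⟩ := hB₃ z' ⟨_, humem _, _, humem _, hz'⟩
    obtain rfl : w = u (x + y) * u (x - y) := funext fun Q => Subtype.ext (by
      rw [hw, eval_X, hz']; simp [up, tens])
    rw [Nat.cast_one, one_mul, hlz'] at ht'
    obtain ⟨t, ht, hth⟩ := hB₂ z hzmem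
    obtain ⟨cx, hcx, ex⟩ := hv x
    obtain ⟨cy, hcy, ey⟩ := hv y
    obtain ⟨d, hd, ed⟩ := hB x y
    have hsl : SameLine (fun Q => eval (up z) (biPoly B Q)) (up (u (x + y) * u (x - y))) := by
      obtain ⟨a, ha, ea⟩ := hul (x + y)
      obtain ⟨b, hb, eb⟩ := hul (x - y)
      refine ⟨cx ^ 2 * cy ^ 2 * d / (a * b), ?_, funext fun Q => ?_⟩
      · exact div_ne_zero (mul_ne_zero (mul_ne_zero (pow_ne_zero _ hcx) (pow_ne_zero _ hcy)) hd)
          (mul_ne_zero ha hb)
      simp only [hz, eval_biPoly, ex, ey, pairs_smul, map_smul, LinearMap.smul_apply, ed]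
      have ea' := congrFun ea Q
      have eb' := congrFun eb Q
      simp only [up, Pi.smul_apply, smul_eq_mul, AddSubgroup.coe_add, AddSubgroup.coe_sub] at ea' eb'
      simp only [up, parFun, Pi.mul_apply, Pi.smul_apply, smul_eq_mul, MulMemClass.coe_mul, ea', eb']
      field_simp
    have hne : u (x + y) * u (x - y) ≠ 0 := fun h0 => by
      obtain ⟨a, ha, ea⟩ := hul (x + y)
      obtain ⟨b, hb, eb⟩ := hul (x - y)
      refine smul_ne_zero (mul_ne_zero ha hb) (coord_mul_ne_zero hM hsM ((x + y : G) : Pic0 Qb F) ((x - y : G) : Pic0 Qb F))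
        (funext fun Q => ?_)
      have ea' := congrFun ea Q
      have eb' := congrFun eb Q
      have h1 := congrArg (fun w : E => (w : Qb)) (congrFun h0 Q)
      simp only [up, Pi.smul_apply, Pi.mul_apply, smul_eq_mul, Pi.zero_apply, MulMemClass.coe_mul,
        ZeroMemClass.coe_zero] at ea' eb' h1 ⊢
      rw [ea', eb'] at h1
      linear_combination h1
    have heq : logHeight t = logHeight (u (x + y) * u (x - y)) := by
      refine logHeight_eq_of_sameLine hne ?_
      rwa [show up t = fun Q => eval (up z) (biPoly B Q) from funext ht]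
    rw [heq, hlz] at hth
    push_cast at hth
    have h1 := abs_le.mp (hbd₁ (x + y))
    have h2 := abs_le.mp (hbd₁ (x - y))
    have h3 := abs_le.mp ht'
    have h4 := abs_le.mp hth
    rw [abs_le]
    constructor <;> linarith
  have : Northcott h := ⟨fun b => by
    set S := {w : (Fin (rk (M + G₀)) → s) → E | ∀ j, logHeight₁ (w j) ≤ b}
    have hS : S.Finite := (Set.Finite.pi fun _ => NumberField.finite_setOfPred_logHeight₁_le E b).subset
      fun w hw j _ => hw j
    have hfib : ∀ w, {x : G | v x = w}.Finite := fun w => by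
      rcases Set.eq_empty_or_nonempty {x : G | v x = w} with he | ⟨x₀, hx₀⟩
      · rw [he]; exact Set.finite_empty
      refine ((Set.toFinite ({(x₀ : Pic0 Qb F), -(x₀ : Pic0 Qb F)} : Set (Pic0 Qb F))).preimage
        Subtype.val_injective.injOn).subset fun x hx => ?_
      obtain ⟨c, hc, ec⟩ := hv x
      obtain ⟨d, hd, ed⟩ := hv x₀
      exact eq_or_eq_neg_of_smul_coord hM' hs' hc (c' := d) (by
        rw [← ec, ← ed, show v x = w from hx, show v x₀ = w from hx₀])
    refine (hS.biUnion fun w _ => hfib w).subset fun x hx => ?_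
    refine Set.mem_biUnion (x := v x) (fun j => ?_) rfl
    obtain ⟨i, hi⟩ := hv1 x
    calc logHeight₁ (v x j) = logHeight ![v x j, 1] := logHeight₁_eq_logHeight _
      _ = logHeight (v x ∘ ![j, i]) := by
        congr 1
        funext k
        fin_cases k <;> simp [hi]
      _ ≤ h x := logHeight_comp_le _ _
      _ ≤ b := hx⟩
  exact AddCommGroup.fg_of_descent' (h := h) (hweak E hE hlew) (fun x => logHeight_nonneg _) hpar

/-- Mordell–Weil over a suitable number field. -/
theorem GaloisData.exists_field_fg (D : GaloisData Qb F) :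
    ∃ E : IntermediateField ℚ Qb, FiniteDimensional ℚ E ∧ AddGroup.FG (D.rationalClasses E) :=
  let ⟨E, hE, h⟩ := D.exists_field_fg_of_le
  ⟨E, hE, h E hE le_rfl⟩

end FermatAgent.MW
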