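import Fermat.Agent.MW.Multiplication
import Fermat.Agent.MW.Specialise

/-!
# Inertia fixes the halves of rational classes

For a valuation ring containing finitely many constants, an automorphism congruent to the identity
moves no half of a rational class.
-/

set_option autoImplicit false

noncomputable section

open AlgebraicCurve FermatAgent.Curve MvPolynomial

namespace FermatAgent.MW

variable {K F : Type*} [Field K] [Field F] [Algebra K F] [IsAlgClosed K] [IsFunctionField1 K F]

/-- A component of a linear map as a polynomial. -/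
def linPoly {T T' : Type*} [Fintype T] [DecidableEq T] (L : (T → K) →ₗ[K] (T' → K)) (Q : T') :
    MvPolynomial T K :=
  ∑ R, C (L (Pi.single R 1) Q) * X R

omit [IsAlgClosed K] in
theorem eval_linPoly {T T' : Type*} [Fintype T] [DecidableEq T] (L : (T → K) →ₗ[K] (T' → K))
    (Q : T') (v : T → K) : eval v (linPoly L Q) = L v Q := by
  conv_rhs => rw [pi_eq_sum_univ' v]
  simp only [linPoly, map_sum, map_mul, eval_C, eval_X, map_smul, Finset.sum_apply, Pi.smul_apply,
    smul_eq_mul]
  exact Finset.sum_congr rfl fun R _ => mul_comm _ _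

/-- A quadratic component times a constant, as a polynomial. -/
def quadPoly {T T' : Type*} [Fintype T] (L : (T × T → K) →ₗ[K] (T' → K)) (cc : T' → K) (Q : T') :
    MvPolynomial T K :=
  C (cc Q) * pairPoly ((LinearMap.proj Q).comp L)

omit [IsAlgClosed K] in
theorem eval_quadPoly {T T' : Type*} [Fintype T] (L : (T × T → K) →ₗ[K] (T' → K)) (cc : T' → K)
    (Q : T') (v : T → K) : eval v (quadPoly L cc Q) = (L (pairs v) * cc) Q := by
  rw [quadPoly, map_mul, eval_C, eval_pairPoly]
  exact mul_comm _ _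

/-- The minors of two families of polynomials. -/
def minorPoly {T T' : Type*} (f g : T' → MvPolynomial T K) (ij : T' × T') : MvPolynomial T K :=
  f ij.1 * g ij.2 - f ij.2 * g ij.1

omit [IsAlgClosed K] in
theorem eval_minorPoly {T T' : Type*} (f g : T' → MvPolynomial T K) (v : T → K) (ij : T' × T') :
    eval v (minorPoly f g ij) = eval v (f ij.1) * eval v (g ij.2) -
      eval v (f ij.2) * eval v (g ij.1) := by
  simp only [minorPoly, map_sub, map_mul]

omit [IsAlgClosed K] in
theorem SameLine.smul_left {X : Type*} {a b : X → K} (h : SameLine a b) {c : K} (hc : c ≠ 0) :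
    SameLine (c • a) b := by
  obtain ⟨e, he, rfl⟩ := h
  exact ⟨c * e, mul_ne_zero hc he, smul_smul c e b⟩

/-- `coord (z + A) · coord (z - A) ∝ coord R ²` on the sample forces `A` to be two-torsion. -/
theorem add_self_eq_zero_of_sq [CharZero K] {M : Divisor K F} (hM : IsBig M)
    {s : Finset (Place K F)} (hs : 6 * (Divisor.degree M).toNat < s.card) {R z A : Pic0 K F}
    (hR : R + R = 0) {e : K}
    (h : ∀ Q : (Fin (rk M) → s), coord M s (z + A) Q * coord M s (z - A) Q *
        (coord M s 0 Q * coord M s 0 Q) =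
      e * (coord M s R Q * coord M s R Q * (coord M s 0 Q * coord M s 0 Q))) :
    A + A = 0 := by
  have hU := fewZeros_evSpace (M + M + (M + M))
  have hf1 := isSlice_mul (isSlice_psi hM (z + A)) (isSlice_psi hM (z - A))
  have hf2 := isSlice_mul (isSlice_psi hM R) (isSlice_psi hM R)
  have hf : IsSlice (evSpace (M + M + (M + M)))
      (psi M (z + A) * psi M (z - A) - e • (psi M R * psi M R)) :=
    Submodule.sub_mem (sliceSpace (evSpace (M + M + (M + M))) (rk M))
      (x := psi M (z + A) * psi M (z - A)) (y := e • (psi M R * psi M R)) hf1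
      (Submodule.smul_mem (sliceSpace (evSpace (M + M + (M + M))) (rk M)) e hf2)
  have heq : psi M (z + A) * psi M (z - A) - e • (psi M R * psi M R) = 0 := by
    by_contra hne
    obtain ⟨Q, hQ, h1, h2⟩ := exists_tuple_mul_ne_zero hU (fewZeros_evSpace (M + M)) hf
      (isSlice_psi hM 0) hne (psi_ne_zero hM 0) (s := s) (by simp only [map_add]; omega)
    refine h1 ?_
    have h3 := h fun j => ⟨Q j, hQ j⟩
    simp only [coord, resTuple] at h3
    simp only [Pi.sub_apply, Pi.mul_apply, Pi.smul_apply, smul_eq_mul]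
    refine (mul_eq_zero.mp ?_).resolve_right (mul_ne_zero h2 h2)
    linear_combination h3
  have he : e ≠ 0 := fun he => by
    obtain ⟨Q, -, h1, h2⟩ := exists_tuple_mul_ne_zero (fewZeros_evSpace (M + M))
      (fewZeros_evSpace (M + M)) (isSlice_psi hM (z + A)) (isSlice_psi hM (z - A))
      (psi_ne_zero hM _) (psi_ne_zero hM _) (s := s) (by simp only [map_add]; omega)
    have := congrFun heq Q
    simp [he, h1, h2] at this
  have key : ∀ y, (y = z + A ∨ y = z - A) → y = R := fun y hy => by
    have h1 : ∀ Q, psi M y Q = 0 → psi M R Q = 0 := fun Q hQ => by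
      have := congrFun heq Q
      simp only [Pi.sub_apply, Pi.mul_apply, Pi.smul_apply, smul_eq_mul, Pi.zero_apply] at this
      rcases hy with rfl | rfl <;> simpa [hQ, he] using this
    rcases eq_or_eq_neg_of_psi_eq_zero_iff hM h1 with h2 | h2
    · exact h2.symm
    · rw [h2] at hR ⊢
      have : y + y = 0 := by
        have h3 := congrArg Neg.neg hR
        simpa using h3
      exact eq_neg_of_add_eq_zero_left this
  have h1 := key _ (Or.inl rfl)
  have h2 := key _ (Or.inr rfl)
  rw [← h2] at h1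
  rw [← sub_eq_zero.mpr h1]
  abel

/-- Constants `C` such that a ring endomorphism congruent to the identity modulo a valuation ring
containing `C` fixes the halves of a class with a rational shift. -/
theorem exists_inertia_cert [CharZero K] {M G₀ : Divisor K F} (hM : IsBig M)
    (hG₀ : 2 * (genusFF K F : ℤ) + 1 ≤ Divisor.degree G₀) {s : Finset (Place K F)}
    (hs : 6 * (Divisor.degree M).toNat < s.card) {s' : Finset (Place K F)}
    (hs' : Large (M + G₀) s') {A : Pic0 K F} (hA : A + A ≠ 0) :
    ∃ C : Set K, C.Finite ∧ ∀ O : ValuationSubring K, C ⊆ (O : Set K) → ∀ σ : K →+* K,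
      (∀ a ∈ O, Small O (σ a - a)) → ∀ Q R : Pic0 K F, R + R = 0 →
        SameLine (σ ∘ coord (M + G₀) s' Q) (coord (M + G₀) s' (Q + R)) →
        SameLine (σ ∘ coord (M + G₀) s' (Q + A)) (coord (M + G₀) s' (Q + A + R)) → R = 0 := by
  classical
  have hsL : Large M s := by unfold Large; omega
  have hM' : IsBig (M + G₀) := isBig_add hM (by omega)
  have hZ := isAlg_imgSet hM' hs'
  have : Fintype {R : Pic0 K F // R + R = 0} := (finite_two_torsion (K := K) (F := F)).fintype
  choose Λ hΛ using fun R : {R : Pic0 K F // R + R = 0} => exists_halfTorsion hM hG₀ s hs' R.2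
  set R₀ : {R : Pic0 K F // R + R = 0} := ⟨0, add_zero 0⟩
  obtain ⟨F₄, hhom, hline, hzero⟩ := exists_doubling hM hG₀ hsL hs'
  obtain ⟨LA, hLA⟩ := exists_quad hM hG₀ s hs' A
  set c := coord M s 0
  set r : {R : Pic0 K F // R + R = 0} → (Fin (rk M) → s) → K := fun R => coord M s R.1 * c
  choose i₀ hi₀ using fun R : {R : Pic0 K F // R + R = 0} =>
    Function.ne_iff.mp (coord_mul_ne_zero hM hsL R.1 0)
  -- the doubling forms are primitive
  have cert0 := fun i => exists_coeff_cert hZ F₄ (X i) fun x hx h => by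
    rw [eval_X, hzero x hx h, Pi.zero_apply]
  -- congruent translates give congruent doubles
  have cert1 := fun (R : {R : {R : Pic0 K F // R + R = 0} // R.1 ≠ 0}) (ij : (Fin (rk M) → s) × _) =>
    exists_coeff_cert hZ (minorPoly (linPoly (Λ R.1)) (linPoly (Λ R₀)))
      (minorPoly F₄ (fun Q => MvPolynomial.C (r R.1 Q)) ij) fun x hx h => by
    obtain ⟨e, y, rfl⟩ := exists_eq_smul_of_mem_imgSet hx
    rw [eval_minorPoly, eval_C, eval_C, eval_smul_of_isHomogeneous (hhom ij.1),
      eval_smul_of_isHomogeneous (hhom ij.2)]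
    rcases eq_or_ne e 0 with rfl | he
    · simp
    obtain ⟨a, ha, ha'⟩ := hΛ R.1 y
    obtain ⟨b, hb, hb'⟩ := hΛ R₀ y
    obtain ⟨d, hd⟩ := exists_eq_smul_of_mul_eq (u := coord M s (y + R.1.1)) (v := coord M s y)
      (coord_ne_zero hM hsL y) fun i j => by
        have := h (i, j)
        rw [eval_minorPoly, eval_linPoly, eval_linPoly, eval_linPoly, eval_linPoly, map_smul,
          map_smul, ha', hb', add_zero] at this
        simp only [Pi.smul_apply, smul_eq_mul] at this
        refine sub_eq_zero.mp ((mul_eq_zero.mp ?_).resolve_left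
          (mul_ne_zero (mul_ne_zero (mul_ne_zero he ha) he) hb))
        linear_combination this
    have hy : R.1.1 = y + y := by
      rcases eq_or_eq_neg_of_smul_coord hM hsL one_ne_zero ((one_smul K _).trans hd) with h' | h'
      · exact absurd (add_eq_left.mp h') R.2
      · rw [eq_neg_iff_add_eq_zero] at h'
        have h2 : y + y = -R.1.1 := by
          rw [eq_neg_iff_add_eq_zero]
          exact Eq.trans (by abel) h'
        exact (h2.trans (neg_eq_of_add_eq_zero_right R.1.2)).symm
    obtain ⟨f, hf, hf'⟩ := hline y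
    rw [congrFun hf' ij.1, congrFun hf' ij.2, ← hy]
    simp only [r, Pi.smul_apply, Pi.mul_apply, smul_eq_mul]
    ring
  -- a shifted congruence is impossible
  have cert2 := fun (R : {R : Pic0 K F // R + R = 0}) i =>
    exists_coeff_cert hZ (minorPoly (quadPoly LA (c * c)) fun Q => MvPolynomial.C ((r R * r R) Q))
      (X i) fun x hx h => by
    obtain ⟨e, z, rfl⟩ := exists_eq_smul_of_mem_imgSet hx
    rcases eq_or_ne e 0 with rfl | he
    · simp
    obtain ⟨a, ha, ha'⟩ := hLA z
    have hrr : r R * r R ≠ 0 := fun h0 => hi₀ R (mul_self_eq_zero.mp (congrFun h0 (i₀ R)))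
    obtain ⟨d, hd⟩ := exists_eq_smul_of_mul_eq hrr (u := LA (pairs (e • coord (M + G₀) s' z)) * (c * c))
      fun i j => by
        have := h (i, j)
        rw [eval_minorPoly, eval_quadPoly, eval_quadPoly, eval_C, eval_C] at this
        exact sub_eq_zero.mp this
    refine absurd (add_self_eq_zero_of_sq hM hs R.2 (z := z) (A := A) (e := d / (e ^ 2 * a))
      fun Q => ?_) hA
    have h1 := congrFun hd Q
    rw [pairs_smul, map_smul, ha'] at h1
    simp only [Pi.mul_apply, Pi.smul_apply, smul_eq_mul, parFun, r] at h1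
    field_simp
    linear_combination h1
  choose C0 hC0 hcert0 using cert0
  choose C1 hC1 hcert1 using cert1
  choose C2 hC2 hcert2 using cert2
  refine ⟨(⋃ i, C0 i) ∪ (⋃ R, ⋃ ij, C1 R ij) ∪ (⋃ R, ⋃ i, C2 R i) ∪
    (⋃ Q, allCoeffs (F₄ Q)) ∪ (⋃ R, ⋃ Q, allCoeffs (linPoly (Λ R) Q)) ∪
    (⋃ Q, allCoeffs (quadPoly LA (c * c) Q)) ∪ (⋃ R, Set.range (r R)) ∪
    (Set.range fun R => (r R (i₀ R))⁻¹), ?_, fun O hC σ hσ Q R hR hQ hQA => ?_⟩
  · exact (((((((Set.finite_iUnion hC0).union
      (Set.finite_iUnion fun R => Set.finite_iUnion fun ij => hC1 R ij)).union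
      (Set.finite_iUnion fun R => Set.finite_iUnion fun i => hC2 R i)).union
      (Set.finite_iUnion fun Q => finite_allCoeffs _)).union
      (Set.finite_iUnion fun R => Set.finite_iUnion fun Q => finite_allCoeffs _)).union
      (Set.finite_iUnion fun Q => finite_allCoeffs _)).union
      (Set.finite_iUnion fun R => Set.finite_range _)).union (Set.finite_range _)
  simp only [Set.union_subset_iff, Set.iUnion_subset_iff] at hC
  obtain ⟨⟨⟨⟨⟨⟨⟨kC0, kC1⟩, kC2⟩, kF⟩, kL⟩, kA⟩, kr⟩, ki⟩ := hC
  by_contra hR0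
  set R' : {R : Pic0 K F // R + R = 0} := ⟨R, hR⟩
  have hr : ∀ i, r R' i ∈ O := fun i => kr R' ⟨i, rfl⟩
  have hri : ¬ Small O (r R' (i₀ R')) := not_small_of_inv_mem (hi₀ R') (ki ⟨R', rfl⟩)
  -- normalised doubles of the halves
  have main : ∀ T : Pic0 K F, SameLine (σ ∘ coord (M + G₀) s' T) (coord (M + G₀) s' (T + R)) →
      ∃ u : (Fin (rk M) → s) → K, (∀ i, u i ∈ O) ∧ ¬ Small O (u (i₀ R')) ∧
        CongLine O u (r R') ∧ SameLine u (coord M s (T + T) * c) := by
    intro T hT
    obtain ⟨κ, hκ, hmem, i, hi⟩ := exists_primitive O (coord_ne_zero hM' hs' T)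
    set w := κ • coord (M + G₀) s' T
    have hw : w ∈ imgSet (M + G₀) s' := smul_mem_imgSet (coord_mem_imgSet _ _ _) κ
    have hσw : SameLine (σ ∘ w) (coord (M + G₀) s' (T + R)) := by
      have : σ ∘ w = σ κ • (σ ∘ coord (M + G₀) s' T) := funext fun j => map_mul σ _ _
      exact this ▸ hT.smul_left (σ.injective.ne hκ |>.trans_eq (map_zero σ))
    let u : (Fin (rk M) → s) → K := fun Q => eval w (F₄ Q)
    have hu : ∀ Q, u Q ∈ O := fun Q => eval_mem_of_allCoeffs (kF Q) hmem
    obtain ⟨i₁, hi₁⟩ : ∃ Q, ¬ Small O (u Q) := by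
      by_contra hall
      push Not at hall
      have := hcert0 i O (kC0 i) w hw hmem hall
      rw [eval_X, hi] at this
      simp [Small] at this
    -- both halves have congruent images
    have hcong : ∀ ij, Small O (eval w (minorPoly (linPoly (Λ R')) (linPoly (Λ R₀)) ij)) := by
      intro ⟨a, b⟩
      obtain ⟨d₁, hd₁, e₁⟩ := hΛ R' T
      obtain ⟨d₂, hd₂, e₂⟩ := hΛ R₀ (T + R)
      obtain ⟨d₃, hd₃, e₃⟩ := hσw
      rw [add_zero] at e₂
      have hdiff : ∀ Q, Small O (Λ R₀ w Q - Λ R₀ (σ ∘ w) Q) := fun Q => by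
        rw [← Pi.sub_apply, ← map_sub, ← eval_linPoly, linPoly, map_sum]
        refine small_sum fun j _ => ?_
        rw [map_mul, eval_C, eval_X, Pi.sub_apply, Function.comp_apply]
        have h1 : Small O (w j - σ (w j)) := by simpa using (hσ _ (hmem j)).neg
        refine h1.mul_left ?_
        have h2 := kL R₀ Q (coeff_mem_allCoeffs (linPoly (Λ R₀) Q) (Finsupp.single j 1))
        rwa [linPoly, coeff_sum, Finset.sum_eq_single j (fun b _ hb => by
          rw [coeff_C_mul, coeff_X, if_neg (fun h => hb (Finsupp.single_left_injective one_ne_zero h)),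
            mul_zero]) (by simp), coeff_C_mul, coeff_X, if_pos rfl, mul_one] at h2
      have hzero : Λ R' w a * Λ R₀ (σ ∘ w) b - Λ R' w b * Λ R₀ (σ ∘ w) a = 0 := by
        simp only [w, map_smul, e₁]
        rw [e₃, map_smul, e₂]
        simp only [Pi.smul_apply, smul_eq_mul]
        ring
      have hΛw : ∀ Q, Λ R' w Q ∈ O := fun Q =>
        eval_linPoly (Λ R') Q w ▸ eval_mem_of_allCoeffs (kL R' Q) hmem
      have h3 := ((hdiff b).mul_left (hΛw a)).sub ((hdiff a).mul_left (hΛw b))
      rw [eval_minorPoly, eval_linPoly, eval_linPoly, eval_linPoly, eval_linPoly]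
      convert h3 using 1
      linear_combination hzero
    have hur : CongLine O u (r R') := fun a b => by
      have := hcert1 ⟨R', hR0⟩ (a, b) O (kC1 ⟨R', hR0⟩ (a, b)) w hw hmem hcong
      rwa [eval_minorPoly, eval_C, eval_C] at this
    refine ⟨u, hu, hur.not_small hr hri hi₁, hur, ?_⟩
    obtain ⟨f, hf, hf'⟩ := hline T
    refine ⟨κ ^ 4 * f, mul_ne_zero (pow_ne_zero _ hκ) hf, funext fun Q => ?_⟩
    show eval (κ • coord (M + G₀) s' T) (F₄ Q) = _
    rw [eval_smul_of_isHomogeneous (hhom Q), congrFun hf' Q]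
    exact (mul_assoc _ _ _).symm
  obtain ⟨u, hu, hui, hur, hul⟩ := main Q hQ
  obtain ⟨v, hv, hvi, hvr, hvl⟩ := main (Q + A) hQA
  -- the parallelogram with rational shift
  obtain ⟨κ, hκ, hmem, i, hi⟩ := exists_primitive O (coord_ne_zero hM' hs' (Q + Q + A))
  set w := κ • coord (M + G₀) s' (Q + Q + A)
  have hw : w ∈ imgSet (M + G₀) s' := smul_mem_imgSet (coord_mem_imgSet _ _ _) κ
  set t := LA (pairs w) * (c * c)
  have ht : SameLine t (v * u) := by
    refine SameLine.trans ?_ (hvl.mul hul).symm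
    obtain ⟨a, ha, ha'⟩ := hLA (Q + Q + A)
    refine ⟨κ ^ 2 * a, mul_ne_zero (pow_ne_zero _ hκ) ha, funext fun j => ?_⟩
    simp only [t, w, pairs_smul, map_smul, ha', parFun, add_sub_cancel_right,
      show Q + Q + A + A = Q + A + (Q + A) by abel, Pi.smul_apply, Pi.mul_apply, smul_eq_mul]
    ring
  obtain ⟨d, -, hd⟩ := ht
  have hto : ∀ j, t j ∈ O := fun j => by
    show (LA (pairs w) * (c * c)) j ∈ O
    rw [← eval_quadPoly]
    exact eval_mem_of_allCoeffs (kA j) hmem
  have hdO : d ∈ O := by
    have h1 : t (i₀ R') * (v (i₀ R'))⁻¹ * (u (i₀ R'))⁻¹ = d := by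
      have hv0 : v (i₀ R') ≠ 0 := fun h0 => hvi (h0 ▸ small_zero O)
      have hu0 : u (i₀ R') ≠ 0 := fun h0 => hui (h0 ▸ small_zero O)
      rw [congrFun hd, Pi.smul_apply, Pi.mul_apply, smul_eq_mul]
      field_simp
    exact h1 ▸ mul_mem (mul_mem (hto _) (inv_mem_of_not_small hvi)) (inv_mem_of_not_small hui)
  have hsmall := hcert2 R' i O (kC2 R' i) w hw hmem fun ⟨a, b⟩ => by
    rw [eval_minorPoly, eval_quadPoly, eval_quadPoly, eval_C, eval_C]
    have h1 := ((hvr.mul hur hv hr hu hr) a b).mul_left hdO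
    convert h1 using 1
    show t a * _ - t b * _ = _
    rw [congrFun hd a, congrFun hd b]
    simp only [Pi.smul_apply, smul_eq_mul]
    ring
  rw [eval_X, hi] at hsmall
  simp [Small] at hsmall

end FermatAgent.MW
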