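import Fermat.Agent.MW.Height
import Fermat.Agent.ModCurve.Points.GenusBar
import Fermat.Agent.JacCharts.FieldOfDef
import Mathlib.RingTheory.Finiteness.Basic
import Mathlib.GroupTheory.Finiteness

/-!
# The rational points of `J₀(N)` are finitely generated
-/

set_option autoImplicit false
set_option synthInstance.maxHeartbeats 200000

noncomputable section

open AlgebraicCurve ModularCurve FermatAgent.Curve

namespace FermatAgent.MW

local notation "Qb" => AlgebraicClosure ℚ
local notation "GQ" => AlgebraicClosure ℚ ≃ₐ[ℚ] AlgebraicClosure ℚ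

/-- The Galois data of `X₀(N)`. -/
def jZeroData (N : ℕ) [NeZero N] : GaloisData Qb (modularFunctionFieldBar N) where
  act := arithmeticGalois (modularFunctionFieldFull N)
  baseAut_act _ _ := rfl
  exists_field f := by
    obtain ⟨E, hE, h⟩ := JacCharts.exists_numberField_coeff f
    refine ⟨E, hE, fun σ hσ => Subtype.ext ?_⟩
    rw [coe_arithmeticGalois_smul]
    ext n
    rw [coeffMap_coeff]
    exact (IntermediateField.mem_fixingSubgroup_iff _ _).mp hσ _ (h n)

theorem fg_invariants_jZero (N : ℕ) [NeZero N] :
    AddGroup.FG ↥(FixedPoints.addSubgroup GQ (JZero N)) := by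
  obtain ⟨E, -, hfg⟩ := (jZeroData N).exists_field_fg
  have hle : ∀ x ∈ FixedPoints.addSubgroup GQ (JZero N), x ∈ (jZeroData N).rationalClasses E :=
    fun x hx σ _ => hx σ
  have : Module.Finite ℤ ((jZeroData N).rationalClasses E) :=
    Module.Finite.iff_addGroup_fg.mpr hfg
  let f : ↥(FixedPoints.addSubgroup GQ (JZero N)) →ₗ[ℤ] (jZeroData N).rationalClasses E :=
    (AddSubgroup.inclusion hle).toIntLinearMap
  have : Module.Finite ℤ ↥(FixedPoints.addSubgroup GQ (JZero N)) :=
    Module.Finite.of_injective f (AddSubgroup.inclusion_injective hle)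
  exact Module.Finite.iff_addGroup_fg.mp inferInstance

end FermatAgent.MW
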