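import Fermat.Agent.Duality.Global.SUnits
import Fermat.Agent.ExtVanish.InertiaLift
import Mathlib.GroupTheory.FiniteAbelian.Basic

/-!
# Finitely many quadratic characters unramified outside a finite set
-/

set_option autoImplicit false

open scoped Pointwise nonZeroDivisors

noncomputable section

namespace FermatAgent.MW

open IsDedekindDomain NumberField
open FermatAgent.Duality.Global (Over ord tUnits)

local notation "Qb" => AlgebraicClosure ℚ
local notation "GQ" => AlgebraicClosure ℚ ≃ₐ[ℚ] AlgebraicClosure ℚ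

attribute [local instance] FermatAgent.RT.isGalois_algClosureRat
  FermatAgent.Duality.Global.numberField_of_finite

variable {E : IntermediateField ℚ Qb} [FiniteDimensional ℚ E]

/-- Some finite set of primes is big for `2`. -/
theorem exists_isBig_two :
    ∃ T : Finset (HeightOneSpectrum (𝓞 E)), FermatAgent.Duality.Global.IsBig 2 T := by
  classical
  have : Fact (Nat.Prime 2) := ⟨Nat.prime_two⟩
  choose m hm using fun c : ClassGroup (𝓞 E) => show ∃ m : Multiset (HeightOneSpectrum (𝓞 E)),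
      ClassGroup.mk0 (FermatAgent.CFT.idealOfMultiset E m) = c by
    obtain ⟨I, hI⟩ := ClassGroup.mk0_surjective c
    obtain ⟨m, rfl⟩ := (FermatAgent.CFT.idealOfMultiset_bijective E).surjective I
    exact ⟨m, hI⟩
  refine ⟨Finset.univ.biUnion fun c => (m c).toFinset,
    FermatAgent.Duality.Global.isBig_of_closure_eq_top (eq_top_iff.2 fun c _ =>
      Subgroup.mem_sup_left ?_)⟩
  rw [← hm c, FermatAgent.CFT.idealOfMultiset, map_multiset_prod, Multiset.map_map]
  refine multiset_prod_mem _ fun x hx => ?_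
  obtain ⟨P, hP, rfl⟩ := Multiset.mem_map.1 hx
  exact Subgroup.subset_closure ⟨P, Finset.mem_coe.2 (Finset.mem_biUnion.2
    ⟨c, Finset.mem_univ _, Multiset.mem_toFinset.2 hP⟩), rfl⟩

/-- A square root fixed by inertia comes from an element of even order. -/
theorem two_dvd_ord_of_inertia {A : ValuationSubring Qb} {P : HeightOneSpectrum (𝓞 E)}
    (h : Over E A P) {α : Qb} {d : Eˣ} (hα : α ^ 2 = ((d : E) : Qb)) {σ₀ : GQ}
    (hσ₀ : σ₀ ∈ E.fixingSubgroup) (hσα : σ₀ α = -α)
    (hI : ∀ τ ∈ A.inertiaSubgroupIn ℚ, τ ∈ E.fixingSubgroup → τ α = α) : (2 : ℤ) ∣ ord P d := by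
  classical
  obtain ⟨l, hl, hlA⟩ := h.1
  have hE : ∀ c : E, σ₀ (c : Qb) = c := fun c =>
    (IntermediateField.mem_fixingSubgroup_iff _ _).mp hσ₀ _ c.2
  have hα0 : α ≠ 0 := fun h0 => by
    rw [h0, zero_pow two_ne_zero] at hα
    exact d.ne_zero (Subtype.ext hα.symm)
  by_contra hodd
  -- the valuation of the root is not that of an element of the field
  have hval : ∀ c : E, A.valuation α ≠ A.valuation (c : Qb) := fun c hc => by
    have hc0 : c ≠ 0 := fun h0 => by simp [h0, hα0] at hc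
    have h2 : A.valuation ((d : E) : Qb) = A.valuation (((Units.mk0 c hc0 ^ 2 : Eˣ) : E) : Qb) := by
      rw [← hα, map_pow, hc, Units.val_pow_eq_pow_val, Units.val_mk0, SubmonoidClass.coe_pow,
        map_pow]
    rw [h.val_eq_iff, FermatAgent.Duality.Global.ord_pow] at h2
    exact hodd ⟨_, h2⟩
  -- the field generated by the root
  set L : IntermediateField E Qb := IntermediateField.adjoin E {α}
  have hint : IsIntegral E α := IsIntegral.of_pow two_pos (hα ▸ isIntegral_algebraMap)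
  have hdec : ∀ x ∈ L, ∃ a b : E, x = (a : Qb) + (b : Qb) * α := fun x hx => by
    rw [← IntermediateField.mem_toSubalgebra,
      IntermediateField.adjoin_simple_toSubalgebra_of_isAlgebraic hint.isAlgebraic] at hx
    induction hx using Algebra.adjoin_induction with
    | mem y hy => exact ⟨0, 1, by simp [Set.mem_singleton_iff.mp hy]⟩
    | algebraMap c =>
      exact ⟨c, 0, (show algebraMap E Qb c = (c : Qb) from rfl).trans (by simp)⟩
    | add y z _ _ hy hz =>
      obtain ⟨a, b, rfl⟩ := hy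
      obtain ⟨a', b', rfl⟩ := hz
      exact ⟨a + a', b + b', by push_cast; ring⟩
    | mul y z _ _ hy hz =>
      obtain ⟨a, b, rfl⟩ := hy
      obtain ⟨a', b', rfl⟩ := hz
      refine ⟨a * a' + b * b' * d, a * b' + b * a', ?_⟩
      push_cast
      linear_combination (b : Qb) * b' * hα
  have hσdec : ∀ a b : E, σ₀ ((a : Qb) + b * α) = a - b * α := fun a b => by
    rw [map_add, map_mul, hE, hE, hσα]; ring
  have : FiniteDimensional E L := IntermediateField.adjoin.finiteDimensional hint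
  have : FiniteDimensional ℚ L := Module.Finite.trans E L
  have : NumberField L := ⟨⟩
  let i : L →ₐ[ℚ] Qb := L.val.restrictScalars ℚ
  have hmem : ∀ x : L, σ₀ (x : Qb) ∈ L := fun x => by
    obtain ⟨a, b, hx⟩ := hdec _ x.2
    rw [hx, hσdec]
    exact sub_mem (L.algebraMap_mem a)
      (mul_mem (L.algebraMap_mem b) (IntermediateField.mem_adjoin_simple_self E α))
  let f : L →ₐ[ℚ] L :=
    { toFun := fun x => ⟨σ₀ (x : Qb), hmem x⟩
      map_one' := Subtype.ext (map_one σ₀)
      map_mul' := fun x y => Subtype.ext (map_mul σ₀ _ _)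
      map_zero' := Subtype.ext (map_zero σ₀)
      map_add' := fun x y => Subtype.ext (map_add σ₀ _ _)
      commutes' := fun q => Subtype.ext (σ₀.commutes q) }
  let σ : L ≃ₐ[ℚ] L := AlgEquiv.ofBijective f (Algebra.IsAlgebraic.algHom_bijective f)
  let ι : 𝓞 L →+* integralClosure ℤ Qb :=
    (i.toRingHom.comp (algebraMap (𝓞 L) L)).codRestrict (integralClosure ℤ Qb).toSubring
      fun x => x.isIntegral_coe.map (i.restrictScalars ℤ)
  have hQ : ∀ x : 𝓞 L, x ∈ (FermatAgent.RT.centre A).comap ι ↔ i (x : L) ∈ A.nonunits := fun x => by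
    rw [Ideal.mem_comap, FermatAgent.RT.mem_centre_iff]
    rfl
  have hσI : σ ∈ ((FermatAgent.RT.centre A).comap ι).inertia (L ≃ₐ[ℚ] L) := fun x => by
    show σ • x - x ∈ (FermatAgent.RT.centre A).comap ι
    rw [hQ]
    obtain ⟨a, b, hab⟩ := hdec _ (x : L).2
    have hdiff : i ((σ • x - x : 𝓞 L) : L) = -(2 * ((b : Qb) * α)) := by
      show σ₀ (((x : L) : Qb)) - ((x : L) : Qb) = _
      rw [hab, hσdec]; ring
    rw [hdiff, ValuationSubring.mem_nonunits_iff, Valuation.map_neg, map_mul]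
    have h2 : A.valuation (2 : Qb) ≤ 1 :=
      (A.valuation_le_one_iff _).mpr (ofNat_mem A 2)
    refine (mul_le_of_le_one_left zero_le h2).trans_lt ?_
    rcases eq_or_ne b 0 with rfl | hb
    · simp
    have hb' : A.valuation (b : Qb) ≠ 0 := (_root_.map_ne_zero _).mpr (by simpa using hb)
    rw [map_mul]
    by_contra hge
    rw [not_lt] at hge
    rcases hge.eq_or_lt with h1 | h1
    · exact hval b⁻¹ (by rw [IntermediateField.coe_inv, map_inv₀]; exact eq_inv_of_mul_eq_one_right h1.symm)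
    have hxle : A.valuation ((x : L) : Qb) ≤ 1 :=
      (A.valuation_le_one_iff _).mpr (FermatAgent.RT.mem_of_isIntegral_int A (ι x).2)
    rw [hab] at hxle
    by_cases he : A.valuation (a : Qb) = A.valuation ((b : Qb) * α)
    · refine hval (a / b) ?_
      rw [IntermediateField.coe_div, map_div₀, he, map_mul, mul_div_cancel_left₀ _ hb']
    · rw [Valuation.map_add_of_distinct_val _ he, max_le_iff, map_mul] at hxle
      exact absurd hxle.2 (not_le.mpr h1)
  obtain ⟨τ, hτ, hτx⟩ := FermatAgent.ExtVanish.exists_inertia_lift_at i hl hlA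
    ((FermatAgent.RT.centre A).comap ι) hQ σ hσI
  have hτE : τ ∈ E.fixingSubgroup := by
    rw [IntermediateField.mem_fixingSubgroup_iff]
    intro c hc
    exact (hτx ⟨c, L.algebraMap_mem ⟨c, hc⟩⟩).trans (hE ⟨c, hc⟩)
  have h1 : τ α = σ₀ α := hτx ⟨α, IntermediateField.mem_adjoin_simple_self E α⟩
  rw [hI τ hτ hτE, hσα] at h1
  exact hα0 (CharZero.eq_neg_self_iff.mp h1)

theorem eq_one_of_ne_zero : ∀ z : ZMod 2, z ≠ 0 → z = 1 := by decide

/-- The quadratic character of a square root. -/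
def signOf (r : Qb) : E.fixingSubgroup → ZMod 2 :=
  fun σ => if (σ : GQ) r = r then 0 else 1

/-- Finitely many characters of exponent two of a finite level are unramified outside `T`. -/
theorem finite_unramified_signs (T : Finset (HeightOneSpectrum (𝓞 E))) :
    {χ : E.fixingSubgroup → ZMod 2 | (∀ σ τ, χ (σ * τ) = χ σ + χ τ) ∧
      (∃ L : IntermediateField ℚ Qb, FiniteDimensional ℚ L ∧
        ∀ σ : E.fixingSubgroup, (σ : GQ) ∈ L.fixingSubgroup → χ σ = 0) ∧
      ∀ (A : ValuationSubring Qb) (P : HeightOneSpectrum (𝓞 E)), Over E A P → P ∉ T →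
        ∀ σ : E.fixingSubgroup, (σ : GQ) ∈ A.inertiaSubgroupIn ℚ → χ σ = 0}.Finite := by
  classical
  have : Fact (Nat.Prime 2) := ⟨Nat.prime_two⟩
  obtain ⟨T₀, hT₀⟩ := exists_isBig_two (E := E)
  set T' := T ∪ T₀
  have hbig := hT₀.mono (T' := T') Finset.subset_union_right
  have := FermatAgent.Duality.Global.finite_tUnits (T := T')
  have : Group.FG (tUnits T') := GroupFG.iff_add_fg.mpr (Module.Finite.iff_addGroup_fg.mp ‹_›)
  set sq : Subgroup (tUnits T') := (powMonoidHom 2).range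
  have : Group.FG (tUnits T' ⧸ sq) :=
    Group.fg_of_surjective (QuotientGroup.mk'_surjective sq)
  have : Finite (tUnits T' ⧸ sq) := CommGroup.finite_of_fg_isMulTorsion _ fun x => by
    obtain ⟨e, rfl⟩ := QuotientGroup.mk_surjective x
    exact isOfFinOrder_iff_pow_eq_one.mpr ⟨2, two_pos, by
      rw [← QuotientGroup.mk_pow, QuotientGroup.eq_one_iff]; exact ⟨e, rfl⟩⟩
  choose root hroot using fun q : tUnits T' ⧸ sq =>
    IsAlgClosed.exists_pow_nat_eq (((q.out.1 : E) : Qb)) two_pos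
  refine ((Set.finite_range fun q => signOf (E := E) (root q)).insert 0).subset ?_
  rintro χ ⟨hadd, ⟨L, hL, hLχ⟩, hI⟩
  rcases eq_or_ne χ 0 with rfl | hne
  · exact Set.mem_insert _ _
  refine Set.mem_insert_of_mem _ ?_
  obtain ⟨σ₁, hσ₁⟩ := Function.ne_iff.mp hne
  have h2 : ∀ z : ZMod 2, z ≠ 0 → z = 1 := eq_one_of_ne_zero
  have h1 : χ 1 = 0 := by simpa using hadd 1 1
  -- the kernel
  let H : Subgroup GQ :=
    { carrier := {g | ∃ hg : g ∈ E.fixingSubgroup, χ ⟨g, hg⟩ = 0}
      one_mem' := ⟨one_mem _, h1⟩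
      mul_mem' := fun {g g'} ⟨hg, hg0⟩ ⟨hg', hg'0⟩ => ⟨mul_mem hg hg', by
        have := hadd ⟨g, hg⟩ ⟨g', hg'⟩
        rwa [hg0, hg'0, add_zero] at this⟩
      inv_mem' := fun {g} ⟨hg, hg0⟩ => ⟨inv_mem hg, by
        have := hadd ⟨g, hg⟩⁻¹ ⟨g, hg⟩
        rw [inv_mul_cancel, h1, hg0, add_zero] at this
        exact this.symm⟩ }
  have hopen : IsOpen (H : Set GQ) := Subgroup.isOpen_mono
    (H₁ := (E ⊔ L).fixingSubgroup) (fun g hg =>
      ⟨IntermediateField.fixingSubgroup_antitone le_sup_left hg,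
        hLχ ⟨g, _⟩ (IntermediateField.fixingSubgroup_antitone le_sup_right hg)⟩)
    (IntermediateField.fixingSubgroup_isOpen _)
  have hfix : (IntermediateField.fixedField H).fixingSubgroup = H :=
    InfiniteGalois.fixingSubgroup_fixedField ⟨H, Subgroup.isClosed_of_isOpen H hopen⟩
  obtain ⟨β, hβ, hβne⟩ : ∃ β ∈ IntermediateField.fixedField H, (σ₁ : GQ) β ≠ β := by
    by_contra hall
    push Not at hall
    have : (σ₁ : GQ) ∈ H := hfix ▸ (IntermediateField.mem_fixingSubgroup_iff _ _).mpr hall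
    exact hσ₁ this.2
  have hβH : ∀ g : E.fixingSubgroup, χ g = 0 → (g : GQ) β = β := fun g hg =>
    (IntermediateField.mem_fixedField_iff _ _).mp hβ (g : GQ) ⟨g.2, hg⟩
  set α := β - (σ₁ : GQ) β
  have hα0 : α ≠ 0 := sub_ne_zero.mpr (Ne.symm hβne)
  have hσ1 : χ σ₁ = 1 := h2 _ hσ₁
  have hcoset : ∀ g g' : E.fixingSubgroup, χ g = χ g' → (g : GQ) β = (g' : GQ) β := fun g g' hgg => by
    have hc : χ (g'⁻¹ * g) = 0 := by
      have := hadd g'⁻¹ g'
      rw [inv_mul_cancel, h1] at this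
      rw [hadd, hgg]
      exact this.symm
    have h3 : (g' : GQ) (((g'⁻¹ * g : E.fixingSubgroup) : GQ) β) = (g' : GQ) β :=
      congrArg (g' : GQ) (hβH _ hc)
    rwa [Subgroup.coe_mul, Subgroup.coe_inv, ← AlgEquiv.mul_apply, mul_inv_cancel_left] at h3
  have hact : ∀ g : E.fixingSubgroup, (g : GQ) α = if χ g = 0 then α else -α := fun g => by
    have e : (g : GQ) α = (g : GQ) β - ((g * σ₁ : E.fixingSubgroup) : GQ) β := map_sub (g : GQ) _ _
    split
    · next hg => rw [e, hcoset (g * σ₁) σ₁ (by rw [hadd, hg, zero_add]), hβH g hg]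
    · next hg =>
      have hg1 : χ g = 1 := h2 _ hg
      rw [e, hcoset g σ₁ (hg1.trans hσ1.symm), hβH (g * σ₁) (by rw [hadd, hg1, hσ1]; rfl), neg_sub]
  have hσα : (σ₁ : GQ) α = -α := (hact σ₁).trans (if_neg (fun h : χ σ₁ = 0 => hσ₁ h))
  have hαE : α ^ 2 ∈ E := by
    rw [← InfiniteGalois.fixedField_fixingSubgroup E, IntermediateField.mem_fixedField_iff]
    intro g hg
    rw [map_pow, show g α = _ from hact ⟨g, hg⟩]
    split <;> ring
  let d : Eˣ := Units.mk0 ⟨α ^ 2, hαE⟩ fun h0 => pow_ne_zero 2 hα0 (congrArg Subtype.val h0)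
  obtain ⟨e, he, y, hy⟩ := hbig.exists_tUnit_mul_pow (x := d) fun P hP => by
    obtain ⟨A, hA⟩ := FermatAgent.Duality.Global.exists_place P
    exact_mod_cast two_dvd_ord_of_inertia hA (α := α) (d := d) rfl σ₁.2 hσα fun τ hτ hτE => by
      rw [show τ α = _ from hact ⟨τ, hτE⟩,
        if_pos (hI A P hA (fun h => hP (Finset.mem_union_left _ h)) ⟨τ, hτE⟩ hτ)]
  obtain ⟨z, hz⟩ : ∃ z : tUnits T', (QuotientGroup.mk ⟨e, he⟩ : tUnits T' ⧸ sq).out = ⟨e, he⟩ * z ^ 2 := by
    obtain ⟨⟨w, z, rfl⟩, hw⟩ := QuotientGroup.mk_out_eq_mul sq ⟨e, he⟩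
    exact ⟨z, hw⟩
  set q : tUnits T' ⧸ sq := QuotientGroup.mk ⟨e, he⟩
  refine ⟨q, funext fun g => ?_⟩
  set r := root q
  have hfixE : ∀ c : E, (g : GQ) (c : Qb) = c := fun c =>
    (IntermediateField.mem_fixingSubgroup_iff _ _).mp g.2 _ c.2
  have hrα : (α * (((z.1 : E) : Qb))) ^ 2 = (r * ((y : E) : Qb)) ^ 2 := by
    have h3 : ((q.out.1 : E) : Qb) = ((e : E) : Qb) * ((z.1 : E) : Qb) ^ 2 := by
      have := congrArg (fun x : tUnits T' => ((x.1 : E) : Qb)) hz
      simpa using this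
    have h4 : α ^ 2 = ((e : E) : Qb) * ((y : E) : Qb) ^ 2 := by
      have := congrArg (fun x : Eˣ => ((x : E) : Qb)) hy
      simpa [d] using this
    rw [mul_pow, mul_pow, hroot, h3, h4]; ring
  have hy0 : ((y : E) : Qb) ≠ 0 := by simp
  have hr : (g : GQ) r = r ↔ χ g = 0 := by
    have h5 : α * ((z.1 : E) : Qb) = r * ((y : E) : Qb) ∨ α * ((z.1 : E) : Qb) = -(r * ((y : E) : Qb)) :=
      sq_eq_sq_iff_eq_or_eq_neg.mp hrα
    have hz0 : ((z.1 : E) : Qb) ≠ 0 := by simp
    have h6 : (g : GQ) r = r ↔ (g : GQ) α = α := by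
      rcases h5 with h5 | h5 <;> constructor <;> intro hh
      all_goals have h7 := congrArg (g : GQ) h5
      all_goals simp only [map_mul, map_neg, hfixE, hh] at h7
      all_goals first
        | exact mul_right_cancel₀ hz0 (h7.trans h5.symm)
        | exact mul_right_cancel₀ hy0 (h7.symm.trans h5)
        | exact mul_right_cancel₀ hy0 (neg_injective (h7.symm.trans h5))
    rw [h6, hact]
    refine ⟨fun hh => ?_, fun hh => if_pos hh⟩
    by_contra hne'
    rw [if_neg hne'] at hh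
    exact hα0 (CharZero.neg_eq_self_iff.mp hh)
  show (if (g : GQ) r = r then (0 : ZMod 2) else 1) = χ g
  split
  · next h => exact (hr.mp h).symm
  · next h => exact (h2 _ (hr.not.mp h)).symm

end FermatAgent.MW
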