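import Fermat.Agent.MW.Append
import Fermat.Agent.MW.Cofactor

/-!
# Coordinates along lines `P ↦ a + [P - P₁]`
-/

set_option autoImplicit false

noncomputable section

open AlgebraicCurve FermatAgent.Curve

namespace FermatAgent.MW

variable {K F : Type*} [Field K] [Field F] [Algebra K F] [IsAlgClosed K] [IsFunctionField1 K F]

/-- The class of `P - Q`. -/
def classOf (P Q : Place K F) : Pic0 K F :=
  Pic0.mk ⟨Finsupp.single P 1 - Finsupp.single Q 1, Divisor.mem_degZero.mpr (by
    rw [map_sub, RR.degree_single, RR.degree_single, sub_self])⟩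

theorem classOf_self (P : Place K F) : classOf P P = 0 := by
  refine (mk_eq_of_sub_mem_principal (D' := 0) ?_).trans rfl
  rw [ZeroMemClass.coe_zero, sub_zero]
  show Finsupp.single P (1 : ℤ) - Finsupp.single P 1 ∈ _
  rw [sub_self]
  exact zero_mem _

theorem add_classOf_eq (y : Pic0 K F) (P Q : Place K F) :
    y + classOf P Q = Pic0.mk ⟨repDiv y + (Finsupp.single P 1 - Finsupp.single Q 1),
      Divisor.mem_degZero.mpr (by
        rw [map_add, degree_repDiv, map_sub, RR.degree_single, RR.degree_single]; ring)⟩ := by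
  conv_lhs => rw [← mk_repDiv y]
  rfl

/-- Value at a place as a ring homomorphism. -/
def evalHom (P : Place K F) : P.toValuationSubring →+* K where
  toFun f := valueAt P (f : F)
  map_one' := by
    show valueAt P (1 : F) = 1
    rw [← map_one (algebraMap K F), valueAt_algebraMap]
  map_mul' f g := valueAt_mul P f.2 g.2
  map_zero' := by
    show valueAt P (0 : F) = 0
    rw [← map_zero (algebraMap K F), valueAt_algebraMap]
  map_add' f g := valueAt_add P f.2 g.2

theorem valueAt_mul_of_ord_eq {D : Divisor K F} (f : riemannRochSpace D) {σ : F} (hσ : σ ≠ 0)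
    {P : Place K F} (h : P.ord σ = D P) :
    (f : F) * σ ∈ P.toValuationSubring ∧
      valueAt P ((f : F) * σ) = evLin D f P * unitPart σ P := by
  have e : (f : F) * σ = ((f : F) * triv P (D P)) * (σ * triv P (-P.ord σ)) := by
    rw [mul_mul_mul_comm, ← triv_add, h, add_neg_cancel, triv_zero, mul_one]
  rw [e, evLin_apply, unitPart, valueAt_mul P (mul_triv_mem f.2 P) (mul_triv_neg_ord_mem hσ P)]
  exact ⟨Subring.mul_mem P.toValuationSubring.toSubring (mul_triv_mem f.2 P)
    (mul_triv_neg_ord_mem hσ P), rfl⟩

/-- Coordinates of the annihilator of a subspace of functions on a finite set. -/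
def annCoeff {X : Type*} [Finite X] (W : Submodule K (X → K))
    (m : Fin (Module.finrank K ((X → K) ⧸ W))) (z : X) : K :=
  haveI := Classical.decEq X
  (Module.finBasis K ((X → K) ⧸ W)).repr (W.mkQ (Pi.single z 1)) m

omit [IsAlgClosed K] in
theorem mem_iff_forall_annCoeff {X : Type*} [Fintype X] (W : Submodule K (X → K)) (v : X → K) :
    v ∈ W ↔ ∀ m, ∑ z, annCoeff W m z * v z = 0 := by
  classical
  let b := Module.finBasis K ((X → K) ⧸ W)
  have e : ∀ m, b.repr (W.mkQ v) m = ∑ z, annCoeff W m z * v z := fun m => by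
    conv_lhs => rw [pi_eq_sum_univ' v]
    simp only [map_sum, map_smul, Finsupp.finsetSum_apply, Finsupp.smul_apply, smul_eq_mul]
    refine Finset.sum_congr rfl fun z _ => ?_
    rw [mul_comm, annCoeff]
  constructor
  · intro h m
    rw [← e, show W.mkQ v = 0 from (Submodule.Quotient.mk_eq_zero W).mpr h]
    simp
  · intro h
    refine (Submodule.Quotient.mk_eq_zero W).mp (b.repr.injective ?_)
    rw [map_zero]
    exact Finsupp.ext fun m => (e m).trans (h m)

/-- Alternating functions whose slice products with the slices of `det L(B)` land in `L(A + B)`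
are multiples of `det L(A)`. -/
theorem exists_eq_smul_of_mul_mem [CharZero K] {r : ℕ} {A B : Divisor K F}
    (hA : RR.ell A = r) (hB : RR.ell B = r) (hB' : 2 * (genusFF K F : ℤ) + 1 ≤ Divisor.degree B)
    {s : Finset (Place K F)} (hsA : (Divisor.degree A).toNat < s.card)
    (hsB : (Divisor.degree B).toNat < s.card) (hsAB : (Divisor.degree (A + B + B)).toNat < s.card)
    {w : (Fin r → s) → K} (hw : IsAlt w)
    (h : ∀ j Q i Q', (fun z : s => w (Function.update Q j z) *
        resTuple s (detL r B) (Function.update Q' i z)) ∈ resSpace (evSpace (A + B)) s) :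
    ∃ a : K, w = a • resTuple s (detL r A) := by
  classical
  have hup : ∀ (R : Fin r → s) (j : Fin r) (z : s),
      (fun l => ((Function.update R j z l : s) : Place K F)) =
        Function.update (fun l => (R l : Place K F)) j z := fun R j z => funext fun l => by
    rcases eq_or_ne l j with rfl | hl <;> simp [*]
  obtain ⟨I, hI, hI0⟩ := exists_tuple_forall_ne_zero (ι := Fin 1) (U := fun _ => evSpace B)
    (d := fun _ => (Divisor.degree B).toNat) (f := fun _ => detL r B)
    (fun _ => fewZeros_evSpace B) (fun _ => isSlice_detL hB) (fun _ => detL_ne_zero hB)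
    (s := s) (by simpa using hsB)
  have hres : IsResSlice (evSpace A) s w := fun j Q =>
    mem_resSpace_of_forall_mul hB' hsAB fun u hu => by
      rw [← span_slices hB (hI0 0)] at hu
      induction hu using Submodule.span_induction with
      | mem u hu =>
        obtain ⟨i, rfl⟩ := hu
        have := h j Q i fun l => ⟨I l, hI l⟩
        simp only [resTuple, hup] at this
        exact this
      | zero =>
        simp only [Pi.zero_apply, mul_zero]
        exact zero_mem _
      | add u v _ _ hu hv =>
        simp only [Pi.add_apply, mul_add]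
        exact Submodule.add_mem _ hu hv
      | smul c u _ hu =>
        simp only [Pi.smul_apply, smul_eq_mul, mul_left_comm _ c]
        exact Submodule.smul_mem _ c hu
  obtain ⟨W, hW, rfl⟩ := exists_isSlice_extension (fewZeros_evSpace A) hsA hres
  have hWA := isAlt_of_resTuple (fewZeros_evSpace A) hsA hW hw
  let b := Module.finBasisOfFinrankEq K (riemannRochSpace A)
    (show Module.finrank K (riemannRochSpace A) = r from hA)
  have e : detL r A = detFun fun i => evLin A (b i) := by
    rw [detL, evFun, dif_pos (show Module.finrank K (riemannRochSpace A) = r from hA)]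
  obtain ⟨J, hJ⟩ := Function.ne_iff.mp (detL_ne_zero hA)
  rw [e] at hJ ⊢
  refine ⟨W J / detFun (fun i => evLin A (b i)) J, ?_⟩
  conv_lhs => rw [exists_eq_smul_detFun (span_evLin_basis b) hW hWA hJ]
  rfl

omit [IsAlgClosed K] [IsFunctionField1 K F] in
theorem coe_update {r : ℕ} {s : Finset (Place K F)} (R : Fin r → s) (j : Fin r) (z : s) :
    (fun l => ((Function.update R j z l : s) : Place K F)) =
      Function.update (fun l => (R l : Place K F)) j z := funext fun l => by
  rcases eq_or_ne l j with rfl | hl <;> simp [*]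

theorem finite_setOf_ord_ne (D : Divisor K F) (σ : F) :
    {P : Place K F | P.ord σ ≠ D P}.Finite := by
  refine ((RR.finite_ord_ne_zero (K := K) σ).union D.support.finite_toSet).subset fun P hP => ?_
  by_contra hcon
  simp only [Set.mem_union, Set.mem_ofPred_eq, Finset.mem_coe, Finsupp.mem_support_iff, not_or,
    not_not] at hcon
  exact hP (hcon.1.trans hcon.2.symm)

/-- Regular coordinates near `P₁` along a line, on a sample avoiding `P₁`. -/
theorem exists_line_coords_of_notMem [CharZero K] {M : Divisor K F} (hM : IsBig M)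
    {s : Finset (Place K F)} (hs : Large M s) (a : Pic0 K F) {P₁ : Place K F} (hP₁ : P₁ ∉ s) :
    ∃ (f : (Fin (rk M) → s) → F) (U : Set (Place K F)), Uᶜ.Finite ∧ P₁ ∈ U ∧
      ∀ P ∈ U, (∀ Q, f Q ∈ P.toValuationSubring) ∧
        SameLine (fun Q => valueAt P (f Q)) (resTuple s (psi M (a + classOf P P₁))) := by
  classical
  have hM' : 3 * (genusFF K F : ℤ) + 1 ≤ Divisor.degree M := hM
  unfold Large at hs
  set r := rk M with hr
  have hrpos : 0 < r := by rw [hr, rk]; omega
  set D := repDiv a
  have hD : Divisor.degree D = 0 := degree_repDiv a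
  set G := M - D + Finsupp.single P₁ 1
  have hGd : Divisor.degree G = Divisor.degree M + 1 := by
    rw [map_add, map_sub, hD, RR.degree_single]; ring
  have hG : RR.ell G = r + 1 := by
    have h1 := RR.ell_eq_of_degree_ge (D := G) (by rw [hGd]; omega)
    rw [hr, rk]
    omega
  let Dp : Place K F → Divisor K F := fun P => D + (Finsupp.single P 1 - Finsupp.single P₁ 1)
  have hDp : ∀ P, Divisor.degree (Dp P) = 0 := fun P => by
    simp only [Dp, map_add, map_sub, hD, RR.degree_single]; ring
  set σ := triv P₁ (G P₁)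
  have hσ : σ ≠ 0 := triv_ne_zero _ _
  have hsl := isSlice_detL hG
  have hmem : ∀ Q : Fin r → s, (fun x => detL (r + 1) G
      (Fin.append (fun j => (Q j : Place K F)) ![x])) ∈ evSpace G := fun Q => by
    have := hsl (Fin.natAdd r 0) (Fin.append (fun j => (Q j : Place K F)) ![P₁])
    simp only [← append_update_right] at this
    have e : ∀ x : Place K F, ![x] = Function.update ![P₁] 0 x := fun x => by
      funext i; fin_cases i; simp
    rw [show (fun x => detL (r + 1) G (Fin.append (fun j => (Q j : Place K F)) ![x])) =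
      fun x => detL (r + 1) G (Fin.append (fun j => (Q j : Place K F)) (Function.update ![P₁] 0 x))
      from funext fun x => by rw [← e x]]
    exact this
  choose u hu using hmem
  let uF : (Fin r → s) → F := fun Q => (u Q : F) * σ
  let U₀ : Set (Place K F) := {P | P.ord σ = G P ∧ P ∉ s}
  have hU₀ : U₀ᶜ.Finite :=
    ((finite_setOf_ord_ne G σ).union s.finite_toSet).subset fun P hP => by
      simp only [U₀, Set.mem_compl_iff, Set.mem_ofPred_eq, not_and, not_not] at hP
      by_cases h : P.ord σ = G P
      · exact Or.inr (hP h)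
      · exact Or.inl h
  have hP₁U : P₁ ∈ U₀ := ⟨ord_triv _ _, hP₁⟩
  have huF : ∀ P ∈ U₀, ∃ κ : K, κ ≠ 0 ∧ ∀ Q, uF Q ∈ P.toValuationSubring ∧
      valueAt P (uF Q) = κ * resTuple s (detL r (M - Dp P)) Q := by
    intro P hP
    obtain ⟨hPσ, hPs⟩ := hP
    have e : G - setDiv {P} = M - Dp P := by
      simp only [G, Dp, setDiv, Finset.sum_singleton]; abel
    obtain ⟨c, hc0, hc⟩ := exists_detL_append (T := ![P]) hrpos (Function.injective_of_subsingleton _)
      (t := {P}) (fun Q => by simp [eq_comm]) hG
      (e ▸ ell_sub_eq_rk hM (hDp P))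
    have hunit : unitPart σ P ≠ 0 := fun h => by
      have := unitPart_mul_unitPart_inv hσ P
      rw [h, zero_mul] at this
      exact zero_ne_one this
    refine ⟨c * unitPart σ P, mul_ne_zero hc0 hunit, fun Q => ?_⟩
    obtain ⟨h1, h2⟩ := valueAt_mul_of_ord_eq (u Q) hσ hPσ
    refine ⟨h1, h2.trans ?_⟩
    rw [congrFun (hu Q) P, hc, Finset.prod_eq_one (fun j _ => chi_eq_one (by
      rw [setDiv_apply, if_neg]
      simp only [Finset.mem_singleton]
      exact fun h => hPs (h ▸ (Q j).2))), one_mul, e]
    show c * detL r (M - Dp P) _ * unitPart σ P = c * unitPart σ P * detL r (M - Dp P) _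
    ring
  -- the linear system
  let R2 := resSpace (evSpace (M + M)) s
  let ι := ((Fin r → s) × Equiv.Perm (Fin r)) ⊕
    (((Fin r × (Fin r → s)) × (Fin r × (Fin r → s))) × Fin (Module.finrank K ((s → K) ⧸ R2)))
  let A : ι → (Fin r → s) → F := Sum.elim
    (fun x t => (if t = x.1 ∘ x.2 then 1 else 0) -
      if t = x.1 then algebraMap K F ((Equiv.Perm.sign x.2 : ℤ) : K) else 0)
    (fun x t => ∑ z : s, if t = Function.update x.1.1.2 x.1.1.1 z then
      algebraMap K F (annCoeff R2 x.2 z) * uF (Function.update x.1.2.2 x.1.2.1 z) else 0)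
  have hAmem : ∀ P ∈ U₀, ∀ i t, A i t ∈ P.toValuationSubring := by
    intro P hP i t
    obtain ⟨κ, -, hκ⟩ := huF P hP
    cases i with
    | inl x =>
      refine sub_mem ?_ ?_
      · split
        · exact one_mem _
        · exact zero_mem _
      · split
        · exact P.algebraMap_mem' _
        · exact zero_mem _
    | inr x =>
      refine sum_mem fun z _ => ?_
      split
      · exact mul_mem (P.algebraMap_mem' _) (hκ _).1
      · exact zero_mem _
  let AK : Place K F → ι → (Fin r → s) → K := fun P i t => valueAt P (A i t)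
  have hrow : ∀ P ∈ U₀, ∀ κ : K, (∀ Q, uF Q ∈ P.toValuationSubring ∧
      valueAt P (uF Q) = κ * resTuple s (detL r (M - Dp P)) Q) → ∀ (w : (Fin r → s) → K) x,
      ∑ t, AK P x t * w t = x.elim
        (fun x => w (x.1 ∘ x.2) - ((Equiv.Perm.sign x.2 : ℤ) : K) * w x.1)
        (fun x => κ * ∑ z, annCoeff R2 x.2 z * (w (Function.update x.1.1.2 x.1.1.1 z) *
          resTuple s (detL r (M - Dp P)) (Function.update x.1.2.2 x.1.2.1 z))) := by
    intro P hP κ hκ w x
    let ev := evalHom P
    cases x with
    | inl x =>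
      have e : ∀ t, AK P (.inl x) t = (if t = x.1 ∘ x.2 then 1 else 0) -
          if t = x.1 then ((Equiv.Perm.sign x.2 : ℤ) : K) else 0 := fun t => by
        show valueAt P ((if t = x.1 ∘ x.2 then (1 : F) else 0) -
          if t = x.1 then algebraMap K F ((Equiv.Perm.sign x.2 : ℤ) : K) else 0) = _
        rw [valueAt_sub P (by split <;> simp [zero_mem, one_mem])
          (by split; exacts [P.algebraMap_mem' _, zero_mem _])]
        congr 1
        · split
          · exact map_one ev
          · exact map_zero ev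
        · split
          · exact valueAt_algebraMap P _
          · exact map_zero ev
      simp only [e, sub_mul, ite_mul, one_mul, zero_mul, Finset.sum_sub_distrib,
        Finset.sum_ite_eq', Finset.mem_univ, if_true, Sum.elim_inl]
    | inr x =>
      have e : ∀ t, AK P (.inr x) t = ∑ z : s, if t = Function.update x.1.1.2 x.1.1.1 z then
          annCoeff R2 x.2 z * (κ * resTuple s (detL r (M - Dp P))
            (Function.update x.1.2.2 x.1.2.1 z)) else 0 := fun t => by
        have hm : ∀ z : s, (if t = Function.update x.1.1.2 x.1.1.1 z then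
            algebraMap K F (annCoeff R2 x.2 z) * uF (Function.update x.1.2.2 x.1.2.1 z) else 0) ∈
            P.toValuationSubring := fun z => by
          split
          · exact mul_mem (P.algebraMap_mem' _) (hκ _).1
          · exact zero_mem _
        show valueAt P (∑ z : s, _) = _
        have := map_sum ev (fun z => (⟨_, hm z⟩ : P.toValuationSubring)) Finset.univ
        simp only [ev, evalHom, RingHom.coe_mk, MonoidHom.coe_mk, OneHom.coe_mk,
          AddSubmonoidClass.coe_finsetSum] at this
        rw [this]
        refine Finset.sum_congr rfl fun z _ => ?_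
        split
        · rw [valueAt_mul P (P.algebraMap_mem' _) (hκ _).1, valueAt_algebraMap, (hκ _).2]
        · exact map_zero ev
      simp only [e, Finset.sum_mul, ite_mul, zero_mul, Sum.elim_inr, Finset.mul_sum]
      rw [Finset.sum_comm]
      refine Finset.sum_congr rfl fun z _ => ?_
      rw [Finset.sum_ite_eq', if_pos (Finset.mem_univ _)]
      ring
  have hker : ∀ P ∈ U₀, (∀ x, ∑ t, AK P x t * resTuple s (detL r (M + Dp P)) t = 0) ∧
      ∀ w : (Fin r → s) → K, (∀ x, ∑ t, AK P x t * w t = 0) →
        ∃ c : K, w = c • resTuple s (detL r (M + Dp P)) := by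
    intro P hP
    obtain ⟨κ, hκ0, hκ⟩ := huF P hP
    have hAB : M + Dp P + (M - Dp P) = M + M := by abel
    constructor
    · intro x
      rw [hrow P hP κ hκ]
      cases x with
      | inl x =>
        rw [Sum.elim_inl, sub_eq_zero]
        show detL r _ ((fun j => (x.1 j : Place K F)) ∘ x.2) = _
        rw [(isAlt_detL r _).1, zsmul_eq_mul]
        rfl
      | inr x =>
        rw [Sum.elim_inr, mul_eq_zero]
        refine Or.inr ((mem_iff_forall_annCoeff R2 _).mp ?_ x.2)
        have key := mul_mem_evSpace (isSlice_detL (ell_add_eq_rk hM (hDp P)) x.1.1.1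
          (fun j => (x.1.1.2 j : Place K F))) (isSlice_detL (ell_sub_eq_rk hM (hDp P)) x.1.2.1
          (fun j => (x.1.2.2 j : Place K F)))
        rw [hAB] at key
        refine ⟨_, key, funext fun z => ?_⟩
        show detL r (M + Dp P) (Function.update _ _ (z : Place K F)) *
          detL r (M - Dp P) (Function.update _ _ (z : Place K F)) = _
        simp only [resTuple, coe_update]
        rfl
    · intro w hw
      have hw1 : ∀ (Q : Fin r → s) (π : Equiv.Perm (Fin r)), w (Q ∘ π) = (Equiv.Perm.sign π : ℤ) • w Q := fun Q π => by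
        have := hw (.inl (Q, π))
        rw [hrow P hP κ hκ, Sum.elim_inl, sub_eq_zero] at this
        rw [zsmul_eq_mul]
        exact this
      have hdA : Divisor.degree (M + Dp P) = Divisor.degree M := by rw [map_add, hDp, add_zero]
      have hdB : Divisor.degree (M - Dp P) = Divisor.degree M := by rw [map_sub, hDp, sub_zero]
      refine exists_eq_smul_of_mul_mem (ell_add_eq_rk hM (hDp P)) (ell_sub_eq_rk hM (hDp P))
        (by omega) (by omega) (by omega) (by rw [map_add, map_add, hdA, hdB]; omega)
        ⟨hw1, fun Q i j hij hQ => ?_⟩ fun j Q i Q' => ?_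
      · have h2 := hw1 Q (Equiv.swap i j)
        have e : Q ∘ Equiv.swap i j = Q := funext fun l => by
          rcases eq_or_ne l i with rfl | hi
          · simp [hQ]
          rcases eq_or_ne l j with rfl | hj
          · simp [hQ]
          · simp [Equiv.swap_apply_of_ne_of_ne hi hj]
        rw [e, Equiv.Perm.sign_swap hij, Units.val_neg, Units.val_one, neg_one_zsmul] at h2
        exact CharZero.eq_neg_self_iff.mp h2
      · rw [hAB]
        refine (mem_iff_forall_annCoeff R2 _).mpr fun m => ?_
        have := hw (.inr (((j, Q), (i, Q')), m))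
        rw [hrow P hP κ hκ, Sum.elim_inr] at this
        exact (mul_eq_zero.mp this).resolve_left hκ0
  obtain ⟨c, hc⟩ : ∃ c, resTuple s (detL r (M + Dp P₁)) c ≠ 0 := by
    obtain ⟨Q, hQ, hne⟩ := exists_tuple_forall_ne_zero (ι := Fin 1)
      (U := fun _ => evSpace (M + Dp P₁)) (d := fun _ => (Divisor.degree (M + Dp P₁)).toNat)
      (f := fun _ => detL r (M + Dp P₁)) (fun _ => fewZeros_evSpace _)
      (fun _ => isSlice_detL (ell_add_eq_rk hM (hDp P₁)))
      (fun _ => detL_ne_zero (ell_add_eq_rk hM (hDp P₁))) (s := s)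
      (by rw [Fin.sum_univ_one, map_add, hDp]; omega)
    exact ⟨fun j => ⟨Q j, hQ j⟩, hne 0⟩
  obtain ⟨S, hS⟩ := exists_det_cofRows_ne_zero hc (hker P₁ hP₁U).2
  set δ := (cofRows A S c).det
  have hval : ∀ P ∈ U₀, δ ∈ P.toValuationSubring ∧
      valueAt P δ = (cofRows (AK P) S c).det ∧ ∀ t, cofVec A S c t ∈ P.toValuationSubring ∧
        valueAt P (cofVec A S c t) = cofVec (AK P) S c t := by
    intro P hP
    let AO : ι → (Fin r → s) → P.toValuationSubring := fun i t => ⟨A i t, hAmem P hP i t⟩
    have h1 := det_cofRows_map P.toValuationSubring.subtype AO S c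
    have h2 := det_cofRows_map (evalHom P) AO S c
    have h3 := cofVec_map P.toValuationSubring.subtype AO S c
    have h4 := cofVec_map (evalHom P) AO S c
    refine ⟨?_, ?_, fun t => ⟨?_, ?_⟩⟩
    · show (cofRows (fun i t => P.toValuationSubring.subtype (AO i t)) S c).det ∈ _
      rw [← h1]
      exact ((cofRows AO S c).det).2
    · show valueAt P (cofRows (fun i t => P.toValuationSubring.subtype (AO i t)) S c).det = _
      rw [← h1]
      exact h2
    · show cofVec (fun i t => P.toValuationSubring.subtype (AO i t)) S c t ∈ _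
      rw [← h3]
      exact (cofVec AO S c t).2
    · show valueAt P (cofVec (fun i t => P.toValuationSubring.subtype (AO i t)) S c t) = _
      rw [← h3]
      exact h4 t
  let U : Set (Place K F) := {P | P ∈ U₀ ∧ valueAt P δ ≠ 0}
  have hδ0 : δ ≠ 0 := fun h => by
    apply hS
    rw [← (hval P₁ hP₁U).2.1, h]
    exact map_zero (evalHom P₁)
  refine ⟨fun Q => cofVec A S c Q * uF Q, U, ?_, ⟨hP₁U, by rw [(hval P₁ hP₁U).2.1]; exact hS⟩,
    fun P hP => ?_⟩
  · refine (hU₀.union (RR.finite_ord_ne_zero (K := K) δ)).subset fun P hP => ?_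
    by_cases h : P ∈ U₀
    · simp only [U, Set.mem_compl_iff, Set.mem_ofPred_eq, h, true_and, not_not] at hP
      refine Or.inr ?_
      rcases (valueAt_eq_zero_iff P (hval P h).1).mp hP with h' | h'
      · exact absurd h' hδ0
      · exact ne_of_gt h'
    · exact Or.inl h
  obtain ⟨hP₀, hPδ⟩ := hP
  obtain ⟨κ, hκ0, hκ⟩ := huF P hP₀
  obtain ⟨-, hdet, hvec⟩ := hval P hP₀
  rw [hdet] at hPδ
  refine ⟨fun Q => mul_mem (hvec Q).1 (hκ Q).1, ?_⟩
  have hw := smul_cofVec_eq (S := S) (c := c) (hker P hP₀).1
  set wP := resTuple s (detL r (M + Dp P))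
  have hwc : wP c ≠ 0 := fun h0 => by
    rw [h0, zero_smul] at hw
    have hz : wP = 0 := (smul_eq_zero.mp hw).resolve_left hPδ
    obtain ⟨Q, hQ, hne⟩ := exists_tuple_forall_ne_zero (ι := Fin 1)
      (U := fun _ => evSpace (M + Dp P)) (d := fun _ => (Divisor.degree (M + Dp P)).toNat)
      (f := fun _ => detL r (M + Dp P)) (fun _ => fewZeros_evSpace _)
      (fun _ => isSlice_detL (ell_add_eq_rk hM (hDp P)))
      (fun _ => detL_ne_zero (ell_add_eq_rk hM (hDp P))) (s := s)
      (by rw [Fin.sum_univ_one, map_add, hDp]; omega)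
    exact hne 0 (congrFun hz fun j => ⟨Q j, hQ j⟩)
  have hpsi : SameLine (psi M (a + classOf P P₁)) (psiDiv M (Dp P)) := by
    rw [add_classOf_eq]
    exact sameLine_psi_mk hM _
  refine SameLine.trans ⟨(cofRows (AK P) S c).det / wP c * κ,
    mul_ne_zero (div_ne_zero hPδ hwc) hκ0, funext fun Q => ?_⟩
    (hpsi.comp fun (Q : Fin r → s) j => (Q j : Place K F)).symm
  rw [valueAt_mul P (hvec Q).1 (hκ Q).1, (hvec Q).2, (hκ Q).2, Pi.smul_apply, smul_eq_mul]
  show _ = _ * (wP Q * resTuple s (detL r (M - Dp P)) Q)
  have := congrFun hw Q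
  simp only [Pi.smul_apply, smul_eq_mul] at this
  field_simp
  linear_combination -(resTuple s (detL r (M - Dp P)) Q) * this

end FermatAgent.MW
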