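import Fermat.Agent.MW.Parallelogram
import Fermat.Agent.MW.Dominant

/-!
# Doubling: quartic forms, finiteness of the two-torsion, divisibility by two
-/

set_option autoImplicit false

noncomputable section

open AlgebraicCurve FermatAgent.Curve MvPolynomial

namespace FermatAgent.MW

variable {K F : Type*} [Field K] [Field F] [Algebra K F] [IsAlgClosed K] [IsFunctionField1 K F]

theorem coord_mul_ne_zero {M : Divisor K F} (hM : IsBig M) {s : Finset (Place K F)} (hs : Large M s)
    (y z : Pic0 K F) : coord M s y * coord M s z ≠ 0 := by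
  unfold Large at hs
  obtain ⟨Q, hQ, h1, h2⟩ := exists_tuple_mul_ne_zero (fewZeros_evSpace (M + M))
    (fewZeros_evSpace (M + M)) (isSlice_psi hM y) (isSlice_psi hM z)
    (psi_ne_zero hM _) (psi_ne_zero hM _) (s := s) (by rw [map_add]; omega)
  exact fun h => mul_ne_zero h1 h2 (congrFun h fun j => ⟨Q j, hQ j⟩)

/-- A common factor cancels. -/
theorem eq_or_eq_neg_of_mul_coord [CharZero K] {M : Divisor K F} (hM : IsBig M)
    {s : Finset (Place K F)} (hs : Large M s) {y y' z : Pic0 K F} {c : K}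
    (h : coord M s y * coord M s z = c • (coord M s y' * coord M s z)) :
    y = y' ∨ y = -y' := by
  unfold Large at hs
  have hy := isSlice_mul (isSlice_psi hM y) (isSlice_psi hM z)
  have hy' := isSlice_mul (isSlice_psi hM y') (isSlice_psi hM z)
  have heq : psi M y * psi M z = c • (psi M y' * psi M z) :=
    IsSlice.eq_of_eqOn (fewZeros_evSpace _) hy ((sliceSpace _ _).smul_mem c hy') (s := s)
      (by simp only [map_add]; omega) fun Q hQ => congrFun h fun j => ⟨Q j, hQ j⟩
  have h2 : psi M y - c • psi M y' = 0 := by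
    by_contra hne
    obtain ⟨Q, -, h1, h2⟩ := exists_tuple_mul_ne_zero (fewZeros_evSpace (M + M))
      (fewZeros_evSpace (M + M))
      (show IsSlice _ (psi M y - c • psi M y') from
        (Submodule.sub_mem (sliceSpace (evSpace (M + M)) (rk M)) (x := psi M y)
          (y := c • psi M y') (isSlice_psi hM y)
          (Submodule.smul_mem (sliceSpace (evSpace (M + M)) (rk M)) c (isSlice_psi hM y'))))
      (isSlice_psi hM z) hne (psi_ne_zero hM z) (s := s) (by rw [map_add]; omega)
    refine mul_ne_zero h1 h2 ?_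
    have := congrFun heq Q
    simp only [Pi.mul_apply, Pi.smul_apply, Pi.sub_apply, smul_eq_mul] at this ⊢
    linear_combination this
  exact eq_or_eq_neg_of_psi_eq_zero_iff hM fun Q hQ => by
    rw [sub_eq_zero.mp h2, Pi.smul_apply, hQ, smul_zero]

theorem eq_or_eq_neg_of_smul_coord [CharZero K] {M : Divisor K F} (hM : IsBig M)
    {s : Finset (Place K F)} (hs : Large M s) {y y' : Pic0 K F} {c c' : K} (hc : c ≠ 0)
    (h : c • coord M s y = c' • coord M s y') : y = y' ∨ y = -y' := by
  refine eq_or_eq_neg_of_sameLine hM (s := s) (c := c⁻¹ * c') (by unfold Large at hs; omega)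
    fun Q hQ => ?_
  have := congrFun h fun j => ⟨Q j, hQ j⟩
  simp only [Pi.smul_apply, smul_eq_mul, coord, resTuple] at this
  field_simp
  linear_combination this

/-- Doubling is given by quartic forms without zeros. -/
theorem exists_doubling [CharZero K] {M G₀ : Divisor K F} (hM : IsBig M)
    (hG₀ : 2 * (genusFF K F : ℤ) + 1 ≤ Divisor.degree G₀) {s : Finset (Place K F)}
    (hs : Large M s) {s' : Finset (Place K F)} (hs' : Large (M + G₀) s') :
    ∃ F₄ : (Fin (rk M) → s) → MvPolynomial (Fin (rk (M + G₀)) → s') K,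
      (∀ Q, (F₄ Q).IsHomogeneous 4) ∧
      (∀ x, SameLine (fun Q => eval (coord (M + G₀) s' x) (F₄ Q))
        (coord M s (x + x) * coord M s 0)) ∧
      ∀ v ∈ imgSet (M + G₀) s', (∀ Q, eval v (F₄ Q) = 0) → v = 0 := by
  classical
  obtain ⟨B, hB⟩ := exists_bilinear hM hG₀ hs hs'
  let F₄ : (Fin (rk M) → s) → MvPolynomial (Fin (rk (M + G₀)) → s') K := fun Q =>
    ∑ p : _ × _, ∑ q : _ × _,
      C (B (Pi.single p 1) (Pi.single q 1) Q) * (X p.1 * X p.2 * (X q.1 * X q.2))
  have hev : ∀ v Q, eval v (F₄ Q) = B (pairs v) (pairs v) Q := fun v Q => by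
    conv_rhs => rw [pi_eq_sum_univ' (pairs v)]
    simp only [F₄, map_sum, map_mul, eval_C, eval_X, map_smul, LinearMap.sum_apply,
      LinearMap.smul_apply, Finset.sum_apply, Pi.smul_apply, smul_eq_mul, Finset.mul_sum, pairs]
    rw [Finset.sum_comm]
    exact Finset.sum_congr rfl fun p _ => Finset.sum_congr rfl fun q _ => by ring
  have hline : ∀ x, SameLine (fun Q => eval (coord (M + G₀) s' x) (F₄ Q))
      (coord M s (x + x) * coord M s 0) := fun x => by
    have := hB x x
    rw [parFun, sub_self] at this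
    rwa [funext fun Q => hev (coord (M + G₀) s' x) Q]
  refine ⟨F₄, fun Q => IsHomogeneous.sum _ _ _ fun p _ => IsHomogeneous.sum _ _ _ fun q _ =>
    (((isHomogeneous_X K p.1).mul (isHomogeneous_X K p.2)).mul
      ((isHomogeneous_X K q.1).mul (isHomogeneous_X K q.2))).C_mul _, hline, fun v hv h => ?_⟩
  obtain ⟨c, x, rfl⟩ := exists_eq_smul_of_mem_imgSet hv
  by_contra hne
  have hc : c ≠ 0 := fun hc => hne (by rw [hc, zero_smul])
  obtain ⟨e, he, hex⟩ := hline x
  obtain ⟨Q, hQ⟩ := Function.ne_iff.mp (coord_mul_ne_zero hM hs (x + x) 0)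
  have h1 := h Q
  rw [eval_smul_of_isHomogeneous (n := 4)] at h1
  · rw [show eval (coord (M + G₀) s' x) (F₄ Q) = _ from congrFun hex Q, Pi.smul_apply,
      smul_eq_mul] at h1
    exact mul_ne_zero (pow_ne_zero _ hc) (mul_ne_zero he hQ) h1
  · exact IsHomogeneous.sum _ _ _ fun p _ => IsHomogeneous.sum _ _ _ fun q _ =>
      (((isHomogeneous_X K p.1).mul (isHomogeneous_X K p.2)).mul
        ((isHomogeneous_X K q.1).mul (isHomogeneous_X K q.2))).C_mul _

theorem exists_isBig_large [CharZero K] (P₀ : Place K F) :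
    ∃ (M G₀ : Divisor K F) (s s' : Finset (Place K F)), IsBig M ∧
      2 * (genusFF K F : ℤ) + 1 ≤ Divisor.degree G₀ ∧ Large M s ∧ Large (M + G₀) s' := by
  have := RR.infinite_place (K := K) (F := F)
  obtain ⟨s, -, hs⟩ := (Set.infinite_univ (α := Place K F)).exists_subset_card_eq
    (4 * (5 * genusFF K F + 2) + 1)
  refine ⟨Finsupp.single P₀ (3 * (genusFF K F : ℤ) + 1),
    Finsupp.single P₀ (2 * (genusFF K F : ℤ) + 1), s, s, ?_, ?_, ?_, ?_⟩
  · unfold IsBig; rw [RR.degree_single]
  · rw [RR.degree_single]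
  · unfold Large; rw [RR.degree_single]; omega
  · unfold Large; rw [map_add, RR.degree_single, RR.degree_single]; omega

/-- The two-torsion is finite. -/
theorem finite_two_torsion [CharZero K] : {x : Pic0 K F | x + x = 0}.Finite := by
  classical
  have := RR.infinite_place (K := K) (F := F)
  obtain ⟨M, G₀, s, s', hM, hG₀, hs, hs'⟩ :=
    exists_isBig_large (Classical.arbitrary (Place K F))
  obtain ⟨F₄, hhom, hline, hzero⟩ := exists_doubling hM hG₀ hs hs'
  have hM' : IsBig (M + G₀) := isBig_add hM (by omega)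
  set c₀ := coord M s 0 * coord M s 0
  obtain ⟨Q₀, hQ₀⟩ := Function.ne_iff.mp (coord_mul_ne_zero hM hs (0 : Pic0 K F) 0)
  set Z : Set ((Fin (rk (M + G₀)) → s') → K) :=
    {v | v ∈ imgSet (M + G₀) s' ∧ ∀ Q Q', eval v (F₄ Q) * c₀ Q' = eval v (F₄ Q') * c₀ Q}
  have hZ : IsAlg Z := (isAlg_imgSet hM' hs').and (isAlg_forall fun Q => isAlg_forall fun Q' =>
    ⟨{F₄ Q * C (c₀ Q') - F₄ Q' * C (c₀ Q)}, by ext v; simp [sub_eq_zero]⟩)
  have hcone : IsCone Z := fun v hv c _ => ⟨smul_mem_imgSet hv.1 c, fun Q Q' => by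
    rw [eval_smul_of_isHomogeneous (hhom Q), eval_smul_of_isHomogeneous (hhom Q')]
    linear_combination c ^ 4 * hv.2 Q Q'⟩
  have hW := finite_normalised hZ hcone (F₄ Q₀) (by norm_num) (hhom Q₀) (fun v hv h0 =>
    hzero v hv.1 fun Q => by
      have := hv.2 Q Q₀
      rw [h0, zero_mul] at this
      exact (mul_eq_zero.mp this).resolve_right hQ₀) (c₀ Q₀)
  set W := {v ∈ Z | eval v (F₄ Q₀) = c₀ Q₀}
  have hcov : {x : Pic0 K F | x + x = 0} ⊆
      ⋃ w ∈ W, {x | ∃ κ : K, κ ≠ 0 ∧ κ • coord (M + G₀) s' x = w} := fun x hx => by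
    obtain ⟨e, he, hex⟩ := hline x
    rw [show x + x = 0 from hx] at hex
    obtain ⟨κ, hκ⟩ := IsAlgClosed.exists_pow_nat_eq e⁻¹ (n := 4) (by norm_num)
    have hκ0 : κ ≠ 0 := fun h => inv_ne_zero he (by rw [← hκ, h]; norm_num)
    refine Set.mem_iUnion₂.mpr ⟨κ • coord (M + G₀) s' x,
      ⟨⟨smul_mem_imgSet (coord_mem_imgSet (M + G₀) s' x) κ, fun Q Q' => ?_⟩, ?_⟩, κ, hκ0, rfl⟩
    · rw [eval_smul_of_isHomogeneous (hhom Q), eval_smul_of_isHomogeneous (hhom Q'),
        show eval (coord (M + G₀) s' x) (F₄ Q) = _ from congrFun hex Q,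
        show eval (coord (M + G₀) s' x) (F₄ Q') = _ from congrFun hex Q']
      simp only [Pi.smul_apply, smul_eq_mul]
      ring
    · rw [eval_smul_of_isHomogeneous (hhom Q₀),
        show eval (coord (M + G₀) s' x) (F₄ Q₀) = _ from congrFun hex Q₀, hκ, Pi.smul_apply, smul_eq_mul,
        inv_mul_cancel_left₀ he]
  refine (hW.biUnion fun w _ => ?_).subset hcov
  rcases Set.eq_empty_or_nonempty {x : Pic0 K F | ∃ κ : K, κ ≠ 0 ∧ κ • coord (M + G₀) s' x = w} with
    h | ⟨x₀, κ₀, hκ₀, hx₀⟩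
  · rw [h]; exact Set.finite_empty
  refine (Set.toFinite ({x₀, -x₀} : Set (Pic0 K F))).subset fun x ⟨κ, hκ, hx⟩ => ?_
  exact eq_or_eq_neg_of_smul_coord hM' hs' hκ (hx.trans hx₀.symm)

theorem isPrime_vanishingIdeal_imgSet [CharZero K] {M : Divisor K F} (hM : IsBig M)
    {s : Finset (Place K F)} (hs : Large M s) :
    (vanishingIdeal K (imgSet M s)).IsPrime := by
  refine ⟨fun h => ?_, fun {p q} h => ?_⟩
  · have h1 : (1 : MvPolynomial (Fin (rk M) → s) K) ∈ vanishingIdeal K (imgSet M s) := by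
      rw [h]; trivial
    exact one_ne_zero (by simpa using h1 (coord M s 0) (coord_mem_imgSet M s 0) : (1 : K) = 0)
  · exact (forall_eval_eq_zero_or hM hs fun x hx => by simpa [aeval_eq_eval] using h x hx).imp
      (fun h' x hx => by simpa [aeval_eq_eval] using h' x hx)
      (fun h' x hx => by simpa [aeval_eq_eval] using h' x hx)

/-- Every class is a double. -/
theorem exists_add_self_eq [CharZero K] (a : Pic0 K F) : ∃ x : Pic0 K F, x + x = a := by
  classical
  have := RR.infinite_place (K := K) (F := F)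
  obtain ⟨M, G₀, s, s', hM, hG₀, hs, hs'⟩ :=
    exists_isBig_large (Classical.arbitrary (Place K F))
  obtain ⟨F₄, hhom, hline, hzero⟩ := exists_doubling hM hG₀ hs hs'
  obtain ⟨L, hL⟩ := exists_halfTorsion hM hG₀ s hs' (R := 0) (add_zero 0)
  have hM' : IsBig (M + G₀) := isBig_add hM (by omega)
  have hZ : IsAlg (imgSet M s) := isAlg_imgSet hM hs
  have hZ' : IsAlg (imgSet (M + G₀) s') := isAlg_imgSet hM' hs'
  have := isPrime_vanishingIdeal_imgSet hM hs
  have := isPrime_vanishingIdeal_imgSet hM' hs'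
  set c := coord M s 0
  let aP : (Fin (rk M) → s) → MvPolynomial (Fin (rk M) → s) K := fun Q => C (c Q) * X Q
  let α : MvPolynomial (Fin (rk M) → s) K →ₐ[K] CoordRing (imgSet M s) :=
    aeval fun Q => Ideal.Quotient.mk (vanishingIdeal K (imgSet M s)) (aP Q)
  let β : MvPolynomial (Fin (rk M) → s) K →ₐ[K] CoordRing (imgSet (M + G₀) s') :=
    aeval fun Q => Ideal.Quotient.mk (vanishingIdeal K (imgSet (M + G₀) s')) (F₄ Q)
  let lP : (Fin (rk M) → s) → MvPolynomial (Fin (rk (M + G₀)) → s') K := fun Q =>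
    ∑ R, C (L (Pi.single R 1) Q) * X R
  have hlP : ∀ v Q, eval v (lP Q) = L v Q := fun v Q => by
    conv_rhs => rw [pi_eq_sum_univ' v]
    simp only [lP, map_sum, map_mul, eval_C, eval_X, map_smul, Finset.sum_apply, Pi.smul_apply,
      smul_eq_mul]
    exact Finset.sum_congr rfl fun R _ => mul_comm _ _
  have hLimg : ∀ v ∈ (imgSet (M + G₀) s'), (L v) ∈ (imgSet M s) := fun v hv => by
    obtain ⟨e, x, rfl⟩ := exists_eq_smul_of_mem_imgSet hv
    obtain ⟨e', -, he'⟩ := hL x
    rw [map_smul, he', smul_smul, add_zero]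
    exact smul_resTuple_psi_mem _ x
  let γ' : MvPolynomial (Fin (rk M) → s) K →ₐ[K] CoordRing (imgSet (M + G₀) s') :=
    aeval fun Q => Ideal.Quotient.mk (vanishingIdeal K (imgSet (M + G₀) s')) (lP Q)
  have hγ' : ∀ p v (hv : v ∈ (imgSet (M + G₀) s')), evalAt hv (γ' p) = eval (L v) p := fun p v hv => by
    rw [← AlgHom.comp_apply, comp_aeval, ← aeval_eq_eval]
    exact congrArg (fun w => aeval w p) (funext fun Q => (evalAt_mk hv _).trans (hlP v Q))
  let γ : CoordRing (imgSet M s) →ₐ[K] CoordRing (imgSet (M + G₀) s') := Ideal.Quotient.liftₐ _ γ' fun p hp =>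
    coordRing_ext fun v hv => by
      rw [hγ', map_zero]
      simpa [aeval_eq_eval] using hp _ (hLimg v hv)
  have hγinj : Function.Injective γ := by
    refine (injective_iff_map_eq_zero γ).mpr fun b hb => ?_
    obtain ⟨p, rfl⟩ := Ideal.Quotient.mk_surjective b
    refine Ideal.Quotient.eq_zero_iff_mem.mpr fun x hx => ?_
    obtain ⟨e, y, rfl⟩ := exists_eq_smul_of_mem_imgSet hx
    obtain ⟨e', he'0, he'⟩ := hL y
    have hv : (e / e') • coord (M + G₀) s' y ∈ (imgSet (M + G₀) s') := smul_mem_imgSet (coord_mem_imgSet (M + G₀) s' y) _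
    have h1 := congrArg (evalAt hv) hb
    rw [map_zero, show γ (Ideal.Quotient.mk _ p) = γ' p from rfl, hγ', map_smul, he', smul_smul,
      add_zero, div_mul_cancel₀ _ he'0] at h1
    simpa [aeval_eq_eval] using h1
  have hγint : γ.toRingHom.IsIntegral := by
    refine RingHom.IsIntegral.tower_top (Ideal.Quotient.mk (vanishingIdeal K (imgSet M s))) γ.toRingHom ?_
    show γ'.toRingHom.IsIntegral
    refine isIntegral_aeval _ (finite_adjoin_forms hZ' (isCone_imgSet (M + G₀) s') lP one_pos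
      (fun Q => IsHomogeneous.sum _ _ _ fun R _ => (isHomogeneous_X K R).C_mul _) fun v hv h => ?_)
    obtain ⟨e, x, rfl⟩ := exists_eq_smul_of_mem_imgSet hv
    obtain ⟨e', he'0, he'⟩ := hL x
    have h1 : L (e • coord (M + G₀) s' x) = 0 := funext fun Q => (hlP _ Q).symm.trans (h Q)
    rw [map_smul, he', smul_smul, smul_eq_zero] at h1
    rcases h1 with h1 | h1
    · rw [(mul_eq_zero.mp h1).resolve_right he'0, zero_smul]
    · exact absurd h1 (coord_ne_zero hM hs _)
  have hαint : α.toRingHom.IsIntegral := by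
    refine isIntegral_aeval _ (finite_adjoin_forms hZ (isCone_imgSet M s) aP one_pos
      (fun Q => (isHomogeneous_X K Q).C_mul _) fun v hv h => ?_)
    obtain ⟨e, x, rfl⟩ := exists_eq_smul_of_mem_imgSet hv
    by_contra hne
    have he : e ≠ 0 := fun he => hne (by rw [he, zero_smul])
    refine coord_mul_ne_zero hM hs x 0 (funext fun Q => ?_)
    have := h Q
    simp only [aP, map_mul, eval_C, eval_X, Pi.smul_apply, smul_eq_mul] at this
    rcases mul_eq_zero.mp this with h' | h'
    · simp only [Pi.mul_apply, Pi.zero_apply, show coord M s 0 Q = 0 from h', mul_zero]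
    · simp only [Pi.mul_apply, Pi.zero_apply, (mul_eq_zero.mp h').resolve_left he, zero_mul]
  have hβint : β.toRingHom.IsIntegral :=
    isIntegral_aeval _ (finite_adjoin_forms hZ' (isCone_imgSet (M + G₀) s') F₄ (by norm_num) hhom hzero)
  have hαev : ∀ p v (hv : v ∈ (imgSet M s)), evalAt hv (α p) = eval (fun Q => c Q * v Q) p := fun p v hv => by
    rw [← AlgHom.comp_apply, comp_aeval, ← aeval_eq_eval]
    exact congrArg (fun w => aeval w p) (funext fun Q => by simp [aP, evalAt_mk])
  have hβev : ∀ p v (hv : v ∈ (imgSet (M + G₀) s')), evalAt hv (β p) = eval (fun Q => eval v (F₄ Q)) p :=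
    fun p v hv => by
      rw [← AlgHom.comp_apply, comp_aeval, ← aeval_eq_eval]
      exact congrArg (fun w => aeval w p) (funext fun Q => evalAt_mk hv _)
  have hker : RingHom.ker α ≤ RingHom.ker β := fun p hp => by
    refine coordRing_ext fun v hv => ?_
    obtain ⟨e, x, rfl⟩ := exists_eq_smul_of_mem_imgSet hv
    obtain ⟨e', -, hex⟩ := hline x
    have hu : (e ^ 4 * e') • coord M s (x + x) ∈ (imgSet M s) := smul_mem_imgSet (coord_mem_imgSet M s _) _
    have h1 := congrArg (evalAt hu) (RingHom.mem_ker.mp hp)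
    rw [map_zero, hαev] at h1
    rw [map_zero, hβev, ← h1]
    refine congrArg (fun w => eval w p) (funext fun Q => ?_)
    rw [eval_smul_of_isHomogeneous (hhom Q), show eval (coord (M + G₀) s' x) (F₄ Q) = _ from congrFun hex Q]
    simp only [Pi.smul_apply, Pi.mul_apply, smul_eq_mul]
    ring
  have : (RingHom.ker α).IsPrime := RingHom.ker_isPrime α
  have : (RingHom.ker β).IsPrime := RingHom.ker_isPrime β
  let αb := Ideal.kerLiftAlg α
  let βb := Ideal.kerLiftAlg β
  have hint : ∀ {C : Type _} [CommRing C] [Algebra K C] (f : MvPolynomial (Fin (rk M) → s) K →ₐ[K] C),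
      f.toRingHom.IsIntegral → (Ideal.kerLiftAlg f).toRingHom.IsIntegral := fun f hf =>
    RingHom.IsIntegral.tower_top (Ideal.Quotient.mk (RingHom.ker f)) _ hf
  have t1 := trdeg_eq_of_isIntegral αb (Ideal.kerLiftAlg_injective α) (hint α hαint)
  have t2 := trdeg_eq_of_isIntegral γ hγinj hγint
  have t3 := trdeg_eq_of_isIntegral βb (Ideal.kerLiftAlg_injective β) (hint β hβint)
  have : Algebra.FiniteType K (MvPolynomial (Fin (rk M) → s) K ⧸ RingHom.ker α) :=
    Algebra.FiniteType.of_surjective (Ideal.Quotient.mkₐ K (RingHom.ker α))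
      Ideal.Quotient.mk_surjective
  let proj : (MvPolynomial (Fin (rk M) → s) K ⧸ RingHom.ker α) →ₐ[K] (MvPolynomial (Fin (rk M) → s) K ⧸ RingHom.ker β) :=
    Ideal.Quotient.factorₐ K hker
  have hproj := injective_of_trdeg_eq proj (Ideal.Quotient.factor_surjective hker)
    (t3.trans (t2.symm.trans t1.symm))
  obtain ⟨φ, hφ⟩ := exists_algHom_extend β hβint ((evalAt (coord_mem_imgSet M s a)).comp α)
    fun p hp => by
      have : proj (Ideal.Quotient.mk _ p) = 0 := Ideal.Quotient.eq_zero_iff_mem.mpr hp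
      have hpα : p ∈ RingHom.ker α := Ideal.Quotient.eq_zero_iff_mem.mp (hproj (this.trans (map_zero proj).symm))
      rw [AlgHom.comp_apply, RingHom.mem_ker.mp hpα, map_zero]
  obtain ⟨v, hv, hvφ⟩ := exists_point_of_algHom hZ' φ
  obtain ⟨e, x, rfl⟩ := exists_eq_smul_of_mem_imgSet hv
  obtain ⟨e', he', hex⟩ := hline x
  have hpt : ∀ Q, c Q * coord M s a Q = e ^ 4 * e' * (coord M s (x + x) Q * c Q) := fun Q => by
    have h1 := hφ (X Q)
    rw [show β (X Q) = Ideal.Quotient.mk _ (F₄ Q) from aeval_X _ Q, hvφ,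
      eval_smul_of_isHomogeneous (hhom Q), show eval (coord (M + G₀) s' x) (F₄ Q) = _ from congrFun hex Q,
      AlgHom.comp_apply, hαev, eval_X] at h1
    simp only [Pi.smul_apply, Pi.mul_apply, smul_eq_mul] at h1
    linear_combination -h1
  rcases eq_or_eq_neg_of_mul_coord hM hs (y := a) (y' := x + x) (z := 0) (c := e ^ 4 * e')
    (funext fun Q => by
      simp only [Pi.mul_apply, Pi.smul_apply, smul_eq_mul]
      linear_combination hpt Q) with h | h
  · exact ⟨x, h.symm⟩
  · exact ⟨-x, by rw [h, neg_add]⟩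

end FermatAgent.MW
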