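import Fermat.Agent.MW.Half

/-!
# The parallelogram law with bilinear forms in the squares of the coordinates
-/

set_option autoImplicit false

noncomputable section

open AlgebraicCurve FermatAgent.Curve MvPolynomial

namespace FermatAgent.MW

variable {K F : Type*} [Field K] [Field F] [Algebra K F] [IsAlgClosed K] [IsFunctionField1 K F]

omit [IsAlgClosed K] in
theorem pairs_smul {T : Type*} (κ : K) (v : T → K) : pairs (κ • v) = κ ^ 2 • pairs v := by
  funext p
  simp only [pairs, Pi.smul_apply, smul_eq_mul]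
  ring

/-- A linear form in the products of pairs as a polynomial. -/
def pairPoly {T : Type*} [Fintype T] (l : (T × T → K) →ₗ[K] K) : MvPolynomial T K :=
  haveI := Classical.decEq T
  ∑ p : T × T, C (l (Pi.single p 1)) * (X p.1 * X p.2)

omit [IsAlgClosed K] in
theorem eval_pairPoly {T : Type*} [Fintype T] (l : (T × T → K) →ₗ[K] K) (v : T → K) :
    eval v (pairPoly l) = l (pairs v) := by
  classical
  conv_rhs => rw [pi_eq_sum_univ' (pairs v)]
  simp only [pairPoly, map_sum, map_mul, eval_C, eval_X, map_smul, smul_eq_mul]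
  refine Finset.sum_congr rfl fun p _ => ?_
  rw [pairs, mul_comm]

omit [IsAlgClosed K] in

omit [IsAlgClosed K] in
theorem mul_eq_mul_of_sameLine {T : Type*} {u v : T → K} (h : SameLine u v) (i j : T) :
    u i * v j = u j * v i := by
  obtain ⟨c, -, rfl⟩ := h
  simp only [Pi.smul_apply, smul_eq_mul]
  ring

omit [IsAlgClosed K] in
theorem exists_eq_smul_of_mul_eq {T : Type*} {u v : T → K} (hv : v ≠ 0)
    (h : ∀ i j, u i * v j = u j * v i) : ∃ c : K, u = c • v := by
  obtain ⟨j, hj⟩ := Function.ne_iff.mp hv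
  refine ⟨u j / v j, funext fun i => ?_⟩
  rw [Pi.smul_apply, smul_eq_mul, div_mul_eq_mul_div, eq_div_iff hj]
  exact h i j

/-- `psi(x + y) · psi(x - y)` is bilinear in the products of pairs of coordinates. -/
theorem exists_bilinear [CharZero K] {M G₀ : Divisor K F} (hM : IsBig M)
    (hG₀ : 2 * (genusFF K F : ℤ) + 1 ≤ Divisor.degree G₀) {s : Finset (Place K F)}
    (hs : Large M s) {s' : Finset (Place K F)} (hs' : Large (M + G₀) s') :
    ∃ B : ((Fin (rk (M + G₀)) → s') × (Fin (rk (M + G₀)) → s') → K) →ₗ[K]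
        ((Fin (rk (M + G₀)) → s') × (Fin (rk (M + G₀)) → s') → K) →ₗ[K]
          ((Fin (rk M) → s) → K),
      ∀ x y : Pic0 K F, SameLine
        (B (pairs (coord (M + G₀) s' x)) (pairs (coord (M + G₀) s' y))) (parFun M s x y) := by
  classical
  set M' := M + G₀
  have hM' : IsBig M' := isBig_add hM (by omega)
  let Ψ : Pic0 K F → ((Fin (rk M') → s') × (Fin (rk M') → s') → K) := fun x => pairs (coord M' s' x)
  choose L hL using exists_quad hM hG₀ s hs'
  have hLne : ∀ x y, L y (Ψ x) ≠ 0 := fun x y h => by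
    obtain ⟨c, hc, he⟩ := hL y x
    rw [show L y (pairs (coord M' s' x)) = 0 from h] at he
    exact smul_ne_zero hc (parFun_ne_zero hM hs x y) he.symm
  have hsym : ∀ x y, SameLine (L y (Ψ x)) (L x (Ψ y)) := fun x y =>
    (hL y x).trans ((sameLine_parFun_comm hM s x y).trans (hL x y).symm)
  obtain ⟨bset, hb, hspan, hli⟩ := exists_linearIndependent K (Set.range Ψ)
  have : Finite bset := hli.finite
  cases nonempty_fintype bset
  choose a ha using fun j : bset => hb j.2
  let Φ : (bset → K) →ₗ[K] ((Fin (rk M') → s') × (Fin (rk M') → s') → K) :=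
    ∑ j : bset, (LinearMap.proj j).smulRight (Ψ (a j))
  have hΦ : ∀ w, Φ w = ∑ j, w j • Ψ (a j) := fun w => by
    simp [Φ, LinearMap.coe_smulRight]
  have hΦi : Function.Injective Φ := by
    refine (injective_iff_map_eq_zero _).mpr fun w hw => funext fun j => ?_
    rw [hΦ] at hw
    simp only [ha] at hw
    exact Fintype.linearIndependent_iff.mp hli w hw j
  obtain ⟨cf, hcf⟩ := LinearMap.exists_leftInverse_of_injective Φ (LinearMap.ker_eq_bot.mpr hΦi)
  have hcfΦ : ∀ w, cf (Φ w) = w := fun w => LinearMap.congr_fun hcf w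
  have hdec : ∀ x, Ψ x = ∑ j, cf (Ψ x) j • Ψ (a j) := fun x => by
    have h1 : Ψ x ∈ Submodule.span K (Set.range fun j : bset => Ψ (a j)) := by
      rw [show (fun j : bset => Ψ (a j)) = Subtype.val from funext ha, Subtype.range_coe, hspan]
      exact Submodule.subset_span ⟨x, rfl⟩
    obtain ⟨w, hw⟩ := (Submodule.mem_span_range_iff_exists_fun K).mp h1
    rw [← hw, ← hΦ, hcfΦ]
    exact hΦ w
  have hδ : ∀ i j, cf (Ψ (a i)) j = if j = i then 1 else 0 := fun i j => by
    have : Ψ (a i) = Φ (Pi.single i 1) := by simp [hΦ, Pi.single_apply]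
    rw [this, hcfΦ, Pi.single_apply]
  obtain ⟨j₀⟩ : Nonempty bset := by
    by_contra hne
    rw [not_nonempty_iff] at hne
    have h1 := hdec 0
    rw [Finset.univ_eq_empty, Finset.sum_empty] at h1
    obtain ⟨Q, hQ⟩ := Function.ne_iff.mp (coord_ne_zero hM' hs' (0 : Pic0 K F))
    exact mul_ne_zero hQ hQ (congrFun h1 (Q, Q))
  -- the scalars `ν j y` with `L y (Ψ a_j) = ν j y • L a_j (Ψ y)`
  choose ν hν0 hν using fun (y : Pic0 K F) (j : bset) => hsym (a j) y
  have hLy : ∀ x y, L y (Ψ x) = ∑ j, (cf (Ψ x) j * ν y j) • L (a j) (Ψ y) := fun x y => by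
    conv_lhs => rw [hdec x]
    simp only [map_sum, map_smul, hν, smul_smul]
  -- the equations for `ν`
  let ι := Pic0 K F × (Fin (rk M) → s) × (Fin (rk M) → s)
  let Nc : bset → (Fin (rk M) → s) → MvPolynomial (Fin (rk M') → s') K :=
    fun j T => pairPoly ((LinearMap.proj T).comp (L (a j)))
  let Lc : Pic0 K F → (Fin (rk M) → s) → MvPolynomial (Fin (rk M') → s') K :=
    fun x T => pairPoly ((LinearMap.proj T).comp (L x))
  let A : ι → bset → MvPolynomial (Fin (rk M') → s') K := fun i j =>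
    C (cf (Ψ i.1) j) * (Nc j i.2.1 * Lc i.1 i.2.2 - Nc j i.2.2 * Lc i.1 i.2.1)
  let Av : ((Fin (rk M') → s') → K) → ι → bset → K := fun v i j => eval v (A i j)
  have hrow : ∀ y (κ : K) (w : bset → K) (i : ι),
      ∑ j, Av (κ • coord M' s' y) i j * w j = κ ^ 4 *
        ((∑ j, (cf (Ψ i.1) j * w j) • L (a j) (Ψ y)) i.2.1 * L i.1 (Ψ y) i.2.2 -
          (∑ j, (cf (Ψ i.1) j * w j) • L (a j) (Ψ y)) i.2.2 * L i.1 (Ψ y) i.2.1) := by
    intro y κ w i
    simp only [Av, A, Nc, Lc, map_mul, map_sub, eval_C, eval_pairPoly, pairs_smul,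
      LinearMap.comp_apply, LinearMap.proj_apply, map_smul, Pi.smul_apply, smul_eq_mul,
      Finset.sum_apply, Finset.sum_mul, ← Finset.sum_sub_distrib, Finset.mul_sum, Ψ]
    exact Finset.sum_congr rfl fun j _ => by ring
  have hνker : ∀ y (κ : K) (i : ι), ∑ j, Av (κ • coord M' s' y) i j * ν y j = 0 := fun y κ i => by
    rw [hrow, ← hLy, mul_eq_mul_of_sameLine (hsym i.1 y), sub_self, mul_zero]
  have hker : ∀ y (w : bset → K), (∀ i, ∑ j, Av (coord M' s' y) i j * w j = 0) →
      ∃ e : K, w = e • ν y := by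
    intro y w hw
    set S : Pic0 K F → (Fin (rk M) → s) → K := fun x => ∑ j, (cf (Ψ x) j * w j) • L (a j) (Ψ y)
    have hS : ∀ x, ∃ e : K, S x = e • L y (Ψ x) := fun x => by
      obtain ⟨e, he⟩ := exists_eq_smul_of_mul_eq (hLne y x) (u := S x) fun i j => by
        have := hw (x, i, j)
        rw [← one_smul K (coord M' s' y), hrow, one_pow, one_mul] at this
        exact sub_eq_zero.mp this
      obtain ⟨c, hc, hc'⟩ := hsym y x
      exact ⟨e * c, by rw [he, hc', smul_smul]⟩
    choose lam hlam using hS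
    have hreg : IsRegFun M' s' lam := fun x₀ => by
      obtain ⟨T, hT⟩ := Function.ne_iff.mp (hLne x₀ y)
      let SL : ((Fin (rk M') → s') × (Fin (rk M') → s') → K) →ₗ[K] K :=
        ∑ j, (w j * L (a j) (Ψ y) T) • (LinearMap.proj j).comp cf
      refine ⟨pairPoly SL, pairPoly ((LinearMap.proj T).comp (L y)), ?_, fun x κ _ _ => ?_⟩
      · rw [eval_pairPoly]
        exact hT
      · rw [eval_pairPoly, eval_pairPoly, pairs_smul, map_smul, map_smul]
        have h1 : SL (Ψ x) = lam x * L y (Ψ x) T := by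
          rw [← smul_eq_mul, ← Pi.smul_apply, ← hlam x]
          simp only [SL, S, LinearMap.sum_apply, LinearMap.smul_apply, LinearMap.comp_apply,
            LinearMap.proj_apply, smul_eq_mul, Finset.sum_apply, Pi.smul_apply]
          exact Finset.sum_congr rfl fun j _ => by ring
        rw [show SL (pairs (coord M' s' x)) = _ from h1]
        simp only [LinearMap.comp_apply, LinearMap.proj_apply, smul_eq_mul, Ψ]
        ring
    refine ⟨lam (a j₀), funext fun i => ?_⟩
    have h1 := hlam (a i)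
    rw [hreg.apply_eq hM' (a i) (a j₀), hLy] at h1
    simp only [S, hδ, ite_mul, one_mul, zero_mul, ite_smul, zero_smul, Finset.sum_ite_eq',
      Finset.mem_univ, if_true, smul_smul] at h1
    exact smul_left_injective K (hLne y (a i)) h1
  have hμreg : ∀ j, IsRegFun M' s' fun y => ν y j / ν y j₀ := fun j b => by
    obtain ⟨S, hS⟩ := exists_det_cofRows_ne_zero (hν0 b j₀) (hker b)
    refine ⟨cofVec A S j₀ j, (cofRows A S j₀).det, ?_, fun y κ _ hR => ?_⟩
    · rw [det_cofRows_map]; exact hS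
    · have h1 := congrFun (smul_cofVec_eq (S := S) (c := j₀) (hνker y κ)) j
      simp only [Pi.smul_apply, smul_eq_mul] at h1
      rw [det_cofRows_map, cofVec_map, div_mul_eq_mul_div, div_eq_iff (hν0 y j₀),
        mul_comm, mul_comm (cofVec _ S j₀ j)]
      exact h1
  let μ : bset → K := fun j => ν 0 j / ν 0 j₀
  have hμ : ∀ y j, ν y j = ν y j₀ * μ j := fun y j => by
    rw [show μ j = ν y j / ν y j₀ from (hμreg j).apply_eq hM' 0 y, mul_div_cancel₀ _ (hν0 y j₀)]
  refine ⟨∑ j, μ j • ((LinearMap.proj j).comp cf).smulRight (L (a j)), fun x y => ?_⟩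
  refine SameLine.trans ⟨(ν y j₀)⁻¹, inv_ne_zero (hν0 y j₀), ?_⟩ (hL y x)
  rw [show L y (pairs (coord M' s' x)) = _ from hLy x y, Finset.smul_sum]
  simp only [LinearMap.sum_apply, LinearMap.smul_apply, LinearMap.smulRight_apply,
    LinearMap.comp_apply, LinearMap.proj_apply, smul_smul, Ψ]
  refine Finset.sum_congr rfl fun j _ => ?_
  rw [hμ y j]
  congr 1
  field_simp [hν0 y j₀]

end FermatAgent.MW
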