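import Fermat.Agent.MW.BaseLocus

/-!
# Recognising determinant products from a trilinear relation
-/

set_option autoImplicit false

noncomputable section

open AlgebraicCurve FermatAgent.Curve

namespace FermatAgent.MW

variable {K F : Type*} [Field K] [Field F] [Algebra K F] [IsAlgClosed K] [IsFunctionField1 K F]

omit [IsAlgClosed K] [IsFunctionField1 K F] in
theorem isSlice_prodFun {r : ℕ} {U : Submodule K (Place K F → K)} {u : Place K F → K}
    (hu : u ∈ U) : IsSlice U (fun Q : Fin r → Place K F => ∏ j, u (Q j)) := fun j Q => by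
  have : (fun x => ∏ i, u (Function.update Q j x i)) =
      (∏ i ∈ Finset.univ.erase j, u (Q i)) • u := by
    funext x
    rw [← Finset.mul_prod_erase Finset.univ _ (Finset.mem_univ j), Function.update_self,
      Pi.smul_apply, smul_eq_mul, mul_comm]
    congr 1
    exact Finset.prod_congr rfl fun i hi => by
      rw [Function.update_of_ne (Finset.ne_of_mem_erase hi)]
  show (fun x => ∏ i, u (Function.update Q j x i)) ∈ U
  rw [this]
  exact U.smul_mem _ hu

theorem isSlice_mul {r : ℕ} {D E : Divisor K F} {f g : (Fin r → Place K F) → K}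
    (hf : IsSlice (evSpace D) f) (hg : IsSlice (evSpace E) g) :
    IsSlice (evSpace (D + E)) (f * g) := fun j Q => mul_mem_evSpace (hf j Q) (hg j Q)

omit [IsAlgClosed K] [IsFunctionField1 K F] in
theorem prodFun_ne_zero {r : ℕ} {u : Place K F → K} (hu : u ≠ 0) :
    (fun Q : Fin r → Place K F => ∏ j, u (Q j)) ≠ 0 := by
  obtain ⟨P, hP⟩ := Function.ne_iff.mp hu
  refine Function.ne_iff.mpr ⟨fun _ => P, ?_⟩
  exact Finset.prod_ne_zero_iff.mpr fun _ _ => hP

theorem evLin_ne_zero {D : Divisor K F} {f : riemannRochSpace D} (hf : (f : F) ≠ 0) :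
    evLin D f ≠ 0 := fun h => hf <| by
  rw [evLin_injective D (h.trans (map_zero _).symm)]
  rfl

theorem eq_zero_of_nonneg_of_degree_nonpos {E : Divisor K F} (hE : 0 ≤ E)
    (h : Divisor.degree E ≤ 0) : E = 0 := by
  by_contra hne0
  obtain ⟨v, hv⟩ := Finsupp.ne_iff.mp hne0
  have hv1 : 1 ≤ E v := by
    have := Finsupp.le_def.mp hE v
    simp only [Finsupp.coe_zero, Pi.zero_apply] at this hv
    omega
  have h1 : Finsupp.single v (1 : ℤ) ≤ E := Finsupp.le_def.mpr fun w => by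
    rcases eq_or_ne w v with rfl | hw
    · rw [Finsupp.single_eq_same]; exact hv1
    · simpa [hw] using Finsupp.le_def.mp hE w
  have := RR.degree_mono h1
  rw [RR.degree_single] at this
  omega

/-- `evLin H h` is the vanishing function of its zero divisor times a nowhere zero function. -/
theorem evLin_eq_chi_mul_unitPart {H E₁ E₂ : Divisor K F} {h : riemannRochSpace H}
    (h0 : (h : F) ≠ 0) (hE₁ : 0 ≤ E₁) (hE₂ : 0 ≤ E₂) (he : E₁ + E₂ = H + RR.divFn (h : F))
    (P : Place K F) :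
    evLin H h P = chi E₁ P * chi E₂ P * unitPart (h : F) P := by
  have hm : ∀ {E : Divisor K F}, 0 ≤ E → triv P (E P) ∈ P.toValuationSubring := fun {E} hE =>
    (mem_iff_ord_nonneg' P).mpr (by rw [ord_triv]; simpa using Finsupp.le_def.mp hE P)
  have e : H P = E₁ P + E₂ P + (-P.ord (h : F)) := by
    have := DFunLike.congr_fun he P
    simp only [Finsupp.add_apply, RR.divFn_apply] at this
    omega
  rw [evLin_apply, chi, chi, unitPart, ← valueAt_mul P (hm hE₁) (hm hE₂),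
    ← valueAt_mul P (Subring.mul_mem P.toValuationSubring.toSubring (hm hE₁) (hm hE₂))
      (mul_triv_neg_ord_mem h0 P), e, triv_add, triv_add]
  congr 1
  ring

variable {m d n : ℕ}

theorem ell_lt_of_degree_lt {A : Divisor K F} (hd : 3 * (genusFF K F : ℤ) + 1 ≤ d)
    (h : Divisor.degree A < d) : (RR.ell A : ℤ) < d + 1 - genusFF K F := by
  by_cases h1 : 2 * (genusFF K F : ℤ) - 1 ≤ Divisor.degree A
  · have := RR.ell_eq_of_degree_ge h1
    omega
  · by_cases h2 : 0 ≤ Divisor.degree A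
    · have := RR.ell_le_degree_add_one h2
      omega
    · rw [RR.ell_eq_zero_of_degree_neg (by omega)]
      omega

theorem degree_baseDivisor_le {G E : Divisor K F} {W : (Fin (m + 1) → Place K F) → K}
    (hd : 3 * (genusFF K F : ℤ) + 1 ≤ d) (hr : (m : ℤ) + 1 = d + 1 - genusFF K F)
    (hG : Divisor.degree G = d + n) (hE : 0 ≤ E)
    (hW : IsSlice (LinearMap.range (subEvLin G E hE)) W) (hA : IsAlt W) (hW0 : W ≠ 0) :
    Divisor.degree E ≤ n := by
  by_contra hlt
  have h1 := le_ell_of_isSlice_sub hE hW hA hW0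
  have h2 := ell_lt_of_degree_lt hd (A := G - E) (by rw [map_sub, hG]; omega)
  omega

/-- If `q · ∏ h` is proportional to `W₁ · W₂` then `q` is a product of two determinants. -/
theorem recognition [CharZero K] {Mt H G₁ G₂ : Divisor K F} (hG : G₁ + G₂ = Mt + H)
    (hG₁ : Divisor.degree G₁ = d + n) (hG₂ : Divisor.degree G₂ = d + n)
    (hH : Divisor.degree H = 2 * n) (hd : 3 * (genusFF K F : ℤ) + 1 ≤ d)
    (hr : (m : ℤ) + 1 = d + 1 - genusFF K F)
    {q W₁ W₂ : (Fin (m + 1) → Place K F) → K}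
    (hq : IsSlice (evSpace Mt) q) (hq0 : q ≠ 0)
    (hW₁ : IsSlice (evSpace G₁) W₁) (hA₁ : IsAlt W₁) (hW₁0 : W₁ ≠ 0)
    (hW₂ : IsSlice (evSpace G₂) W₂) (hA₂ : IsAlt W₂) (hW₂0 : W₂ ≠ 0)
    {h : riemannRochSpace H} (h0 : (h : F) ≠ 0)
    {s : Finset (Place K F)} (hs : (Divisor.degree (Mt + H)).toNat < s.card)
    (hrel : ∀ Q Q' : Fin (m + 1) → Place K F, (∀ j, Q j ∈ s) → (∀ j, Q' j ∈ s) →
      q Q * (∏ j, evLin H h (Q j)) * (W₁ Q' * W₂ Q') =
        q Q' * (∏ j, evLin H h (Q' j)) * (W₁ Q * W₂ Q)) :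
    ∃ E₁ E₂ : Divisor K F, 0 ≤ E₁ ∧ 0 ≤ E₂ ∧ Divisor.degree E₁ = n ∧ Divisor.degree E₂ = n ∧
      E₁ + E₂ = H + RR.divFn (h : F) ∧
      SameLine q (detL (m + 1) (G₁ - E₁) * detL (m + 1) (G₂ - E₂ + RR.divFn (h : F))) := by
  classical
  have := RR.infinite_place (K := K) (F := F)
  set hp : (Fin (m + 1) → Place K F) → K := fun Q => ∏ j, evLin H h (Q j) with hpdef
  have hhp : IsSlice (evSpace H) hp := isSlice_prodFun (evLin_mem H h)
  have hA : IsSlice (evSpace (Mt + H)) (q * hp) := isSlice_mul hq hhp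
  have hB : IsSlice (evSpace (Mt + H)) (W₁ * W₂) := hG ▸ isSlice_mul hW₁ hW₂
  have hU := fewZeros_evSpace (Mt + H)
  have rel : ∀ Q Q', (q * hp) Q * (W₁ * W₂) Q' = (q * hp) Q' * (W₁ * W₂) Q := by
    have step : ∀ Q', (∀ j, Q' j ∈ s) → ∀ Q,
        (q * hp) Q * (W₁ * W₂) Q' = (q * hp) Q' * (W₁ * W₂) Q := fun Q' hQ' Q => by
      have := IsSlice.eq_of_eqOn hU ((sliceSpace _ _).smul_mem ((W₁ * W₂) Q') hA)
        ((sliceSpace _ _).smul_mem ((q * hp) Q') hB) hs
        fun R hR => by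
          simp only [Pi.smul_apply, smul_eq_mul, Pi.mul_apply]
          have := hrel R Q' hR hQ'
          linear_combination this
      have := congrFun this Q
      simp only [Pi.smul_apply, smul_eq_mul] at this
      linear_combination this
    intro Q Q'
    have := IsSlice.eq_of_eqOn hU ((sliceSpace _ _).smul_mem ((q * hp) Q) hB)
      ((sliceSpace _ _).smul_mem ((W₁ * W₂) Q) hA) hs fun R hR => by
        simp only [Pi.smul_apply, smul_eq_mul]
        linear_combination step R hR Q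
    have := congrFun this Q'
    simp only [Pi.smul_apply, smul_eq_mul] at this
    linear_combination this
  obtain ⟨t, -, ht⟩ := (Set.infinite_univ (α := Place K F)).exists_subset_card_eq
    ((Divisor.degree Mt).toNat + (Divisor.degree H).toNat + ((Divisor.degree G₁).toNat
      + (Divisor.degree G₂).toNat) + 1)
  obtain ⟨Q₀, -, hq₁, hh₁⟩ := exists_tuple_mul_ne_zero (fewZeros_evSpace Mt) (fewZeros_evSpace H)
    hq hhp hq0 (prodFun_ne_zero (evLin_ne_zero h0)) (s := t) (by omega)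
  have hW₀ : (W₁ * W₂) Q₀ ≠ 0 := fun hz => by
    obtain ⟨R, -, r₁, r₂⟩ := exists_tuple_mul_ne_zero (fewZeros_evSpace G₁) (fewZeros_evSpace G₂)
      hW₁ hW₂ hW₁0 hW₂0 (s := t) (by omega)
    have := rel Q₀ R
    rw [hz, mul_zero] at this
    exact mul_ne_zero (mul_ne_zero hq₁ hh₁) (mul_ne_zero r₁ r₂) this
  set c := (W₁ * W₂) Q₀ / (q * hp) Q₀ with hc
  have hc0 : c ≠ 0 := div_ne_zero hW₀ (mul_ne_zero hq₁ hh₁)
  have heq : ∀ Q, W₁ Q * W₂ Q = c * (q Q * hp Q) := fun Q => by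
    have := rel Q₀ Q
    simp only [Pi.mul_apply] at this hc hW₀
    rw [hc, div_mul_eq_mul_div, eq_div_iff (mul_ne_zero hq₁ hh₁)]
    linear_combination this
  obtain ⟨E₁, hE₁, hS₁, hφ₁⟩ := exists_baseDivisor hW₁ hA₁ hW₁0
  obtain ⟨E₂, hE₂, hS₂, hφ₂⟩ := exists_baseDivisor hW₂ hA₂ hW₂0
  have hd₁ := degree_baseDivisor_le (n := n) hd hr hG₁ hE₁ hS₁ hA₁ hW₁0
  have hd₂ := degree_baseDivisor_le (n := n) hd hr hG₂ hE₂ hS₂ hA₂ hW₂0
  have hle : H + RR.divFn (h : F) ≤ E₁ + E₂ := Finsupp.le_def.mpr fun P => by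
    obtain ⟨φ, hφs, hφ0, hφ⟩ := hφ₁ P
    obtain ⟨ψ, hψs, hψ0, hψ⟩ := hφ₂ P
    obtain ⟨J, -, hJ₁, hJ₂⟩ := exists_tuple_mul_ne_zero (fewZeros_evSpace G₁) (fewZeros_evSpace G₂)
      hφs hψs hφ0 hψ0 (s := t) (by omega)
    obtain ⟨f0, hf⟩ := hφ J hJ₁
    obtain ⟨g0, hg⟩ := hψ J hJ₂
    set u := sliceElem hq J
    set cJ : K := c * ∏ j, evLin H h (J j)
    have e1 : (sliceElem hW₁ J : F) * (sliceElem hW₂ J : F) = cJ • ((u : F) * (h : F)) := by
      have hm2 : cJ • ((u : F) * (h : F)) ∈ riemannRochSpace (G₁ + G₂) :=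
        hG.symm ▸ (riemannRochSpace (Mt + H)).smul_mem cJ (mul_mem_L u.2 h.2)
      refine congrArg (fun x : riemannRochSpace (G₁ + G₂) => (x : F))
        (evLin_injective (G₁ + G₂) (a₁ := ⟨_, mul_mem_L (sliceElem hW₁ J).2 (sliceElem hW₂ J).2⟩)
          (a₂ := ⟨_, hm2⟩) (funext fun x => ?_))
      rw [evLin_mul, evLin_sliceElem, evLin_sliceElem, heq, hpdef]
      have e2 : evLin (G₁ + G₂) ⟨_, hm2⟩ x =
          cJ * (evLin Mt u x * evLin H h x) := by
        rw [← evLin_mul, evLin_apply, evLin_apply]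
        show valueAt x (cJ • ((u : F) * (h : F)) * triv x ((G₁ + G₂) x)) = _
        rw [show (G₁ + G₂) x = (Mt + H) x from DFunLike.congr_fun hG x, smul_mul_assoc,
          valueAt_smul x cJ (mul_triv_mem (mul_mem_L u.2 h.2) x)]
      rw [e2, evLin_sliceElem]
      simp only [Fin.prod_univ_succ, Fin.cons_zero, Fin.cons_succ, cJ]
      ring
    have hne := mul_ne_zero f0 g0
    rw [e1] at hne
    obtain ⟨hcJ, huh⟩ := smul_ne_zero_iff.mp hne
    have hu0 := left_ne_zero_of_mul huh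
    have hord := congrArg P.ord e1
    rw [P.ord_mul f0 g0, hf, hg, Algebra.smul_def, P.ord_mul
      ((map_ne_zero_iff _ (algebraMap K F).injective).mpr hcJ) huh, RR.ord_algebraMap P hcJ,
      P.ord_mul hu0 h0] at hord
    have hu := (mem_riemannRochSpace_iff.mp u.2 P).resolve_left hu0
    have eG := DFunLike.congr_fun hG P
    simp only [Finsupp.add_apply, RR.divFn_apply] at eG ⊢
    omega
  have hdegH : Divisor.degree (H + RR.divFn (h : F)) = 2 * n := by
    rw [map_add, RR.degree_divFn, hH, add_zero]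
  have hdiff : E₁ + E₂ - (H + RR.divFn (h : F)) = 0 := by
    refine eq_zero_of_nonneg_of_degree_nonpos (sub_nonneg.mpr hle) ?_
    rw [map_sub, hdegH, map_add]
    omega
  have he : E₁ + E₂ = H + RR.divFn (h : F) := sub_eq_zero.mp hdiff
  have hsum := congrArg Divisor.degree he
  rw [map_add, hdegH] at hsum
  refine ⟨E₁, E₂, hE₁, hE₂, by omega, by omega, he, ?_⟩
  have hell : ∀ {A : Divisor K F}, Divisor.degree A = d → RR.ell A = m + 1 := fun {A} hA => by
    have := RR.ell_eq_of_degree_ge (D := A) (by omega)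
    omega
  have hl₁ := hell (A := G₁ - E₁) (by rw [map_sub, hG₁]; omega)
  have hl₂ := hell (A := G₂ - E₂) (by rw [map_sub, hG₂]; omega)
  obtain ⟨c₁, hc₁⟩ := exists_eq_smul_chi_detL hE₁ hS₁ hA₁ hl₁
  obtain ⟨c₂, hc₂⟩ := exists_eq_smul_chi_detL hE₂ hS₂ hA₂ hl₂
  have hc₁0 : c₁ ≠ 0 := fun hz => hW₁0 (by rw [hc₁, hz, zero_smul])
  have hc₂0 : c₂ ≠ 0 := fun hz => hW₂0 (by rw [hc₂, hz, zero_smul])
  have hinv : RR.divFn (K := K) (h : F)⁻¹ = -RR.divFn (h : F) := Finsupp.ext fun v => by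
    simp [RR.divFn_apply, v.ord_inv]
  obtain ⟨e, he0, hee⟩ := sameLine_detL_sub_divFn hl₂ (inv_ne_zero h0)
  rw [hinv, sub_neg_eq_add] at hee
  set q' := detL (m + 1) (G₁ - E₁) * detL (m + 1) (G₂ - E₂ + RR.divFn (h : F))
  have hl₂' : RR.ell (G₂ - E₂ + RR.divFn (h : F)) = m + 1 := hell (by
    rw [map_add, map_sub, hG₂, RR.degree_divFn]; omega)
  have hq's : IsSlice (evSpace Mt) q' := by
    have hMt : G₁ - E₁ + (G₂ - E₂ + RR.divFn (h : F)) = Mt := by
      have : G₁ - E₁ + (G₂ - E₂ + RR.divFn (h : F)) =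
          G₁ + G₂ - (E₁ + E₂) + RR.divFn (h : F) := by abel
      rw [this, he, hG]
      abel
    exact hMt ▸ isSlice_mul (isSlice_detL hl₁) (isSlice_detL hl₂')
  set κ := c₁ * c₂ / (c * e)
  have hκ : κ ≠ 0 := div_ne_zero (mul_ne_zero hc₁0 hc₂0) (mul_ne_zero hc0 he0)
  refine ⟨κ, hκ, ?_⟩
  obtain ⟨t', ht's, htc⟩ := ((E₁.support ∪ E₂.support).finite_toSet.infinite_compl
    ).exists_subset_card_eq ((Divisor.degree Mt).toNat + 1)
  refine IsSlice.eq_of_eqOn (fewZeros_evSpace Mt) hq ((sliceSpace _ _).smul_mem κ hq's) (s := t')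
    (by omega) fun Q hQ => ?_
  have hchi : ∀ j, chi E₁ (Q j) = 1 ∧ chi E₂ (Q j) = 1 := fun j => by
    have := ht's (hQ j)
    simp only [Set.mem_compl_iff, Finset.mem_coe, Finset.mem_union, Finsupp.mem_support_iff,
      not_or, not_not] at this
    exact ⟨chi_eq_one this.1, chi_eq_one this.2⟩
  have e1 : W₁ Q = c₁ * detL (m + 1) (G₁ - E₁) Q := by
    rw [hc₁, Pi.smul_apply, smul_eq_mul, Finset.prod_congr rfl fun j _ => (hchi j).1,
      Finset.prod_const_one, one_mul]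
  have e2 : W₂ Q = c₂ * detL (m + 1) (G₂ - E₂) Q := by
    rw [hc₂, Pi.smul_apply, smul_eq_mul, Finset.prod_congr rfl fun j _ => (hchi j).2,
      Finset.prod_const_one, one_mul]
  have e3 : hp Q = ∏ j, unitPart (h : F) (Q j) := Finset.prod_congr rfl fun j _ => by
    rw [evLin_eq_chi_mul_unitPart h0 hE₁ hE₂ he, (hchi j).1, (hchi j).2, one_mul, one_mul]
  have e4 : (∏ j, unitPart (h : F) (Q j)) * (∏ j, unitPart (h : F)⁻¹ (Q j)) = 1 := by
    rw [← Finset.prod_mul_distrib]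
    exact Finset.prod_eq_one fun j _ => unitPart_mul_unitPart_inv h0 _
  have hk := heq Q
  rw [e1, e2, e3] at hk
  simp only [q', κ, Pi.smul_apply, Pi.mul_apply, smul_eq_mul, congrFun hee Q]
  generalize (∏ j, unitPart (h : F) (Q j)) = u at hk e4
  generalize (∏ j, unitPart (h : F)⁻¹ (Q j)) = v at e4 ⊢
  generalize q Q = qQ at hk ⊢
  field_simp
  linear_combination -v * hk - qQ * c * e4

end FermatAgent.MW
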