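import Fermat.Agent.MW.Eval
import Fermat.Agent.Curve.Diff.Dual
import Fermat.Agent.Curve.Basics.IsCurveOver

/-!
# Representatives: reduced divisors in complete linear systems, general effective divisors
-/

set_option autoImplicit false

noncomputable section

open AlgebraicCurve FermatAgent.Curve IntermediateField

namespace FermatAgent.MW

variable {K F : Type*} [Field K] [Field F] [Algebra K F] [IsAlgClosed K] [IsFunctionField1 K F]

/-- The divisor `∑ P` of a finite set of places. -/
def setDiv (t : Finset (Place K F)) : Divisor K F := ∑ P ∈ t, Finsupp.single P (1 : ℤ)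

open Classical in
omit [IsAlgClosed K] [IsFunctionField1 K F] in
theorem setDiv_apply (t : Finset (Place K F)) (P : Place K F) :
    setDiv t P = if P ∈ t then 1 else 0 := by
  simp only [setDiv, Finsupp.finsetSum_apply, Finsupp.single_apply]
  rw [Finset.sum_ite_eq']

omit [IsAlgClosed K] [IsFunctionField1 K F] in
theorem setDiv_nonneg (t : Finset (Place K F)) : 0 ≤ setDiv t :=
  Finset.sum_nonneg fun _ _ => RR.single_one_nonneg _

theorem degree_setDiv (t : Finset (Place K F)) : Divisor.degree (setDiv t) = t.card := by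
  simp [setDiv, map_sum, FermatAgent.Curve.deg_eq_one]

omit [IsAlgClosed K] [IsFunctionField1 K F] in
theorem setDiv_insert [DecidableEq (Place K F)] {t : Finset (Place K F)} {P : Place K F}
    (h : P ∉ t) : setDiv (insert P t) = Finsupp.single P 1 + setDiv t := by
  simp [setDiv, Finset.sum_insert h]

/-- Vanishing of the evaluations at a set of places cuts out `L(D - ∑ P)`. -/
theorem forall_evLin_eq_zero_iff {D : Divisor K F} (f : riemannRochSpace D)
    (t : Finset (Place K F)) :
    (∀ P ∈ t, evLin D f P = 0) ↔ (f : F) ∈ riemannRochSpace (D - setDiv t) := by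
  classical
  simp only [evLin_eq_zero_iff]
  rcases eq_or_ne (f : F) 0 with h0 | h0
  · simp [h0]
  have hf := fun v => (mem_riemannRochSpace_iff.mp f.2 v).resolve_left h0
  constructor
  · refine fun h => mem_riemannRochSpace_iff.mpr fun v => Or.inr ?_
    rw [Finsupp.sub_apply, setDiv_apply]
    split
    · next hv =>
      have := (mem_riemannRochSpace_iff.mp (h v hv) v).resolve_left h0
      rw [Finsupp.sub_apply, Finsupp.single_eq_same] at this
      exact this
    · rw [sub_zero]; exact hf v
  · intro h P hP
    refine mem_riemannRochSpace_iff.mpr fun v => Or.inr ?_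
    have h1 := (mem_riemannRochSpace_iff.mp h v).resolve_left h0
    rw [Finsupp.sub_apply, setDiv_apply] at h1
    rw [Finsupp.sub_apply]
    rcases eq_or_ne v P with rfl | hv
    · rw [Finsupp.single_eq_same]; rwa [if_pos hP] at h1
    · rw [Finsupp.single_eq_of_ne hv]; have := hf v; omega

/-- `evDet` at distinct points is non-zero iff `l(D - ∑ Q) = 0`. -/
theorem evDet_ne_zero_iff_ell {r : ℕ} {D : Divisor K F}
    (b : Module.Basis (Fin r) K (riemannRochSpace D)) {Q : Fin r → Place K F}
    {t : Finset (Place K F)} (ht : ∀ P, P ∈ t ↔ ∃ j, Q j = P) :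
    evDet b Q ≠ 0 ↔ RR.ell (D - setDiv t) = 0 := by
  rw [evDet_ne_zero_iff]
  have hiff : ∀ f : riemannRochSpace D, (∀ j, evLin D f (Q j) = 0) ↔
      (f : F) ∈ riemannRochSpace (D - setDiv t) := fun f => by
    rw [← forall_evLin_eq_zero_iff f t]
    exact ⟨fun h P hP => by obtain ⟨j, rfl⟩ := (ht P).mp hP; exact h j,
      fun h j => h _ ((ht _).mpr ⟨j, rfl⟩)⟩
  simp only [hiff]
  unfold RR.ell
  rw [Submodule.finrank_eq_zero]
  constructor
  · intro h
    refine (Submodule.eq_bot_iff _).mpr fun f hf => ?_
    have hfD : f ∈ riemannRochSpace D :=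
      RR.riemannRochSpace_mono (sub_le_self D (setDiv_nonneg t)) hf
    exact congrArg Subtype.val (h ⟨f, hfD⟩ hf)
  · intro h f hf
    rw [h, Submodule.mem_bot] at hf
    exact Subtype.ext hf

theorem finite_ramified_adjoin [CharZero K] {f : F} (hf : Transcendental K f) :
    ∃ S : Set (Place K F), S.Finite ∧ ∀ (c : K) (P : Place K F), P ∉ S →
      0 < P.ord (f - algebraMap K F c) → P.ord (f - algebraMap K F c) = 1 := by
  have := finiteDimensional_adjoin_of_transcendental (K := K) hf
  have := isSeparable_adjoin (K := K) hf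
  set u : K⟮f⟯ := AdjoinSimple.gen K f with hu'
  have hu : Diff.IsGen K u := by
    refine ⟨fun h => hf ((isAlgebraic_algHom_iff K⟮f⟯.val K⟮f⟯.val.injective).mpr h), ?_⟩
    apply IntermediateField.map_injective K⟮f⟯.val
    rw [adjoin_map, Set.image_singleton, ← AlgHom.fieldRange_eq_map, fieldRange_val]
    rfl
  refine ⟨_, Diff.finite_ramified (F := F) hu, fun c P hP hpos => ?_⟩
  have hmem : P ∈ Diff.zerosAt (F := F) u c := by
    rw [Diff.zerosAt, mem_zerosFinset]
    exact hpos
  have hram : Diff.ramIdx K u P ≤ 1 := by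
    simp only [Set.mem_ofPred_eq, not_not] at hP
    omega
  rw [Diff.ramIdx_of_mem_zerosAt hmem, Diff.eAt] at hram
  have e : (algebraMap K⟮f⟯ F) u - algebraMap K F c = f - algebraMap K F c := rfl
  rw [e] at hram
  omega

/-- A reduced divisor in a complete linear system of degree `≥ 2g + 1`, avoiding a finite set. -/
theorem exists_reduced_linearEquiv [CharZero K] {D : Divisor K F}
    (h : 2 * (genusFF K F : ℤ) + 1 ≤ Divisor.degree D) {S : Set (Place K F)} (hS : S.Finite) :
    ∃ t : Finset (Place K F), (∀ P ∈ t, P ∉ S) ∧ (t.card : ℤ) = Divisor.degree D ∧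
      setDiv t - D ∈ Divisor.principal (K := K) (F := F) := by
  classical
  obtain ⟨s, hs, hs0, hsS⟩ := RR.exists_mem_forall_ord_eq (D := D) (by omega)
    (hS.toFinset ∪ D.support)
  set E₁ := D + RR.divFn s with hE₁
  obtain ⟨t, ht, ht0, htS⟩ := RR.exists_mem_forall_ord_eq (D := D) (by omega)
    (hS.toFinset ∪ E₁.support)
  set E₂ := D + RR.divFn t with hE₂
  have hE₁nn : ∀ P, 0 ≤ E₁ P := fun P => by
    have := (mem_riemannRochSpace_iff.mp hs P).resolve_left hs0
    rw [hE₁, Finsupp.add_apply, RR.divFn_apply]; omega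
  have hE₂nn : ∀ P, 0 ≤ E₂ P := fun P => by
    have := (mem_riemannRochSpace_iff.mp ht P).resolve_left ht0
    rw [hE₂, Finsupp.add_apply, RR.divFn_apply]; omega
  set f := t / s with hfdef
  have hordf : ∀ P : Place K F, P.ord f = E₂ P - E₁ P := fun P => by
    rw [hfdef, Curve.ord_div P ht0 hs0, hE₁, hE₂]
    simp only [Finsupp.add_apply, RR.divFn_apply]
    ring
  have hdisj : ∀ P, E₁ P ≠ 0 → E₂ P = 0 := fun P hP => by
    rw [hE₂, Finsupp.add_apply, RR.divFn_apply,
      htS P (Finset.mem_union_right _ (Finsupp.mem_support_iff.mpr hP))]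
    ring
  have hdeg : Divisor.degree E₁ = Divisor.degree D := by
    rw [hE₁, map_add, RR.degree_divFn, add_zero]
  obtain ⟨P₁, hP₁⟩ : ∃ P, E₁ P ≠ 0 := by
    by_contra hall
    push Not at hall
    have : E₁ = 0 := Finsupp.ext hall
    rw [this, map_zero] at hdeg
    omega
  have hf : Transcendental K f := transcendental_of_ord_ne_zero P₁ (by
    rw [hordf, hdisj P₁ hP₁]; omega)
  obtain ⟨R, hR, hRf⟩ := finite_ramified_adjoin hf
  obtain ⟨c, hc⟩ := ((hR.union hS).image fun P => valueAt P f).infinite_compl.nonempty
  have hfc : f - algebraMap K F c ≠ 0 := fun h0 => hf (by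
    rw [sub_eq_zero.mp h0]; exact isAlgebraic_algebraMap c)
  set g := t - algebraMap K F c * s with hg
  have hgfac : g = (f - algebraMap K F c) * s := by
    rw [sub_mul, hfdef, div_mul_cancel₀ t hs0]
  have hg0 : g ≠ 0 := hgfac ▸ mul_ne_zero hfc hs0
  set E := D + RR.divFn g with hE
  have hval : ∀ P : Place K F, E P = P.ord (f - algebraMap K F c) + E₁ P := fun P => by
    simp only [hE, hE₁, Finsupp.add_apply, RR.divFn_apply, hgfac, P.ord_mul hfc hs0]
    ring
  have hE01 : ∀ P, E P = if 0 < P.ord (f - algebraMap K F c) then 1 else 0 := by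
    intro P
    rw [hval]
    by_cases hP : E₁ P = 0
    · have hfmem : f ∈ P.toValuationSubring :=
        (mem_iff_ord_nonneg' P).mpr (by rw [hordf, hP]; have := hE₂nn P; omega)
      rw [hP, add_zero]
      have hmem : f - algebraMap K F c ∈ P.toValuationSubring :=
        sub_mem hfmem (P.algebraMap_mem' c)
      have hnn := ord_nonneg_of_mem' P hmem
      split
      · next hpos =>
        refine hRf c P (fun hPR => hc ⟨P, Or.inl hPR, ?_⟩) hpos
        exact valueAt_eq_of P (Or.inr hpos)
      · omega
    · have hneg : P.ord f < 0 := by rw [hordf, hdisj P hP]; have := hE₁nn P; omega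
      have hf0 : f ≠ 0 := fun h0 => by simp [h0] at hneg
      have hkey : P.ord (f - algebraMap K F c) = P.ord f := by
        rw [sub_eq_add_neg]
        refine ord_add_eq_left P hf0 (Or.inr ?_)
        rw [ord_neg, ord_algebraMap_const]
        exact hneg
      rw [if_neg (by omega), hkey, hordf, hdisj P hP]
      ring
  refine ⟨E.support, fun P hP hPS => ?_, ?_, ?_⟩
  · have hpos : 0 < P.ord (f - algebraMap K F c) := by
      by_contra hn
      exact Finsupp.mem_support_iff.mp hP (by rw [hE01, if_neg hn])
    exact hc ⟨P, Or.inr hPS, valueAt_eq_of P (Or.inr hpos)⟩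
  all_goals
    have hset : setDiv E.support = E := Finsupp.ext fun P => by
      rw [setDiv_apply]
      by_cases hP : P ∈ E.support
      · rw [if_pos hP, hE01, if_pos]
        by_contra hn
        exact Finsupp.mem_support_iff.mp hP (by rw [hE01, if_neg hn])
      · rw [if_neg hP, Finsupp.notMem_support_iff.mp hP]
  · rw [← degree_setDiv, hset, hE, map_add, RR.degree_divFn, add_zero]
  · rw [hset, hE, add_sub_cancel_left]
    exact RR.mem_principal_iff_divFn.mpr ⟨g, hg0, rfl⟩

/-- A general effective divisor of degree `k ≤ g - 1` does not make non-trivial classes of degree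
zero effective. -/
theorem exists_ell_add_eq_zero {ι : Type*} [Fintype ι] (w : ι → Divisor K F)
    (hw : ∀ i, Divisor.degree (w i) = 0) (hw0 : ∀ i, RR.ell (w i) = 0) (k : ℕ)
    (hk : k + 1 ≤ genusFF K F) {S : Set (Place K F)} (hS : S.Finite) :
    ∃ t : Finset (Place K F), t.card = k ∧ (∀ P ∈ t, P ∉ S) ∧
      ∀ i, RR.ell (w i + setDiv t) = 0 := by
  classical
  induction k with
  | zero => exact ⟨∅, rfl, by simp, fun i => by simpa [setDiv] using hw0 i⟩
  | succ k ih =>
    obtain ⟨t, htc, htS, ht⟩ := ih (by omega)
    have hex : ∀ i, ∃ f ∈ riemannRochSpace (RR.weilCanonical K F - (w i + setDiv t)), f ≠ 0 := by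
      intro i
      refine Submodule.exists_mem_ne_zero_of_ne_bot fun hb => ?_
      have := RR.euler_char (w i + setDiv t)
      rw [ht i, RR.h1_eq_ell_weilCanonical_sub, map_add, hw i, degree_setDiv, htc] at this
      have hz : RR.ell (RR.weilCanonical K F - (w i + setDiv t)) = 0 := by
        unfold RR.ell; rw [hb, finrank_bot]
      omega
    choose f hf hf0 using hex
    have := RR.infinite_place (K := K) (F := F)
    obtain ⟨P, hP⟩ := ((hS.union t.finite_toSet).union (Set.finite_iUnion fun i =>
      ((RR.weilCanonical K F - (w i + setDiv t)).support.finite_toSet).union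
        (RR.finite_ord_ne_zero (K := K) (f i)))).infinite_compl.nonempty
    simp only [Set.mem_compl_iff, Set.mem_union, Set.mem_iUnion, not_or, not_exists,
      Finset.mem_coe, Finsupp.mem_support_iff, not_not, Set.mem_ofPred_eq] at hP
    obtain ⟨⟨hPS, hPt⟩, hP⟩ := hP
    refine ⟨insert P t, by rw [Finset.card_insert_of_notMem hPt, htc], ?_, fun i => ?_⟩
    · intro Q hQ
      rcases Finset.mem_insert.mp hQ with rfl | hQ
      · exact hPS
      · exact htS Q hQ
    · obtain ⟨hPW, hPf⟩ := hP i
      have hfi := hf i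
      have hA0 := ht i
      have hAdeg : Divisor.degree (w i + setDiv t) = (k : ℤ) := by
        rw [map_add, hw i, degree_setDiv, htc, zero_add]
      have e1 : w i + setDiv (insert P t) = (w i + setDiv t) + Finsupp.single P 1 := by
        rw [setDiv_insert hPt]; abel
      rw [e1]
      generalize w i + setDiv t = A at hfi hA0 hAdeg hPW ⊢
      have e2 : RR.weilCanonical K F - A =
          RR.weilCanonical K F - (A + Finsupp.single P 1) + Finsupp.single P 1 := by abel
      have e3 := RR.euler_char A
      have e4 := RR.euler_char (A + Finsupp.single P 1)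
      rw [RR.h1_eq_ell_weilCanonical_sub, e2] at e3
      rw [e2] at hfi
      have h1 := RR.ell_add_single_of_notMem hfi fun hcon => by
        have h3 := (mem_riemannRochSpace_iff.mp hcon P).resolve_left (hf0 i)
        rw [Finsupp.sub_apply, Finsupp.add_apply, Finsupp.single_eq_same] at h3
        rw [Finsupp.sub_apply] at hPW
        omega
      rw [RR.h1_eq_ell_weilCanonical_sub, map_add, RR.degree_single] at e4
      omega

end FermatAgent.MW
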