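import Mathlib.LinearAlgebra.Matrix.Determinant.Basic
import Mathlib.LinearAlgebra.Matrix.NonsingularInverse
import Mathlib.LinearAlgebra.Dimension.Constructions
import Mathlib.LinearAlgebra.Dual.Lemmas
import Mathlib.LinearAlgebra.FiniteDimensional.Basic
import Mathlib.GroupTheory.Perm.Sign

/-!
# Functions of several variables with slices in a given space

A function `f : (Fin r → X) → k` whose restrictions to every coordinate line lie in a space `U` of
functions with few zeros behaves like a polynomial: it is determined by its values on tuples from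
any large finite set, products of non-zero such functions are non-zero, and alternating ones with
`dim U = r` are determinants.
-/

set_option autoImplicit false

noncomputable section

namespace FermatAgent.MW

variable {k : Type*} [Field k] {X : Type*} {r : ℕ}

/-- All coordinate slices of `f` lie in `U`. -/
def IsSlice (U : Submodule k (X → k)) (f : (Fin r → X) → k) : Prop :=
  ∀ (j : Fin r) (Q : Fin r → X), (fun x => f (Function.update Q j x)) ∈ U

/-- Nonzero elements of `U` have at most `d` zeros. -/
def FewZeros (U : Submodule k (X → k)) (d : ℕ) : Prop :=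
  ∀ u ∈ U, u ≠ 0 → ∀ t : Finset X, (∀ x ∈ t, u x = 0) → t.card ≤ d

/-- The space of functions with slices in `U`. -/
def sliceSpace (U : Submodule k (X → k)) (r : ℕ) : Submodule k ((Fin r → X) → k) where
  carrier := {f | IsSlice U f}
  zero_mem' := fun _ _ => U.zero_mem
  add_mem' := fun hf hg j Q => U.add_mem (hf j Q) (hg j Q)
  smul_mem' := fun c _ hf j Q => U.smul_mem c (hf j Q)

theorem IsSlice.mono {U V : Submodule k (X → k)} {f : (Fin r → X) → k} (h : U ≤ V)
    (hf : IsSlice U f) : IsSlice V f := fun j Q => h (hf j Q)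

/-- Simultaneous non-vanishing on tuples from a large set. -/
theorem exists_tuple_forall_ne_zero {ι : Type*} [Fintype ι] {U : ι → Submodule k (X → k)}
    {d : ι → ℕ} (hU : ∀ i, FewZeros (U i) (d i)) {f : ι → (Fin r → X) → k}
    (hf : ∀ i, IsSlice (U i) (f i)) (h0 : ∀ i, f i ≠ 0) {s : Finset X}
    (hs : ∑ i, d i < s.card) :
    ∃ Q : Fin r → X, (∀ j, Q j ∈ s) ∧ ∀ i, f i Q ≠ 0 := by
  classical
  suffices H : ∀ J : Finset (Fin r), ∃ (R : Fin r → X) (P : ι → Fin r → X),
      (∀ j ∈ J, R j ∈ s) ∧ (∀ i, ∀ j ∈ J, P i j = R j) ∧ ∀ i, f i (P i) ≠ 0 by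
    obtain ⟨R, P, hR, hP, hne⟩ := H Finset.univ
    refine ⟨R, fun j => hR j (Finset.mem_univ j), fun i => ?_⟩
    have : P i = R := funext fun j => hP i j (Finset.mem_univ j)
    exact this ▸ hne i
  intro J
  induction J using Finset.induction with
  | empty =>
    choose P hP using fun i => Function.ne_iff.mp (h0 i)
    obtain ⟨x, -⟩ := Finset.card_pos.mp (by omega : 0 < s.card)
    exact ⟨fun _ => x, P, by simp, by simp, hP⟩
  | insert a J haJ ih =>
    obtain ⟨R, P, hR, hP, hne⟩ := ih
    have hu : ∀ i, (fun x => f i (Function.update (P i) a x)) ≠ 0 := fun i h => hne i <| by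
      simpa using congrFun h (P i a)
    have hcard : (s.biUnion fun x => (Finset.univ.filter fun i =>
        f i (Function.update (P i) a x) = 0).image fun _ => x).card ≤ ∑ i, d i := by
      refine le_trans (Finset.card_le_card (t := Finset.univ.biUnion fun i =>
        s.filter fun x => f i (Function.update (P i) a x) = 0) fun x hx => ?_)
        (le_trans Finset.card_biUnion_le (Finset.sum_le_sum fun i _ =>
          hU i _ (hf i a (P i)) (hu i) _ fun x hx => (Finset.mem_filter.mp hx).2))
      simp only [Finset.mem_biUnion, Finset.mem_image, Finset.mem_filter, Finset.mem_univ,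
        true_and] at hx ⊢
      obtain ⟨y, hy, i, hi, rfl⟩ := hx
      exact ⟨i, hy, hi⟩
    obtain ⟨x, hxs, hx⟩ := Finset.exists_mem_notMem_of_card_lt_card (hcard.trans_lt hs)
    refine ⟨Function.update R a x, fun i => Function.update (P i) a x, ?_, ?_, fun i hzero => ?_⟩
    · intro j hj
      rcases Finset.mem_insert.mp hj with rfl | hj
      · simpa using hxs
      · simp only [Function.update_of_ne (ne_of_mem_of_not_mem hj haJ)]; exact hR j hj
    · intro i j hj
      rcases Finset.mem_insert.mp hj with rfl | hj
      · simp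
      · simp only [Function.update_of_ne (ne_of_mem_of_not_mem hj haJ)]; exact hP i j hj
    · apply hx
      simp only [Finset.mem_biUnion, Finset.mem_image, Finset.mem_filter, Finset.mem_univ,
        true_and]
      exact ⟨x, hxs, i, hzero, rfl⟩

theorem exists_tuple_mul_ne_zero {U V : Submodule k (X → k)} {d e : ℕ} (hU : FewZeros U d)
    (hV : FewZeros V e) {f g : (Fin r → X) → k} (hf : IsSlice U f) (hg : IsSlice V g)
    (hf0 : f ≠ 0) (hg0 : g ≠ 0) {s : Finset X} (hs : d + e < s.card) :
    ∃ Q : Fin r → X, (∀ j, Q j ∈ s) ∧ f Q ≠ 0 ∧ g Q ≠ 0 := by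
  obtain ⟨Q, hQ, hne⟩ := exists_tuple_forall_ne_zero (U := ![U, V]) (d := ![d, e]) (f := ![f, g])
    (by simp [Fin.forall_fin_two, hU, hV]) (by simp [Fin.forall_fin_two, hf, hg])
    (by simp [Fin.forall_fin_two, hf0, hg0]) (s := s) (by simpa [Fin.sum_univ_two] using hs)
  exact ⟨Q, hQ, hne 0, hne 1⟩

/-- A slice function vanishing on tuples from a large set vanishes. -/
theorem IsSlice.eq_zero {U : Submodule k (X → k)} {d : ℕ} (hU : FewZeros U d)
    {f : (Fin r → X) → k} (hf : IsSlice U f) {s : Finset X} (hs : d < s.card)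
    (h : ∀ Q : Fin r → X, (∀ j, Q j ∈ s) → f Q = 0) : f = 0 := by
  by_contra h0
  obtain ⟨Q, hQ, hne⟩ := exists_tuple_forall_ne_zero (ι := Fin 1) (U := fun _ => U)
    (d := fun _ => d) (f := fun _ => f) (fun _ => hU) (fun _ => hf) (fun _ => h0)
    (s := s) (by simpa using hs)
  exact hne 0 (h Q hQ)

theorem IsSlice.eq_of_eqOn {U : Submodule k (X → k)} {d : ℕ} (hU : FewZeros U d)
    {f g : (Fin r → X) → k} (hf : IsSlice U f) (hg : IsSlice U g) {s : Finset X}
    (hs : d < s.card) (h : ∀ Q : Fin r → X, (∀ j, Q j ∈ s) → f Q = g Q) : f = g :=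
  sub_eq_zero.mp <| ((sliceSpace U r).sub_mem (x := f) (y := g) hf hg : IsSlice U (f - g)).eq_zero
    hU hs fun Q hQ => sub_eq_zero.mpr (h Q hQ)

/-! ### Alternating slice functions -/

/-- Alternating function of tuples. -/
def IsAlt (f : (Fin r → X) → k) : Prop :=
  (∀ (Q : Fin r → X) (π : Equiv.Perm (Fin r)), f (Q ∘ π) = (Equiv.Perm.sign π : ℤ) • f Q) ∧
    ∀ (Q : Fin r → X) (i j : Fin r), i ≠ j → Q i = Q j → f Q = 0

/-- Determinant of a family of functions at a tuple. -/
def detFun (u : Fin r → X → k) (Q : Fin r → X) : k := (Matrix.of fun i j => u i (Q j)).det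

theorem isAlt_detFun (u : Fin r → X → k) : IsAlt (detFun u) := by
  refine ⟨fun Q π => ?_, fun Q i j hij h => Matrix.det_zero_of_column_eq hij fun l => by simp [h]⟩
  have : (Matrix.of fun i j => u i ((Q ∘ π) j)) =
      (Matrix.of fun i j => u i (Q j)).submatrix id π := rfl
  rw [detFun, this, Matrix.det_permute', zsmul_eq_mul]
  rfl

theorem isSlice_detFun (u : Fin r → X → k) :
    IsSlice (Submodule.span k (Set.range u)) (detFun u) := by
  intro j Q
  have : (fun x => detFun u (Function.update Q j x)) = ∑ i,
      ((Matrix.of fun a b => u a (Q b)).updateCol j (Pi.single i 1)).det • u i := by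
    funext x
    have hm : (Matrix.of fun a b => u a (Function.update Q j x b)) =
        (Matrix.of fun a b => u a (Q b)).updateCol j (∑ i, u i x • Pi.single i (1 : k)) := by
      ext a b
      rcases eq_or_ne b j with rfl | hb
      · simp [Finset.sum_apply, Pi.single_apply]
      · simp [hb]
    rw [detFun, hm, Finset.sum_apply]
    let D : (Fin r → k) →ₗ[k] k := {
      toFun := fun c => ((Matrix.of fun a b => u a (Q b)).updateCol j c).det
      map_add' := fun c c' => Matrix.det_updateCol_add _ j c c'
      map_smul' := fun t c => Matrix.det_updateCol_smul _ j t c }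
    show D _ = _
    rw [map_sum]
    simp only [map_smul, smul_eq_mul, Pi.smul_apply, mul_comm (u _ x)]
    rfl
  rw [this]
  exact Submodule.sum_mem _ fun i _ => Submodule.smul_mem _ _ (Submodule.subset_span ⟨i, rfl⟩)

theorem detFun_smul_rows (c : Fin r → X → k) (u : Fin r → X → k) (a : X → k)
    (h : ∀ i x, c i x = a x * u i x) (Q : Fin r → X) :
    detFun c Q = (∏ j, a (Q j)) * detFun u Q := by
  rw [detFun, detFun, ← Matrix.det_mul_row (fun j => a (Q j))]
  congr 1
  ext i j
  simp [h]

/-- An alternating slice function vanishing at a tuple imposing independent conditions is zero. -/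
theorem IsAlt.eq_zero_of_apply {U : Submodule k (X → k)} {f : (Fin r → X) → k} (hf : IsSlice U f)
    (ha : IsAlt f) {I : Fin r → X} (hI : ∀ u ∈ U, (∀ j, u (I j) = 0) → u = 0) (h0 : f I = 0) :
    f = 0 := by
  classical
  suffices H : ∀ (J : Finset (Fin r)) (Q : Fin r → X), (∀ j ∉ J, ∃ l, Q j = I l) → f Q = 0 from
    funext fun Q => H Finset.univ Q (by simp)
  intro J
  induction J using Finset.induction with
  | empty =>
    intro Q hQ
    choose l hl using fun j => hQ j (Finset.notMem_empty j)
    have hQl : Q = I ∘ l := funext hl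
    by_cases hinj : Function.Injective l
    · have := ha.1 I (Equiv.ofBijective l hinj.bijective_of_finite)
      rw [show (I ∘ ⇑(Equiv.ofBijective l hinj.bijective_of_finite)) = Q from hQl.symm, h0,
        smul_zero] at this
      exact this
    · simp only [Function.Injective, not_forall] at hinj
      obtain ⟨i, j, hij, hne⟩ := hinj
      exact ha.2 Q i j hne (by rw [hl i, hl j, hij])
  | insert a J haJ ih =>
    intro Q hQ
    have hu : (fun x => f (Function.update Q a x)) = 0 := hI _ (hf a Q) fun l => ih _ fun j hj => by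
      rcases eq_or_ne j a with rfl | hja
      · exact ⟨l, by simp⟩
      · rw [Function.update_of_ne hja]
        exact hQ j (by simp [hja, hj])
    simpa using congrFun hu (Q a)

theorem slice_apply_self {f : (Fin r → X) → k} (ha : IsAlt f) (I : Fin r → X) (j l : Fin r) :
    f (Function.update I j (I l)) = if j = l then f I else 0 := by
  rcases eq_or_ne j l with rfl | hjl
  · simp
  · rw [if_neg hjl]
    exact ha.2 _ j l hjl (by simp [Function.update_of_ne hjl.symm])

/-- The slices through a non-zero value are linearly independent. -/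
theorem linearIndependent_slices {f : (Fin r → X) → k} (ha : IsAlt f) {I : Fin r → X}
    (h0 : f I ≠ 0) : LinearIndependent k fun j x => f (Function.update I j x) := by
  rw [Fintype.linearIndependent_iff]
  intro c hc l
  have := congrFun hc (I l)
  simp only [Finset.sum_apply, Pi.smul_apply, slice_apply_self ha, smul_eq_mul, mul_ite, mul_zero,
    Finset.sum_ite_eq', Finset.mem_univ, if_true, Pi.zero_apply] at this
  exact (mul_eq_zero.mp this).resolve_right h0

theorem le_finrank_of_isAlt {U : Submodule k (X → k)} [Module.Finite k U] {f : (Fin r → X) → k}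
    (hf : IsSlice U f) (ha : IsAlt f) (h0 : f ≠ 0) : r ≤ Module.finrank k U := by
  obtain ⟨I, hI⟩ := Function.ne_iff.mp h0
  have hli : LinearIndependent k
      (fun j => (⟨fun x => f (Function.update I j x), hf j I⟩ : U)) :=
    LinearIndependent.of_comp U.subtype (linearIndependent_slices ha hI)
  simpa using hli.fintype_card_le_finrank

/-- If `dim U = r` then alternating slice functions are multiples of the determinant. -/
theorem exists_eq_smul_detFun {U : Submodule k (X → k)} {u : Fin r → X → k}
    (hu : Submodule.span k (Set.range u) = U) {f : (Fin r → X) → k} (hf : IsSlice U f)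
    (ha : IsAlt f) {I : Fin r → X} (hI : detFun u I ≠ 0) :
    f = (f I / detFun u I) • detFun u := by
  have key : ∀ v ∈ U, (∀ j, v (I j) = 0) → v = 0 := by
    intro v hv hz
    rw [← hu] at hv
    obtain ⟨c, rfl⟩ := (Submodule.mem_span_range_iff_exists_fun k).mp hv
    have hvm : Matrix.vecMul c (Matrix.of fun i j => u i (I j)) = 0 := funext fun j => by
      simpa [Matrix.vecMul, dotProduct, Finset.sum_apply] using hz j
    have hunit : IsUnit (Matrix.of fun i j => u i (I j)) :=
      (Matrix.isUnit_iff_isUnit_det _).mpr hI.isUnit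
    have hc0 : c = 0 := Matrix.vecMul_injective_of_isUnit hunit (by simpa using hvm)
    simp [hc0]
  refine sub_eq_zero.mp (IsAlt.eq_zero_of_apply (U := U) ?_ ?_ key ?_)
  · exact (sliceSpace U r).sub_mem hf ((sliceSpace U r).smul_mem _ (hu ▸ isSlice_detFun u))
  · refine ⟨fun Q π => ?_, fun Q i j hij h => ?_⟩
    · simp only [Pi.sub_apply, Pi.smul_apply, ha.1, (isAlt_detFun u).1, smul_eq_mul, zsmul_eq_mul]
      ring
    · simp [ha.2 Q i j hij h, (isAlt_detFun u).2 Q i j hij h]
  · simp [hI]

/-! ### Evaluation at further points -/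

/-- The values at a tuple are fixed linear combinations of the values on tuples from `s`. -/
theorem exists_extension {U : Submodule k (X → k)} {d : ℕ} (hU : FewZeros U d) {s : Finset X}
    (hs : d < s.card) (P : Fin r → X) :
    ∃ Λ : (Fin r → s) → k, ∀ f : (Fin r → X) → k, IsSlice U f →
      f P = ∑ Q, Λ Q * f (fun j => (Q j : X)) := by
  classical
  let ev : sliceSpace U r →ₗ[k] ((Fin r → s) → k) := {
    toFun := fun f Q => (f : (Fin r → X) → k) fun j => (Q j : X)
    map_add' := fun _ _ => rfl
    map_smul' := fun _ _ => rfl }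
  have hinj : Function.Injective ev := by
    refine (injective_iff_map_eq_zero _).mpr fun f hf => Subtype.ext (f.2.eq_zero hU hs fun Q hQ =>
      congrFun hf fun j => ⟨Q j, hQ j⟩)
  obtain ⟨l, hl⟩ := LinearMap.exists_leftInverse_of_injective ev (LinearMap.ker_eq_bot.mpr hinj)
  let φ : ((Fin r → s) → k) →ₗ[k] k :=
    ((LinearMap.proj P).comp (sliceSpace U r).subtype).comp l
  refine ⟨fun Q => φ (Pi.single Q 1), fun f hf => ?_⟩
  have h1 : φ (ev ⟨f, hf⟩) = f P := by
    show (l (ev ⟨f, hf⟩) : (Fin r → X) → k) P = f P
    rw [← LinearMap.comp_apply, hl]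
    rfl
  rw [← h1, LinearMap.pi_apply_eq_sum_univ φ (ev ⟨f, hf⟩)]
  refine Finset.sum_congr rfl fun Q _ => ?_
  rw [smul_eq_mul, mul_comm]
  congr 1
  exact congrArg φ (funext fun R => by simp [Pi.single_apply, eq_comm])

end FermatAgent.MW
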