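import Fermat.Agent.MW.Inertia
import Fermat.Agent.MW.Galois
import Fermat.Agent.MW.Kummer
import Fermat.Agent.LocalP.Places

/-!
# The weak Mordell–Weil theorem for the prime two
-/

set_option autoImplicit false

noncomputable section

open AlgebraicCurve FermatAgent.Curve IsDedekindDomain NumberField

namespace FermatAgent.MW

open FermatAgent.Duality.Global (Over ord)

local notation "Qb" => AlgebraicClosure ℚ
local notation "GQ" => AlgebraicClosure ℚ ≃ₐ[ℚ] AlgebraicClosure ℚ

attribute [local instance] FermatAgent.RT.isGalois_algClosureRat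
  FermatAgent.Duality.Global.numberField_of_finite

variable {F : Type*} [Field F] [Algebra Qb F] [IsFunctionField1 Qb F]

/-- The classes defined over a field. -/
def GaloisData.rationalClasses (D : GaloisData Qb F) (E : IntermediateField ℚ Qb) :
    AddSubgroup (Pic0 Qb F) where
  carrier := {y | D.DefinedOver E y}
  zero_mem' := fun _ _ => smul_zero _
  add_mem' := fun {x y} hx hy σ hσ => by rw [smul_add, hx σ hσ, hy σ hσ]
  neg_mem' := fun {x} hx σ hσ => by rw [smul_neg, hx σ hσ]

theorem exists_field_constants {C : Set Qb} (hC : C.Finite) :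
    ∃ E : IntermediateField ℚ Qb, FiniteDimensional ℚ E ∧ C ⊆ (E : Set Qb) := by
  refine ⟨IntermediateField.adjoin ℚ C, ?_, IntermediateField.subset_adjoin ℚ C⟩
  have := hC.to_subtype
  exact IntermediateField.finiteDimensional_adjoin fun x _ =>
    ((AlgebraicClosure.isAlgebraic ℚ).isAlgebraic x).isIntegral

/-- Coordinates commute with the Galois action. -/
theorem GaloisData.sameLine_coord (D : GaloisData Qb F) {M : Divisor Qb F} (hM : IsBig M)
    {s : Finset (Place Qb F)} {σ : GQ} (hσM : D.act σ • M = M)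
    (hσs : ∀ P ∈ s, D.act σ • P = P) (hzero : ∀ P ∈ s, M P = 0) (y : Pic0 Qb F) :
    SameLine (coord M s (D.act σ • y)) (σ ∘ coord M s y) := by
  have h := sameLine_coord_smul hM (D.act σ) hσM hσs hzero y
  rwa [show ⇑(SemilinearAut.baseAut (D.act σ)) = ⇑σ from funext (D.baseAut_act σ)] at h

/-- Weak Mordell–Weil. -/
theorem exists_field_finiteIndex (D : GaloisData Qb F) {M G₀ : Divisor Qb F} (hM : IsBig M)
    (hG₀ : 2 * (genusFF Qb F : ℤ) + 1 ≤ Divisor.degree G₀) {s : Finset (Place Qb F)}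
    (hs : 6 * (Divisor.degree M).toNat < s.card) {s' : Finset (Place Qb F)}
    (hs' : Large (M + G₀) s') (hzero : ∀ P ∈ s', (M + G₀) P = 0) {A : Pic0 Qb F}
    (hA : A + A ≠ 0) :
    ∃ E₀ : IntermediateField ℚ Qb, FiniteDimensional ℚ E₀ ∧
      ∀ E : IntermediateField ℚ Qb, FiniteDimensional ℚ E → E₀ ≤ E →
        (nsmulAddMonoidHom (α := D.rationalClasses E) 2).range.FiniteIndex := by
  classical
  obtain ⟨C, hC, hcert⟩ := exists_inertia_cert hM hG₀ hs hs' hA
  obtain ⟨E₁, hE₁, hCE⟩ := exists_field_constants hC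
  obtain ⟨E₂, hE₂, h₂⟩ := D.exists_field_divisor (M + G₀)
  obtain ⟨E₃, hE₃, h₃⟩ := D.exists_field_finset s' fun P _ => D.exists_field_place P
  obtain ⟨E₄, hE₄, h₄⟩ := D.exists_field_finset
    (insert A (finite_two_torsion (K := Qb) (F := F)).toFinset) fun y _ => D.exists_field_pic y
  refine ⟨E₁ ⊔ E₂ ⊔ E₃ ⊔ E₄, inferInstance, fun E hE hle => ?_⟩
  simp only [sup_le_iff] at hle
  obtain ⟨⟨⟨hle₁, hle₂⟩, hle₃⟩, hle₄⟩ := hle
  replace h₂ := h₂.mono hle₂
  replace h₃ := fun P hP => (h₃ P hP).mono hle₃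
  have hAE : D.DefinedOver E A := (h₄ A (Finset.mem_insert_self _ _)).mono hle₄
  have htor : ∀ R : Pic0 Qb F, R + R = 0 → D.DefinedOver E R := fun R hR =>
    (h₄ R (Finset.mem_insert_of_mem ((Set.Finite.mem_toFinset _).mpr hR))).mono hle₄
  -- bad primes
  have hT : {P : HeightOneSpectrum (𝓞 E) | ∃ c : Eˣ, ((c : E) : Qb) ∈ C ∧ ord P c < 0}.Finite := by
    have hfin : {c : Eˣ | ((c : E) : Qb) ∈ C}.Finite :=
      hC.preimage fun a _ b _ h => Units.ext (Subtype.ext h)
    refine (hfin.biUnion fun c _ =>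
      FermatAgent.Duality.Global.finite_setOf_ord_ne_zero c).subset fun P ⟨c, hc, hP⟩ => ?_
    exact Set.mem_biUnion hc (ne_of_lt hP)
  have hint : ∀ (O : ValuationSubring Qb) (P : HeightOneSpectrum (𝓞 E)), Over E O P →
      P ∉ hT.toFinset → C ⊆ (O : Set Qb) := fun O P hOP hP c hc => by
    rcases eq_or_ne c 0 with rfl | hc0
    · exact zero_mem O
    have hcE : c ∈ E := hle₁ (hCE hc)
    let u : Eˣ := Units.mk0 ⟨c, hcE⟩ fun h => hc0 (congrArg Subtype.val h)
    have hu : 0 ≤ ord P u := by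
      by_contra hneg
      exact hP (hT.mem_toFinset.mpr ⟨u, hc, not_le.mp hneg⟩)
    have h1 := (hOP.val_le_iff u 1).mpr (by simpa using hu)
    simpa [u, O.valuation_le_one_iff] using h1
  choose half hhalf using exists_add_self_eq (K := Qb) (F := F)
  set G := D.rationalClasses E
  let V : AddSubgroup (Pic0 Qb F) :=
    { carrier := {R | R + R = 0}
      zero_mem' := add_zero 0
      add_mem' := fun {x y} (hx : x + x = 0) (hy : y + y = 0) =>
        show x + y + (x + y) = 0 by rw [add_add_add_comm, hx, hy, add_zero]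
      neg_mem' := fun {x} (hx : x + x = 0) => show -x + -x = 0 by rw [← neg_add, hx, neg_zero] }
  let : Module (ZMod 2) V := AddCommGroup.zmodModule fun x => Subtype.ext (by
    show ((2 : ℕ) • x : V).1 = 0
    rw [two_nsmul]; exact x.2)
  have : Finite V := (finite_two_torsion (K := Qb) (F := F)).to_subtype
  have : Finite (Module.Dual (ZMod 2) V) := Finite.of_injective _ DFunLike.coe_injective
  have hdiff : ∀ (x : G) (σ : E.fixingSubgroup),
      D.act σ • half x.1 - half x.1 ∈ V := fun x σ => by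
    show D.act σ • half x.1 - half x.1 + (D.act σ • half x.1 - half x.1) = 0
    rw [sub_add_sub_comm, ← smul_add (D.act (σ : GQ)) (half x.1) (half x.1), hhalf, x.2 σ σ.2, sub_self]
  let cocycle : G → E.fixingSubgroup → V := fun x σ => ⟨_, hdiff x σ⟩
  -- characters are unramified
  let χ : G → Module.Dual (ZMod 2) V → E.fixingSubgroup → ZMod 2 :=
    fun x l σ => l (cocycle x σ)
  have hfin := finite_unramified_signs (E := E) hT.toFinset
  have hχ : ∀ x l, χ x l ∈ {χ : E.fixingSubgroup → ZMod 2 | (∀ σ τ, χ (σ * τ) = χ σ + χ τ) ∧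
      (∃ L : IntermediateField ℚ Qb, FiniteDimensional ℚ L ∧
        ∀ σ : E.fixingSubgroup, (σ : GQ) ∈ L.fixingSubgroup → χ σ = 0) ∧
      ∀ (O : ValuationSubring Qb) (P : HeightOneSpectrum (𝓞 E)), Over E O P → P ∉ hT.toFinset →
        ∀ σ : E.fixingSubgroup, (σ : GQ) ∈ O.inertiaSubgroupIn ℚ → χ σ = 0} := by
    intro x l
    refine ⟨fun σ τ => ?_, ?_, fun O P hOP hP σ hσ => ?_⟩
    · show l _ = l _ + l _
      rw [← map_add]
      refine congrArg l (Subtype.ext ?_)
      show D.act ((σ * τ : E.fixingSubgroup) : GQ) • half x.1 - half x.1 =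
        (D.act σ • half x.1 - half x.1) + (D.act τ • half x.1 - half x.1)
      have h1 := htor _ (hdiff x τ) σ σ.2
      rw [smul_sub] at h1
      rw [Subgroup.coe_mul, map_mul, mul_smul, ← h1]
      abel
    · obtain ⟨L, hL, hLQ⟩ := D.exists_field_pic (half x.1)
      refine ⟨L, hL, fun σ hσ => ?_⟩
      show l _ = 0
      rw [show cocycle x σ = 0 from Subtype.ext (sub_eq_zero.mpr (hLQ σ hσ)), map_zero]
    · show l _ = 0
      set Q := half x.1
      set R := D.act (σ : GQ) • Q - Q
      have hR0 : R = 0 := by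
        refine hcert O (hint O P hOP hP) (σ : GQ).toAlgHom.toRingHom (fun a ha => ?_) Q R
          (hdiff x σ) ?_ ?_
        · exact O.mem_nonunits_iff.mp ((FermatAgent.LocalP.mem_inertia_iff_sub_mem.mp hσ).2 a ha)
        · have h := D.sameLine_coord (isBig_add hM (by omega)) (h₂ σ σ.2)
            (fun P hP => h₃ P hP σ σ.2) hzero Q
          rw [show D.act (σ : GQ) • Q = Q + R by simp [R]] at h
          exact h.symm
        · have h := D.sameLine_coord (isBig_add hM (by omega)) (h₂ σ σ.2)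
            (fun P hP => h₃ P hP σ σ.2) hzero (Q + A)
          rw [smul_add, hAE σ σ.2, show D.act (σ : GQ) • Q + A = Q + A + R by simp only [R]; abel] at h
          exact h.symm
      rw [show cocycle x σ = 0 from Subtype.ext hR0, map_zero]
  have := hfin.to_subtype
  let inv : G ⧸ (nsmulAddMonoidHom (α := G) 2).range → Module.Dual (ZMod 2) V → ↥{χ : E.fixingSubgroup → ZMod 2 | (∀ σ τ, χ (σ * τ) = χ σ + χ τ) ∧
      (∃ L : IntermediateField ℚ Qb, FiniteDimensional ℚ L ∧
        ∀ σ : E.fixingSubgroup, (σ : GQ) ∈ L.fixingSubgroup → χ σ = 0) ∧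
      ∀ (O : ValuationSubring Qb) (P : HeightOneSpectrum (𝓞 E)), Over E O P → P ∉ hT.toFinset →
        ∀ σ : E.fixingSubgroup, (σ : GQ) ∈ O.inertiaSubgroupIn ℚ → χ σ = 0} :=
    fun q l => ⟨_, hχ q.out l⟩
  have : Finite (G ⧸ (nsmulAddMonoidHom (α := G) 2).range) := Finite.of_injective inv fun q q' hq => by
    rw [← q.out_eq, ← q'.out_eq]
    refine QuotientAddGroup.eq.mpr ?_
    have hc : ∀ σ : E.fixingSubgroup, cocycle q.out σ = cocycle q'.out σ := fun σ => by
      rw [← sub_eq_zero]
      refine (Module.forall_dual_apply_eq_zero_iff (ZMod 2) _).mp fun l => ?_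
      rw [map_sub, sub_eq_zero]
      exact congrFun (congrArg Subtype.val (congrFun hq l)) σ
    have hmem : half q'.out.1 - half q.out.1 ∈ G := fun σ hσ => by
      have h1 := congrArg Subtype.val (hc ⟨σ, hσ⟩)
      show D.act σ • _ = _
      change D.act σ • half q.out.1 - half q.out.1 = D.act σ • half q'.out.1 - half q'.out.1 at h1
      rw [smul_sub, sub_eq_sub_iff_sub_eq_sub]
      exact h1.symm
    refine ⟨⟨_, hmem⟩, Subtype.ext ?_⟩
    show (2 : ℕ) • (half q'.out.1 - half q.out.1) = -q.out.1 + q'.out.1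
    rw [two_nsmul, sub_add_sub_comm, hhalf, hhalf, neg_add_eq_sub]
  exact AddSubgroup.finiteIndex_of_finite_quotient

end FermatAgent.MW
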